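import Fermat.Agent.RT.LowerB.Normal
import Fermat.Agent.RT.Glue.Transfer
import Fermat.Agent.RT.Glue.Realisation
import Fermat.Agent.RT.Lifting.Inputs
import Fermat.Agent.RT.Lifting.StrictEq
import Fermat.Agent.RT.Pattern.Defs

/-!
# Strictness at `p` from the points

Given `StrictAtNew`, when `p` is exactly in the level of every point and every point is residually
ordinary there, the equations of strictness hold at every point with a sign, and since `p` is odd
the sign is the same at all of them.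
-/

set_option autoImplicit false

noncomputable section

namespace Fermat.Agent.RT.LowerB

open IsLocalRing Fermat.Agent.Deform Fermat.Agent.RT.Glue
open GaloisReps (HeckeGaloisModel)

/-- A matrix orthogonal to a spanning set for the trace pairing is zero. -/
theorem eq_zero_of_trace_mul {A ι : Type} [CommRing A] {r : ι → M2 A}
    (hspan : Submodule.span A (Set.range r) = ⊤) {X : M2 A} (h : ∀ g, (X * r g).trace = 0) :
    X = 0 := by
  have hall : ∀ Y, (X * Y).trace = 0 := fun Y => by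
    have hY : Y ∈ Submodule.span A (Set.range r) := by rw [hspan]; trivial
    induction hY using Submodule.span_induction with
    | mem Y hY => obtain ⟨g, rfl⟩ := hY; exact h g
    | zero => rw [mul_zero, Matrix.trace_zero]
    | add Y Z _ _ hY hZ => rw [mul_add, Matrix.trace_add, hY, hZ, add_zero]
    | smul c Y _ hY => rw [mul_smul_comm, Matrix.trace_smul, hY, smul_zero]
  ext i j
  have := hall (Matrix.single j i 1)
  simpa [Matrix.trace_mul_single] using this

/-- An element inverting the `p`-th roots of unity takes them to their powers `p - 1`. -/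
theorem apply_eq_pow_pred {p : ℕ} [Fact p.Prime] {τ : Gal}
    (h : ∀ μ : AlgebraicClosure ℚ, μ ^ p ^ 1 = 1 → τ μ = μ⁻¹) (μ : AlgebraicClosure ℚ)
    (hμ : μ ^ p ^ 1 = 1) : τ μ = μ ^ (p - 1) := by
  rw [h μ hμ]
  rw [pow_one] at hμ
  exact inv_eq_of_mul_eq_one_right (by
    rw [← pow_succ', Nat.sub_add_cancel (Fact.out : p.Prime).one_le, hμ])

/-- Inertia at `p` lies in the decomposition group. -/
private theorem mem_decomposition_of_mem_inertia {p : ℕ} [Fact p.Prime] {τ : Gal}
    (hτ : τ ∈ (padicPlace p).inertiaSubgroupIn ℚ) :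
    τ ∈ (padicPlace p).decompositionSubgroup ℚ := by
  obtain ⟨⟨τ', hτ'⟩, -, rfl⟩ := hτ
  exact hτ'

section Eq

variable {R : Type} [CommRing R] [IsDomain R] [IsLocalRing R] [IsNoetherianRing R] [CharZero R]
  {p : ℕ} [Fact p.Prime] {ρ : GaloisRepAdic R}

omit [CharZero R] in
/-- At a point a strictly ordinary representation has the equations with a sign. -/
theorem exists_sign_eq (hdet : ρ.DetIsCyclotomic p) (h : ρ.IsStrictOrdinaryAt p)
    {σ τ₀ : Gal} (hσ : σ ∈ (padicPlace p).decompositionSubgroup ℚ)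
    (hτ₀ : τ₀ ∈ (padicPlace p).inertiaSubgroupIn ℚ) :
    ∃ e : R, (e = 1 ∨ e = -1) ∧
      (σ ∈ (padicPlace p).inertiaSubgroupIn ℚ → e = 1) ∧
      (ρ.ρ τ₀ - LinearMap.det (ρ.ρ τ₀) • 1) * (ρ.ρ σ - e • 1) = 0 := by
  obtain ⟨L, ⟨b, hL⟩, hD, hI, hxz⟩ :=
    h.2 _ (CFT.Local.padicPlace_liesOverPrime p)
  have hb : b 0 ∈ L := hL ▸ Submodule.mem_span_singleton_self _
  -- `det = x z`
  have hdetxz : ∀ τ ∈ (padicPlace p).decompositionSubgroup ℚ, ∀ x z : R,
      (∀ w ∈ L, ρ.ρ τ w = x • w) → (∀ v, ρ.ρ τ v - z • v ∈ L) →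
      LinearMap.det (ρ.ρ τ) = x * z := fun τ _ x z hx hz => by
    obtain ⟨y, hy⟩ := Submodule.mem_span_singleton.1 (hL ▸ hz (b 1))
    have e1 : ρ.ρ τ (b 1) = y • b 0 + z • b 1 := by rw [hy]; abel
    rw [← LinearMap.det_toMatrix b, Matrix.det_fin_two]
    simp [LinearMap.toMatrix_apply, hx _ hb, e1]
  have hline : ∀ τ ∈ (padicPlace p).inertiaSubgroupIn ℚ, ∀ z : R,
      (∀ v, ρ.ρ τ v - z • v ∈ L) → z = 1 := fun τ hτ z hz => by
    have h1 : (z - 1) • b 1 ∈ L := by
      have := sub_mem (hI τ hτ (b 1)) (hz (b 1))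
      rw [sub_sub_sub_cancel_left] at this
      rwa [sub_smul, one_smul]
    obtain ⟨y, hy⟩ := Submodule.mem_span_singleton.1 (hL ▸ h1)
    have := congrArg (fun v => b.repr v 1) hy
    have h2 : z - 1 = 0 := by simpa [eq_comm] using this
    exact sub_eq_zero.1 h2
  obtain ⟨x, z, hx, hz, hcyc⟩ := hxz σ hσ
  have hz2 : (z - 1) * (z + 1) = 0 := by
    rw [← Ideal.mem_bot, ← Ideal.iInf_pow_eq_bot_of_isDomain (maximalIdeal R)
      (maximalIdeal.isMaximal R).ne_top, Ideal.mem_iInf]
    intro m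
    have hpm : Ideal.span {((p ^ (m + 1) : ℕ) : R)} ≤ maximalIdeal R ^ (m + 1) := by
      rw [Nat.cast_pow]
      exact (Ideal.span_singleton_le_iff_mem _).2 (Ideal.pow_mem_pow hdet.1 _)
    obtain ⟨a, ha⟩ := exists_exponent (p := p) σ (m + 1)
    have h1 := hpm (hcyc (m + 1) a ha)
    have h2 := hpm (hdet.2 (m + 1) σ a ha)
    have hau : IsUnit (a : R) := by
      by_contra hn
      have h3 : LinearMap.det (ρ.ρ σ) ∈ maximalIdeal R := by
        simpa using add_mem (Ideal.pow_le_self (Nat.succ_ne_zero m) h2) hn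
      exact h3 (((Group.isUnit σ).map ρ.ρ).map LinearMap.det)
    rw [hdetxz σ hσ x z hx hz] at h2
    have h4 : (a : R) * ((z - 1) * (z + 1)) ∈ maximalIdeal R ^ (m + 1) := by
      rw [show (a : R) * ((z - 1) * (z + 1)) = (x * z - a) - z * (x - a * z) by ring]
      exact sub_mem h2 (Ideal.mul_mem_left _ z h1)
    exact Ideal.pow_le_pow_right m.le_succ
      ((Ideal.unit_mul_mem_iff_mem _ hau).1 h4)
  refine ⟨z, ?_, fun hτ => hline σ hτ z hz, ?_⟩
  · rcases mul_eq_zero.1 hz2 with h0 | h0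
    · exact Or.inl (sub_eq_zero.1 h0)
    · exact Or.inr (eq_neg_of_add_eq_zero_left h0)
  · obtain ⟨x₀, z₀, hx₀, hz₀, -⟩ := hxz τ₀ (mem_decomposition_of_mem_inertia hτ₀)
    rw [hdetxz τ₀ (mem_decomposition_of_mem_inertia hτ₀) x₀ z₀ hx₀ hz₀, hline τ₀ hτ₀ z₀ hz₀,
      mul_one]
    refine LinearMap.ext fun v => ?_
    simp only [Module.End.mul_apply, LinearMap.sub_apply, LinearMap.smul_apply,
      Module.End.one_apply, LinearMap.zero_apply]
    rw [hx₀ _ (hz v), sub_self]

end Eq

section Trace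

variable {A : Type} [CommRing A]

/-- The strictness expression in traces. -/
private theorem trace_strict_expr {G : Type} [Monoid G] (r : G →* M2 A) (d e : A) (τ σ g : G) :
    ((r τ - d • 1) * (r σ - e • 1) * r g).trace =
      (r (τ * σ * g)).trace - e * (r (τ * g)).trace - d * (r (σ * g)).trace +
        d * e * (r g).trace := by
  simp only [map_mul, sub_mul, mul_sub, smul_mul_assoc, mul_smul_comm, one_mul, mul_one,
    smul_sub, smul_smul, Matrix.trace_sub, Matrix.trace_smul, smul_eq_mul]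
  ring

/-- The strictness expression in traces, for endomorphisms. -/
private theorem trace_strict_expr_end {V : Type} [AddCommGroup V] [Module A V] {G : Type}
    [Monoid G] (r : G →* Module.End A V) (d e : A) (τ σ g : G) :
    LinearMap.trace A V ((r τ - d • 1) * (r σ - e • 1) * r g) =
      LinearMap.trace A V (r (τ * σ * g)) - e * LinearMap.trace A V (r (τ * g)) -
        d * LinearMap.trace A V (r (σ * g)) + d * e * LinearMap.trace A V (r g) := by
  simp only [map_mul, sub_mul, mul_sub, smul_mul_assoc, mul_smul_comm, one_mul, mul_one,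
    smul_sub, smul_smul, map_sub, map_smul, smul_eq_mul]
  ring

/-- If the images of a representation span and `det r τ - 1` is a unit, then
`(r τ - det r τ) * r g` has unit trace for some `g`. -/
theorem exists_isUnit_trace [IsLocalRing A] (ru : Gal →* M2 A)
    (hspan : Submodule.span A (Set.range ru) = ⊤) {τ₀ : Gal} (hu : IsUnit ((ru τ₀).det - 1)) :
    ∃ g₀, IsUnit (((ru τ₀ - (ru τ₀).det • 1) * ru g₀).trace) := by
  set d := (ru τ₀).det with hd
  by_contra! hall
  have hX : ∀ Y : M2 A, ((ru τ₀ - d • 1) * Y).trace ∈ maximalIdeal A := fun Y => by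
    have hY : Y ∈ Submodule.span A (Set.range ru) := by rw [hspan]; trivial
    induction hY using Submodule.span_induction with
    | mem Y hY => obtain ⟨g, rfl⟩ := hY; exact hall g
    | zero => rw [mul_zero, Matrix.trace_zero]; exact zero_mem _
    | add Y Z _ _ hY hZ => rw [mul_add, Matrix.trace_add]; exact add_mem hY hZ
    | smul a Y _ hY => rw [mul_smul_comm, Matrix.trace_smul]; exact Ideal.mul_mem_left _ a hY
  have hent : ∀ i j, (ru τ₀ - d • 1) i j ∈ maximalIdeal A := fun i j => by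
    have := hX (Matrix.single j i 1)
    simpa [Matrix.trace_mul_single] using this
  have h00 : residue A (ru τ₀ 0 0) = residue A d := sub_eq_zero.1 (by
    rw [← map_sub, residue_eq_zero_iff]; simpa using hent 0 0)
  have h11 : residue A (ru τ₀ 1 1) = residue A d := sub_eq_zero.1 (by
    rw [← map_sub, residue_eq_zero_iff]; simpa using hent 1 1)
  have h01 : residue A (ru τ₀ 0 1) = 0 := by
    rw [residue_eq_zero_iff]; simpa using hent 0 1
  have hdd : residue A d = residue A d * residue A d := by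
    conv_lhs => rw [hd, Matrix.det_fin_two, map_sub, map_mul, map_mul, h00, h11, h01, zero_mul,
      sub_zero]
  have hdu : IsUnit d := ((Group.isUnit τ₀).map ru).map Matrix.detMonoidHom
  refine (residue_ne_zero_iff_isUnit (d - 1)).2 hu ?_
  rw [map_sub, map_one]
  exact mul_left_cancel₀ ((residue_ne_zero_iff_isUnit d).2 hdu)
    (by rw [mul_sub, mul_one, mul_zero, sub_eq_zero]; exact hdd.symm)

/-- A sign is the image of an integral sign. -/
private theorem exists_int_sign {e : A} (he : e = 1 ∨ e = -1) :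
    ∃ m : ℤ, (m : A) = e ∧ (m = 1 ∨ m = -1) := by
  rcases he with h | h
  · exact ⟨1, by rw [h, Int.cast_one], Or.inl rfl⟩
  · exact ⟨-1, by rw [h, Int.cast_neg, Int.cast_one], Or.inr rfl⟩

end Trace

section Glued

variable {O : Type} [CommRing O] [IsDomain O] [IsDiscreteValuationRing O]
  [IsAdicComplete (maximalIdeal O) O] [Finite (ResidueField O)] [CharZero O]
  {p : ℕ} [Fact p.Prime] {L : ℕ} [NeZero L] {Δ : Type} [CommGroup Δ] [Finite Δ]
  {ψ : (ZMod L)ˣ →* Δ} {T : Finset ℕ} {abar : ℕ → ResidueField O}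
  {H : HeckeModule L ψ T abar} [IsLocalRing H.algebra]
  {hS : ∀ q : ℕ, q.Prime → q ∣ L → q ∈ T} {D : ∀ (M : ℕ) [NeZero M], HeckeGaloisModel M p}
  {pt : ∀ θ : H.algebra →ₐ[O] KBar O, Point (p := p) H hS θ.toRingHom}

omit [IsAdicComplete (maximalIdeal O) O] [Finite (ResidueField O)] [CharZero O] [NeZero L]
  [Finite Δ] in
theorem det_adicRep (G : Glued D pt) (θ : H.algebra →ₐ[O] KBar O) (σ : Gal) :
    (pt θ).j (LinearMap.det (((pt θ).adicRep (D := D)).ρ σ)) = θ (G.R σ).det := by
  rw [G.det_eq, (pt θ).det_rep D]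
  rfl

omit [IsAdicComplete (maximalIdeal O) O] [Finite (ResidueField O)] [CharZero O] [NeZero L] in
/-- An element of inertia whose determinant is not residually one. -/
theorem exists_inertia_det_sub_one (hp : (p : O) ∈ maximalIdeal O)
    (hp2 : p ≠ 2) (G : Glued D pt) :
    ∃ τ₀ ∈ (padicPlace p).inertiaSubgroupIn ℚ, IsUnit ((G.R τ₀).det - 1) := by
  obtain ⟨τ, hτ, h⟩ := Mazur.Eisenstein.exists_inertia_inv
    (CFT.Local.padicPlace_liesOverPrime p) (Fact.out : p.Prime) 1
  refine ⟨τ, hτ, by_contra fun hn => ?_⟩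
  have h1 : (G.R τ).det - ((p - 1 : ℕ) : H.algebra) ∈ maximalIdeal H.algebra := by
    refine (Ideal.span_singleton_le_iff_mem _).2 (Ideal.pow_mem_pow (natCast_mem hp) 1) |>.trans
      (le_of_eq (pow_one (maximalIdeal H.algebra))) (G.det_congr 1 τ (p - 1) (apply_eq_pow_pred h))
  have h2 := sub_mem hn h1
  rw [Nat.cast_sub (Fact.out : p.Prime).one_le, Nat.cast_one, sub_sub_sub_cancel_left,
    sub_sub] at h2
  have h3 : (2 : H.algebra) ∈ maximalIdeal H.algebra := by
    simpa [one_add_one_eq_two] using sub_mem (natCast_mem (H := H) hp) h2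
  exact h3 (isUnit_two hp hp2)

omit [IsAdicComplete (maximalIdeal O) O] [Finite (ResidueField O)] [NeZero L] [CharZero O] in
/-- The sign is the same at all points, for odd `p` and `X * ru g₀` of unit trace: if at every
point the expression vanishes for one of the two signs, it vanishes identically for one of
them. -/
private theorem forall_eq_zero_or (hp : (p : O) ∈ maximalIdeal O) (hp2 : p ≠ 2)
    (ru : Gal →* M2 H.algebra) {X : M2 H.algebra} {g₀ : Gal}
    (hg₀ : IsUnit ((X * ru g₀).trace)) (σ : Gal)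
    (hpoint : ∀ θ : H.algebra →ₐ[O] KBar O, ∃ e : ℤ, (e = 1 ∨ e = -1) ∧
      ∀ g, θ ((X * (ru σ - (e : H.algebra) • 1) * ru g).trace) = 0) :
    (∀ g, (X * (ru σ - (1 : H.algebra) • 1) * ru g).trace = 0) ∨
      ∀ g, (X * (ru σ - (-1 : H.algebra) • 1) * ru g).trace = 0 := by
  refine or_iff_not_imp_left.2 fun hone g => eq_zero_of_forall_point fun θ => ?_
  obtain ⟨e, he, heq⟩ := hpoint θ
  rcases he with rfl | rfl
  swap
  · simpa using heq g
  exfalso
  refine hone fun g' => eq_zero_of_forall_point fun θ' => ?_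
  obtain ⟨e', he', heq'⟩ := hpoint θ'
  rcases he' with rfl | rfl
  · simpa using heq' g'
  exfalso
  have hm : ∀ (η : H.algebra →ₐ[O] KBar O) x, η x = 0 → x ∈ maximalIdeal H.algebra :=
    fun η x hx hxu => one_ne_zero (α := KBar O) (by
      obtain ⟨u, rfl⟩ := hxu
      have := congrArg η u.inv_mul
      rwa [map_mul, hx, mul_zero, map_one, eq_comm] at this)
  have h1 := hm θ _ (heq g₀)
  have h2 := hm θ' _ (heq' g₀)
  refine (?_ : (2 : H.algebra) * (X * ru g₀).trace ∈ maximalIdeal H.algebra)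
    ((isUnit_two hp hp2).mul hg₀)
  convert sub_mem h2 h1 using 1
  simp only [Int.cast_neg, Int.cast_one, sub_mul, mul_sub, neg_smul, one_smul, mul_neg, neg_mul,
    mul_one, Matrix.trace_neg, Matrix.trace_sub]
  ring

omit [NeZero L] in
/-- **The equations of strictness.** -/
theorem exists_strictEq (hp : (p : O) ∈ maximalIdeal O) (hp2 : p ≠ 2)
    (hstrict : Lifting.StrictAtNew p O) (G : Glued D pt)
    (hnew : ∀ θ, p ∣ (pt θ).M ∧ ¬ p ^ 2 ∣ (pt θ).M)
    (hord : ∀ θ, (GaloisRepAdic.ofResidualGaloisRep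
      ((pt θ).adicRep (D := D)).residual).IsOrdinaryAt p) {τ₀ : Gal}
    (hτ₀ : τ₀ ∈ (padicPlace p).inertiaSubgroupIn ℚ) (hu : IsUnit ((G.R τ₀).det - 1))
    (ru : Gal →* M2 H.algebra) (htr : ∀ σ, (ru σ).trace = (G.R σ).trace)
    (hdet : ∀ σ, (ru σ).det = (G.R σ).det)
    (hspan : Submodule.span H.algebra (Set.range ru) = ⊤) :
    ∃ ε : Gal → H.algebra,
      (∀ σ ∈ (padicPlace p).decompositionSubgroup ℚ, ε σ * ε σ = 1) ∧
      (∀ τ ∈ (padicPlace p).inertiaSubgroupIn ℚ, ε τ = 1) ∧
      Lifting.StrictEq ru τ₀ ε p := by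
  classical
  set d := (ru τ₀).det with hd
  let c : H.algebra → Gal → Gal → H.algebra := fun e σ g =>
    ((ru τ₀ - d • 1) * (ru σ - e • 1) * ru g).trace
  have hpoint : ∀ θ : H.algebra →ₐ[O] KBar O, ∀ σ ∈ (padicPlace p).decompositionSubgroup ℚ,
      ∃ e : ℤ, (e = 1 ∨ e = -1) ∧ (σ ∈ (padicPlace p).inertiaSubgroupIn ℚ → e = 1) ∧
        ∀ g, θ (c (e : H.algebra) σ g) = 0 := by
    intro θ σ hσ
    set P := pt θ
    set ρ := P.adicRep (D := D)
    have hdetθ : ρ.DetIsCyclotomic p := by
      refine ⟨P.p_mem, fun n s a ha => ?_⟩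
      rw [Nat.cast_pow, Ideal.mem_span_singleton]
      exact (D P.M).det_eigenAction_congr P.ι P.θ' P.p_mem ha
    have hst : ρ.IsStrictOrdinaryAt p :=
      hstrict P.M P.g P.isNewform (hnew θ).1 (hnew θ).2 P.emb
        ⟨P.R, P.j, P.j_injective, P.j_algebraMap, P.p_mem, P.ι, P.θ', P.emb_θ'⟩ (D P.M)
        (G.isAbsolutelyIrreducible hp θ) (hord θ)
    obtain ⟨e, he, heI, heq⟩ := exists_sign_eq hdetθ hst hσ hτ₀
    obtain ⟨m, rfl, hm⟩ := exists_int_sign he
    refine ⟨m, hm, fun hI => ?_, fun g => ?_⟩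
    · rcases hm with h | h
      · exact h
      · have h1 := heI hI
        rw [h, Int.cast_neg, Int.cast_one] at h1
        exact absurd h1 (by
          intro h2
          exact two_ne_zero (α := P.R) (by linear_combination -h2))
    · have htrθ : ∀ s, θ (ru s).trace = P.j (LinearMap.trace P.R _ (ρ.ρ s)) := fun s => by
        rw [htr, ← G.trace_rep, ← G.trace_adicRep]
      have h0 : LinearMap.trace P.R _ ((ρ.ρ τ₀ - LinearMap.det (ρ.ρ τ₀) • 1) *
          (ρ.ρ σ - (m : P.R) • 1) * ρ.ρ g) = 0 := by rw [heq, zero_mul, map_zero]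
      have e1 := trace_strict_expr ru d (m : H.algebra) τ₀ σ g
      have e2 := trace_strict_expr_end ρ.ρ (LinearMap.det (ρ.ρ τ₀)) (m : P.R) τ₀ σ g
      rw [e2] at h0
      have h1 := congrArg P.j h0
      simp only [map_add, map_sub, map_intCast, map_zero, map_mul P.j, ← htrθ] at h1
      rw [det_adicRep G θ τ₀, ← hdet] at h1
      simp only [c, e1]
      simp only [map_add, map_sub, map_intCast, map_mul θ]
      exact h1
  -- the sign is the same at all points
  obtain ⟨g₀, hg₀⟩ : ∃ g₀, IsUnit (((ru τ₀ - d • 1) * ru g₀).trace) :=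
    exists_isUnit_trace ru hspan (by rwa [hdet])
  let ε : Gal → H.algebra := fun σ => if ∀ g, c 1 σ g = 0 then 1 else -1
  have hsign : ∀ σ ∈ (padicPlace p).decompositionSubgroup ℚ, ∀ g, c (ε σ) σ g = 0 := by
    intro σ hσ
    by_cases hone : ∀ g, c 1 σ g = 0
    · simp only [ε, if_pos hone]; exact hone
    simp only [ε, if_neg hone]
    exact (forall_eq_zero_or hp hp2 ru hg₀ σ fun θ => by
      obtain ⟨e, he, -, heq⟩ := hpoint θ σ hσ
      exact ⟨e, he, heq⟩).resolve_left hone
  refine ⟨ε, fun σ _ => ?_, fun τ hτ => ?_, fun σ hσ => eq_zero_of_trace_mul hspan fun g => ?_⟩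
  · simp only [ε]; split_ifs <;> simp
  · refine if_pos fun g => eq_zero_of_forall_point fun θ => ?_
    obtain ⟨e, -, heI, heq⟩ := hpoint θ τ (mem_decomposition_of_mem_inertia hτ)
    simpa [heI hτ] using heq g
  · exact hsign σ hσ g

end Glued

end Fermat.Agent.RT.LowerB
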