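import Fermat.Agent.RT.Assembly.Entries
import Fermat.Agent.RT.Glue.Main
import Fermat.Agent.Deform.Residual
import Fermat.Agent.RT.Glue.FlatDescent

/-!
# The glued representation in normal form

`exists_normalRep` puts it in normal form over the Hecke algebra. A cyclotomic determinant and
flatness descend to subalgebras, such as the algebra of its entries.
-/

set_option autoImplicit false

noncomputable section

namespace Fermat.Agent.RT.LowerB

open IsLocalRing Fermat.Agent.Deform Fermat.Agent.RT.Glue Fermat.Agent.RT.Assembly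
open GaloisReps (HeckeGaloisModel)

/-- Flatness is stable under isomorphisms. -/
theorem isFlatAt_congr {A : Type} [CommRing A] [IsLocalRing A] {ρ ρ' : GaloisRepAdic A} {p : ℕ}
    (he : ρ.IsEquiv ρ') (h : ρ.IsFlatAt p) : ρ'.IsFlatAt p := by
  obtain ⟨f⟩ := he
  refine ⟨h.1, fun I hI => ?_⟩
  obtain ⟨H, iH, iA, h1, h2, h3, e, he, heσ⟩ := h.2 I hI
  have hmap : (I • (⊤ : Submodule A ρ.V)).map (f.toLinearEquiv : ρ.V →ₗ[A] ρ'.V) =
      I • (⊤ : Submodule A ρ'.V) := by
    rw [Submodule.map_smul'', Submodule.map_top, LinearEquiv.range]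
  let q : (ρ.V ⧸ (I • (⊤ : Submodule A ρ.V))) ≃ₗ[A] ρ'.V ⧸ (I • (⊤ : Submodule A ρ'.V)) :=
    Submodule.Quotient.equiv _ _ f.toLinearEquiv hmap
  refine ⟨H, iH, iA, h1, h2, h3, e.trans q.toEquiv, fun a b => ?_, fun σ a b hab => ?_⟩
  · show q (e (a * b)) = q (e a) + q (e b)
    rw [he, map_add]
  · show q (e b) = ρ'.levelAction I σ (q (e a))
    rw [heσ σ a b hab]
    obtain ⟨v, hv⟩ := Submodule.Quotient.mk_surjective _ (e a)
    rw [← hv]
    exact congrArg (Submodule.Quotient.mk (p := I • (⊤ : Submodule A ρ'.V))) (f.map_apply σ v)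

/-- The determinant of a matrix representation is that of the matrix. -/
theorem det_toRep {A : Type} [CommRing A] [IsLocalRing A] (r : Gal →* M2 A) (hr : IsCont r)
    (σ : Gal) : LinearMap.det ((toRep r hr).ρ σ) = (r σ).det :=
  LinearMap.det_toLin' (r σ)

section Descent

variable {O : Type} [CommRing O] [IsDomain O] [IsDiscreteValuationRing O]
  [IsAdicComplete (maximalIdeal O) O] [CharZero O] {p : ℕ} [Fact p.Prime]
  {A : Type} [CommRing A] [IsLocalRing A] [Algebra O A] [Module.Finite O A]
  {S : Subalgebra O A} [IsLocalRing S]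

/-- A cyclotomic determinant descends to a subalgebra. -/
theorem detIsCyclotomic_of_subalgebra (hp : (p : O) ∈ maximalIdeal O) (hA : IsResAlg O A)
    {r : Gal →* M2 S} (hr : IsCont r) {ru : Gal →* M2 A} (hru : IsCont ru)
    (hmap : mapM (S.val : S →+* A) r = ru) (h : (toRep ru hru).DetIsCyclotomic p) :
    (toRep r hr).DetIsCyclotomic p := by
  have hS := (isResAlg_subalgebra hA S).isLocalHom
  have : IsNoetherianRing A := IsNoetherianRing.of_finite O A
  refine ⟨by rw [← map_natCast (algebraMap O S)]; exact map_nonunit (algebraMap O S) _ hp,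
    fun n σ a ha => ?_⟩
  choose s hs using exists_exponent (p := p) σ
  have hk : ∃ k, maximalIdeal O ^ k ≤ Ideal.span {(p : O)} := by
    obtain ⟨π, hπ⟩ := IsDiscreteValuationRing.exists_irreducible O
    obtain ⟨k, u, hu⟩ := IsDiscreteValuationRing.eq_unit_mul_pow_irreducible
      (Nat.cast_ne_zero.mpr (Fact.out : p.Prime).ne_zero) hπ (x := (p : O))
    exact ⟨k, le_of_eq (by rw [hπ.maximalIdeal_eq, Ideal.span_singleton_pow, hu,
      Ideal.span_singleton_mul_left_unit u.isUnit])⟩
  obtain ⟨c, hc⟩ := exists_limit hp hk (fun m => (s m : O)) fun m =>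
    natCast_congr_of_roots (fun μ hμ => hs (m + 1) μ (by rw [pow_succ, pow_mul, hμ, one_pow]))
      (hs m)
  have hA0 : (ru σ).det = algebraMap O A c := by
    refine sub_eq_zero.1 ?_
    rw [← Ideal.mem_bot, ← Ideal.iInf_pow_eq_bot_of_isLocalRing (maximalIdeal A)
      (maximalIdeal.isMaximal A).ne_top, Ideal.mem_iInf]
    intro m
    refine (Ideal.span_singleton_le_iff_mem _).2 (Ideal.pow_mem_pow h.1 m) ?_
    have h1 := h.2 m σ (s m) (hs m)
    rw [det_toRep, Nat.cast_pow] at h1
    have h2 : algebraMap O A c - (s m : A) ∈ Ideal.span {(p : A) ^ m} := by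
      have := Ideal.mem_map_of_mem (algebraMap O A) (hc m)
      rwa [Ideal.map_span, Set.image_singleton, map_sub, map_pow, map_natCast, map_natCast] at this
    have h3 := sub_mem h1 h2
    rwa [sub_sub_sub_cancel_right] at h3
  have hS0 : (r σ).det = algebraMap O S c := by
    refine Subtype.val_injective ?_
    show S.val (r σ).det = algebraMap O A c
    rw [← hA0, ← hmap]
    exact RingHom.map_det (S.val : S →+* A) (r σ)
  rw [det_toRep, hS0, Nat.cast_pow]
  have h4 : c - (a : O) ∈ Ideal.span {(p : O) ^ n} := by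
    simpa using add_mem (hc n) (natCast_congr_of_roots (A := O) (hs n) ha)
  have := Ideal.mem_map_of_mem (algebraMap O S) h4
  rwa [Ideal.map_span, Set.image_singleton, map_sub, map_pow, map_natCast, map_natCast] at this

omit [IsAdicComplete (maximalIdeal O) O] [CharZero O] [Fact (Nat.Prime p)] in
/-- Flatness descends to a subalgebra. -/
theorem isFlatAt_of_subalgebra {r : Gal →* M2 S} (hr : IsCont r) {ru : Gal →* M2 A}
    (hru : IsCont ru) (hmap : mapM (S.val : S →+* A) r = ru) (h : (toRep ru hru).IsFlatAt p) :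
    (toRep r hr).IsFlatAt p := by
  have := finite_subalgebra S
  have : IsNoetherianRing S := IsNoetherianRing.of_finite O S
  have hloc := isLocalHom_subalgebra_val S
  refine isFlatAt_of_baseChange (S.val : S →+* A) hloc Subtype.val_injective
    (RingHom.finite_algebraMap.mpr (Module.Finite.of_restrictScalars_finite O S A)) _
    (isFlatAt_congr (isEquiv_symm (isEquiv_trans (isEquiv_baseChangeAlong_toRep _ hloc r hr)
      (isEquiv_toRep_congr hmap _ hru))) h)

end Descent

section Normal

variable {O : Type} [CommRing O] [IsDomain O] [IsDiscreteValuationRing O]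
  [IsAdicComplete (maximalIdeal O) O] [Finite (ResidueField O)] [CharZero O]
  {p : ℕ} [Fact p.Prime] {L : ℕ} [NeZero L] {Δ : Type} [CommGroup Δ] [Finite Δ]
  {ψ : (ZMod L)ˣ →* Δ} {T : Finset ℕ} {abar : ℕ → ResidueField O}
  {H : HeckeModule L ψ T abar} [IsLocalRing H.algebra]
  {hS : ∀ q : ℕ, q.Prime → q ∣ L → q ∈ T} {D : ∀ (M : ℕ) [NeZero M], HeckeGaloisModel M p}
  {pt : ∀ θ : H.algebra →ₐ[O] KBar O, Point (p := p) H hS θ.toRingHom}

omit [IsAdicComplete (maximalIdeal O) O] [Finite (ResidueField O)] [CharZero O] [NeZero L] in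
/-- The Hecke algebra has the residue field of `O`. -/
theorem isResAlg_algebra (hp : (p : O) ∈ maximalIdeal O) (hΔ : IsPGroup p Δ) :
    IsResAlg O H.algebra :=
  ⟨isLocalHom_algebraMap H, residue_algebraMap_surjective H hp hΔ⟩

omit [Finite (ResidueField O)] [CharZero O] [NeZero L] in
/-- The glued representation in normal form. -/
theorem exists_normalRep (hp : (p : O) ∈ maximalIdeal O) (hΔ : IsPGroup p Δ) (G : Glued D pt)
    {ρbar : ResidualGaloisRep (ResidueField O)} [IsLocalHom (algebraMap O H.algebra)]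
    (hG : G.rep.residual.IsEquiv
      (ρbar.baseChangeAlong (ResidueField.map (algebraMap O H.algebra))))
    {Wd : Rigid O} {bb : Module.Basis (Fin 2) (ResidueField O) ρbar.V}
    (hW : Wd.rb = matRes ρbar bb) :
    ∃ (ru : Gal →* M2 H.algebra) (hc : IsCont ru),
      Lifts Wd (isResAlg_algebra (H := H) hp hΔ) ru ∧ IsNormal Wd ru ∧
      (∀ σ, (ru σ).trace = (G.R σ).trace ∧ (ru σ).det = (G.R σ).det ∧
        (G.R σ = 1 → ru σ = 1)) ∧ Submodule.span H.algebra (Set.range ru) = ⊤ ∧
      G.rep.IsEquiv (toRep ru hc) := by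
  have := isAdicComplete_algebra H
  have hA := isResAlg_algebra (H := H) hp hΔ
  -- a basis lifting the residual matrices, conjugated to normal form
  obtain ⟨b, hb⟩ := exists_lifts_basis hW hA G.rep hG
  obtain ⟨P, hl, hn⟩ := exists_normal hb
  have hc0 := isCont_matOf G.rep b
  have he := isEquiv_trans (isEquiv_toRep_matOf _ b) (isEquiv_conj hc0 P)
  refine ⟨conjM P (matOf G.rep b), hc0.conj P, hl, hn, fun σ => ⟨?_, ?_, fun h1 => ?_⟩, ?_, he⟩
  · rw [conjM_apply, Matrix.trace_mul_cycle, Units.mul_inv, one_mul, ← G.trace_rep]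
    exact (LinearMap.trace_eq_matrix_trace H.algebra b _).symm
  · rw [conjM_apply, Matrix.det_mul, Matrix.det_mul, mul_right_comm, ← Matrix.det_mul,
      Units.inv_mul, Matrix.det_one, one_mul, ← G.det_rep]
    exact LinearMap.det_toMatrix b _
  · have h2 : G.rep.ρ σ = 1 := by
      show Matrix.toLinAlgEquiv' (G.R σ) = 1
      rw [h1, map_one]
    rw [conjM_apply, show matOf G.rep b σ = LinearMap.toMatrixAlgEquiv b (G.rep.ρ σ) from rfl,
      h2, map_one, mul_one, Units.inv_mul]
  -- conjugation keeps the image spanning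
  · obtain ⟨N, hN, hN'⟩ := exists_conj_of_isEquiv (r := G.R) (hr := G.cont) he
    obtain ⟨u, rfl⟩ := hN
    refine eq_top_iff.2 fun X _ => ?_
    let f : M2 H.algebra →ₗ[H.algebra] M2 H.algebra :=
      (LinearMap.mulLeft H.algebra (u : M2 H.algebra)).comp
        (LinearMap.mulRight H.algebra (↑u⁻¹ : M2 H.algebra))
    have hX : X = f ((↑u⁻¹ : M2 H.algebra) * X * u) := by
      simp [f, mul_assoc]
    have hf : ∀ Y, Y ∈ Submodule.span H.algebra (Set.range G.R) →
        f Y ∈ Submodule.span H.algebra (Set.range (conjM P (matOf G.rep b))) := fun Y hY => by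
      induction hY using Submodule.span_induction with
      | mem Y hY =>
        obtain ⟨σ, rfl⟩ := hY
        refine Submodule.subset_span ⟨σ, ?_⟩
        show _ = (u : M2 H.algebra) * (G.R σ * ↑u⁻¹)
        rw [← mul_assoc, hN' σ, Units.mul_inv_cancel_right]
      | zero => rw [map_zero]; exact zero_mem _
      | add Y Z _ _ hY hZ => rw [map_add]; exact add_mem hY hZ
      | smul c Y _ hY => rw [map_smul]; exact Submodule.smul_mem _ c hY
    rw [hX]
    exact hf _ (by rw [G.span_eq_top]; trivial)

end Normal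

end Fermat.Agent.RT.LowerB
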