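import Fermat.Agent.RT.LowerB.Setup
import Fermat.Agent.RT.LowerB.Strict
import Fermat.Agent.RT.Glue.Transfer
import Fermat.Agent.RT.Lifting.AtP
import Fermat.Agent.EC.Rep.Local.StrictOrdinary
import Fermat.Agent.RT.Lifting.Congr

/-!
# Residual ordinarity at `p` of the points

At an odd multiplicative `p` of the curve every representation with its residual traces, an
absolutely irreducible reduction and cyclotomic determinant is residually ordinary at `p`; so is
every point.
-/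

set_option autoImplicit false

noncomputable section

namespace Fermat.Agent.RT.LowerB

open IsLocalRing Fermat.Agent.Deform

/-- Ordinarity is stable under isomorphisms. -/
theorem ordinary_of_isEquiv {A : Type} [CommRing A] [IsLocalRing A] {ρ ρ' : GaloisRepAdic A}
    {p : ℕ} (he : ρ.IsEquiv ρ') (h : ρ.IsOrdinaryAt p) : ρ'.IsOrdinaryAt p := by
  obtain ⟨f⟩ := he
  intro P hP
  obtain ⟨L, ⟨b, hb⟩, hD, hI⟩ := h P hP
  refine ⟨L.map (f.toLinearEquiv : ρ.V →ₗ[A] ρ'.V), ⟨b.map f.toLinearEquiv, ?_⟩,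
    fun σ hσ v hv => ?_, fun σ hσ v => ?_⟩
  · rw [hb, Submodule.map_span, Set.image_singleton, Module.Basis.map_apply]
    rfl
  · obtain ⟨w, hw, rfl⟩ := hv
    exact ⟨_, hD σ hσ w hw, f.map_apply σ w⟩
  · refine ⟨_, hI σ hσ (f.toLinearEquiv.symm v), ?_⟩
    simp [f.map_apply]

/-- The residual trace is the reduction of the trace. -/
private theorem trace_residual {T : Type} [CommRing T] [IsLocalRing T] (ρ : GaloisRepAdic T)
    (σ : Gal) : LinearMap.trace (ResidueField T) ρ.residual.V (ρ.residual.ρ σ) =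
      residue T (LinearMap.trace T ρ.V (ρ.ρ σ)) := by
  show LinearMap.trace _ _ ((ρ.ρ σ).baseChange _) = _
  rw [LinearMap.trace_baseChange, ResidueField.algebraMap_eq]

/-- The residual determinant is the reduction of the determinant. -/
private theorem det_residual {T : Type} [CommRing T] [IsLocalRing T] (ρ : GaloisRepAdic T)
    (σ : Gal) : LinearMap.det (ρ.residual.ρ σ) = residue T (LinearMap.det (ρ.ρ σ)) :=
  (LinearMap.det_baseChange (A := ResidueField T) (ρ.ρ σ)).trans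
    (by rw [ResidueField.algebraMap_eq])

/-- An equation `(r τ - det) (r σ - z) = 0` passes along equal traces to a spanning representation
with the same determinant at `τ`: it is seen on the traces against the image. -/
private theorem eqn_transfer {k k' : Type} [CommRing k] [CommRing k'] (φ : k →+* k')
    {r₀ : Gal →* M2 k} {r₁ : Gal →* M2 k'} (hspan : Submodule.span k' (Set.range r₁) = ⊤)
    (htr₁ : ∀ g, (r₁ g).trace = φ (r₀ g).trace) {τ₀ σ : Gal}
    (hdet : (r₁ τ₀).det = φ (r₀ τ₀).det) {z : k}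
    (h0 : (r₀ τ₀ - (r₀ τ₀).det • 1) * (r₀ σ - z • 1) = 0) :
    (r₁ τ₀ - (r₁ τ₀).det • 1) * (r₁ σ - φ z • 1) = 0 := by
  refine eq_zero_of_trace_mul hspan fun g => ?_
  have h1 : φ ((r₀ τ₀ - (r₀ τ₀).det • 1) * (r₀ σ - z • 1) * r₀ g).trace = 0 := by
    rw [h0, zero_mul, Matrix.trace_zero, map_zero]
  simp only [sub_mul, mul_sub, smul_mul_assoc, mul_smul_comm, one_mul, mul_one, smul_sub,
    smul_smul, Matrix.trace_sub, Matrix.trace_smul, smul_eq_mul, map_sub, map_mul φ,
    ← map_mul r₀, ← map_mul r₁, ← htr₁, ← hdet] at h1 ⊢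
  exact h1

variable {W : WeierstrassCurve ℤ} {p : ℕ} [Fact p.Prime] (hΔ : W.Δ ≠ 0)

/-- A representation with the residual traces of the curve is residually ordinary at a
multiplicative `p`. -/
theorem isOrdinaryAt_residual_of_trace (hp2 : p ≠ 2) (hdvd : (p : ℤ) ∣ W.Δ)
    (hc₄ : ¬ (p : ℤ) ∣ W.c₄) {T : Type} [CommRing T] [IsLocalRing T] {ρ : GaloisRepAdic T}
    (habs : ρ.residual.IsAbsolutelyIrreducible) (hdet : ρ.DetIsCyclotomic p)
    (htr : ∀ (σ : Gal) (a : ℕ),
      LinearMap.trace (ZMod p) _ ((EC.Rep.residualRep W p hΔ).ρ σ) = a →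
        LinearMap.trace T ρ.V (ρ.ρ σ) - a ∈ maximalIdeal T) :
    (GaloisRepAdic.ofResidualGaloisRep ρ.residual).IsOrdinaryAt p := by
  classical
  have hp : p.Prime := Fact.out
  let k' := ResidueField T
  have hpk : (p : k') = 0 := by
    rw [← map_natCast (residue T), residue_eq_zero_iff]; exact hdet.1
  have : CharP k' p := (CharP.charP_iff_prime_eq_zero hp).2 hpk
  let φ : ZMod p →+* k' := ZMod.castHom dvd_rfl k'
  -- the curve
  let ρ₀ := GaloisRepAdic.ofResidualGaloisRep (EC.Rep.residualRep W p hΔ)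
  let b₀ : Module.Basis (Fin 2) (ZMod p) ρ₀.V :=
    Module.finBasisOfFinrankEq (ZMod p) (EC.Rep.residualRep W p hΔ).V
      (EC.Rep.residualRep W p hΔ).finrank_eq
  have he₀ := isEquiv_toRep_matOf ρ₀ b₀
  set r₀ := matOf ρ₀ b₀
  have hdet₀ : (toRep r₀ (isCont_matOf ρ₀ b₀)).DetIsCyclotomic p := by
    refine ⟨(EC.Rep.detIsCyclotomic_residualRep hΔ).1, fun n σ a ha => ?_⟩
    have h := (EC.Rep.detIsCyclotomic_residualRep hΔ).2 n σ a ha
    rw [show LinearMap.det ((toRep r₀ (isCont_matOf ρ₀ b₀)).ρ σ) = LinearMap.det (ρ₀.ρ σ) from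
      (LinearMap.det_toLin' (r₀ σ)).trans (LinearMap.det_toMatrix b₀ _)]
    exact h
  -- `τ₀` inverts `μ_p`; the curve satisfies `(τ₀ - det τ₀) (σ - z σ) = 0` on decomposition
  obtain ⟨τ₀, hτ₀, hτμ⟩ := Mazur.Eisenstein.exists_inertia_inv
    (CFT.Local.padicPlace_liesOverPrime p) hp 1
  obtain ⟨z, hz, hzI, heq⟩ := Lifting.exists_strictEq_of_isStrictOrdinaryAt (isCont_matOf ρ₀ b₀)
    hdet₀ (Lifting.isStrictOrdinaryAt_congr he₀
      (EC.Rep.isStrictOrdinaryAt_residualRep hΔ hp2 hdvd hc₄)) hτ₀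
  -- the residual representation
  let ρ₁ := GaloisRepAdic.ofResidualGaloisRep ρ.residual
  let b₁ : Module.Basis (Fin 2) k' ρ₁.V :=
    Module.finBasisOfFinrankEq k' ρ.residual.V ρ.residual.finrank_eq
  set r₁ := matOf ρ₁ b₁
  have hspan : Submodule.span k' (Set.range r₁) = ⊤ := span_matrix_eq_top ρ.residual habs b₁
  have htr₁ : ∀ σ, (r₁ σ).trace = φ (r₀ σ).trace := fun σ => by
    set t := LinearMap.trace (ZMod p) _ ((EC.Rep.residualRep W p hΔ).ρ σ)
    have h1 := htr σ t.val (ZMod.natCast_zmod_val t).symm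
    rw [← residue_eq_zero_iff, map_sub, map_natCast, sub_eq_zero, ← trace_residual] at h1
    rw [show (r₁ σ).trace = LinearMap.trace k' ρ.residual.V (ρ.residual.ρ σ) from
      (LinearMap.trace_eq_matrix_trace k' b₁ _).symm, h1,
      show (r₀ σ).trace = t from (LinearMap.trace_eq_matrix_trace (ZMod p) b₀ _).symm]
    exact (map_natCast φ t.val).symm.trans (congrArg φ (ZMod.natCast_zmod_val t))
  have hdet₁ : ∀ (n : ℕ) (σ : Gal) (a : ℕ),
    (∀ μ : AlgebraicClosure ℚ, μ ^ p ^ n = 1 → σ μ = μ ^ a) →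
      (r₁ σ).det - a ∈ Ideal.span {((p ^ n : ℕ) : k')} := fun n σ a ha => by
    rw [show (r₁ σ).det = LinearMap.det (ρ.residual.ρ σ) from LinearMap.det_toMatrix b₁ _,
      det_residual, ← map_natCast (residue T) a, ← map_sub, ← map_natCast (residue T) (p ^ n)]
    obtain ⟨y, hy⟩ := Ideal.mem_span_singleton'.1 (hdet.2 n σ a ha)
    exact Ideal.mem_span_singleton'.2 ⟨residue T y, by rw [← map_mul, hy]⟩
  -- the two representations have the same traces and determinants
  have hzero : Ideal.span {((p ^ 1 : ℕ) : k')} = ⊥ := by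
    rw [Ideal.span_singleton_eq_bot, pow_one, hpk]
  have hzero₀ : Ideal.span {((p ^ 1 : ℕ) : ZMod p)} = ⊥ := by
    rw [Ideal.span_singleton_eq_bot, pow_one, ZMod.natCast_self]
  have hdet₀₁ : ∀ σ, (r₁ σ).det = φ (r₀ σ).det := fun σ => by
    obtain ⟨a, ha⟩ := Glue.exists_exponent (p := p) σ 1
    have h1 := hdet₁ 1 σ a ha
    have h0 := hdet₀.2 1 σ a ha
    rw [show LinearMap.det ((toRep r₀ (isCont_matOf ρ₀ b₀)).ρ σ) = (r₀ σ).det from
      LinearMap.det_toLin' (r₀ σ)] at h0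
    rw [hzero, Ideal.mem_bot, sub_eq_zero] at h1
    rw [hzero₀, Ideal.mem_bot, sub_eq_zero] at h0
    rw [h1, h0, map_natCast]
  -- as `det τ₀ = -1 ≠ 1`, the equation of the curve characterises ordinarity
  have hu : IsUnit ((r₁ τ₀).det - 1) := by
    refine isUnit_iff_ne_zero.2 fun h => ?_
    have h1 := hdet₁ 1 τ₀ (p - 1) (apply_eq_pow_pred hτμ)
    rw [hzero, Ideal.mem_bot, sub_eq_zero] at h1
    rw [h1, Nat.cast_sub hp.one_le, hpk, Nat.cast_one, zero_sub] at h
    have h2 : ((2 : ℕ) : k') = 0 := by linear_combination -h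
    rw [CharP.cast_eq_zero_iff k' p] at h2
    exact hp2 ((Nat.prime_dvd_prime_iff_eq hp Nat.prime_two).1 h2)
  have hcont₁ := isCont_matOf ρ₁ b₁
  refine ordinary_of_isEquiv (Deform.isEquiv_symm (isEquiv_toRep_matOf ρ₁ b₁)) ?_
  refine (Lifting.isStrictOrdinaryAt_of_strictEq hcont₁ ⟨by rw [hpk]; exact zero_mem _,
    fun n σ a ha => ?_⟩
    hτ₀ hu (ε := fun σ => φ (z σ)) (fun σ hσ => by rw [← map_mul, hz σ hσ, map_one])
    (fun τ hτ => by rw [hzI τ hτ, map_one]) fun σ hσ => ?_).isOrdinaryAt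
  · rw [show LinearMap.det ((toRep r₁ hcont₁).ρ σ) = (r₁ σ).det from LinearMap.det_toLin' (r₁ σ)]
    exact hdet₁ n σ a ha
  · exact eqn_transfer φ hspan htr₁ (hdet₀₁ τ₀) (heq σ hσ)

section Points

open Fermat.Agent.RT.Glue
open GaloisReps (HeckeGaloisModel)

variable {O : Type} [CommRing O] [IsDomain O] [IsDiscreteValuationRing O]
  [IsAdicComplete (maximalIdeal O) O] [Finite (ResidueField O)] [CharZero O]
  [Algebra (ZMod p) (ResidueField O)] {L : ℕ} [NeZero L] {Δ : Type} [CommGroup Δ] [Finite Δ]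
  {ψ : (ZMod L)ˣ →* Δ} {T : Finset ℕ} {abar : ℕ → ResidueField O}
  {H : HeckeModule L ψ T abar} [IsLocalRing H.algebra] [IsLocalHom (algebraMap O H.algebra)]
  {hS : ∀ q : ℕ, q.Prime → q ∣ L → q ∈ T} {D : ∀ (M : ℕ) [NeZero M], HeckeGaloisModel M p}
  {pt : ∀ θ : H.algebra →ₐ[O] KBar O, Point (p := p) H hS θ.toRingHom}

omit [NeZero L] in
/-- At a multiplicative `p` of the curve every point is residually ordinary at `p`. -/
theorem isOrdinaryAt_residual_point (hp : (p : O) ∈ maximalIdeal O)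
    (hp2 : p ≠ 2) (hdvd : (p : ℤ) ∣ W.Δ) (hc₄ : ¬ (p : ℤ) ∣ W.c₄) (G : Glued D pt)
    (hG : G.rep.residual.IsEquiv ((Core.rhoBar W p hΔ (ResidueField O)).baseChangeAlong
      (ResidueField.map (algebraMap O H.algebra))))
    (θ : H.algebra →ₐ[O] KBar O) :
    (GaloisRepAdic.ofResidualGaloisRep ((pt θ).adicRep (D := D)).residual).IsOrdinaryAt p := by
  set P := pt θ
  refine isOrdinaryAt_residual_of_trace hΔ hp2 hdvd hc₄ (G.isAbsolutelyIrreducible hp θ)
    ⟨P.p_mem, fun n s a ha => ?_⟩ fun σ a ha => ?_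
  · rw [Nat.cast_pow, Ideal.mem_span_singleton]
    exact (D P.M).det_eigenAction_congr P.ι P.θ' P.p_mem ha
  · refine mem_maximal_of_point hp P
      (x := LinearMap.trace H.algebra G.rep.V (G.rep.ρ σ) - a) ?_ ?_
    · rw [← residue_eq_zero_iff, map_sub, map_natCast, G.trace_rep, residue_trace G hG,
        sub_eq_zero]
      show ResidueField.map _ (LinearMap.trace _ _
        (((EC.Rep.residualRep W p hΔ).ρ σ).baseChange (ResidueField O))) = _
      rw [LinearMap.trace_baseChange, ha, map_natCast, map_natCast]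
    · rw [map_sub, map_sub, G.trace_adicRep, map_natCast, map_natCast]

end Points

end Fermat.Agent.RT.LowerB
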