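import Fermat.Agent.RT.LowerB.Case
import Fermat.Agent.RT.Assembly.LevelChar

/-!
# Auxiliary primes and the auxiliary level of the scalar case

`IsAux` says what is asked of the Taylor-Wiles primes `qv`; `auxLevel` is `M ∏ qv`. It is a
congruent level, congruences at it with a prime `x` of `M` removed descend to `M / x`
(`modular_of_congruent_div`) and its rank is at most `2 ^ r` times any bound on the ranks of the
localisations at level `M` (`rank_le`). It is used in `RT/LowerB/Holds` and `RT/Lifting/Levels`.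
-/

set_option autoImplicit false

noncomputable section

namespace Fermat.Agent.RT.LowerB

open IsLocalRing Fermat.Agent.Arith Fermat.Agent.RT.Modules
open Fermat.Agent.Deform (Gal M2)

/-- The set of auxiliary primes. -/
def auxSet {r : ℕ} (qv : Fin r → ℕ) : Finset ℕ := Finset.univ.image qv

/-- The level with the auxiliary primes added. -/
def auxLevel (M : ℕ) {r : ℕ} (qv : Fin r → ℕ) : ℕ := M * ∏ q ∈ auxSet qv, q

/-- The exceptional primes of the auxiliary level. -/
def auxExc (p : ℕ) (W : WeierstrassCurve ℤ) (M : ℕ) {r : ℕ} (qv : Fin r → ℕ) : Finset ℕ :=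
  excSet p W M ∪ auxSet qv

section Char

open scoped Classical

variable {O : Type} [CommRing O] {p : ℕ} [Fact p.Prime] {V : Type} [Fintype V] {r : ℕ}

theorem levelChar_levelGen_inl {ζ : O} (hζ : ζ ^ p = 1) (n : ℕ) (v : V) :
    Assembly.levelChar (r := r) hζ n (Assembly.levelGen p n (Sum.inl v)) =
      algebraMap O (MvPowerSeries (Fin r) O ⧸ Assembly.levelIdeal O p n) ζ := by
  rw [Assembly.levelGen, Assembly.levelChar_apply_left, ZMod.val_one, pow_one]

theorem levelChar_levelGen_inr {ζ : O} (hζ : ζ ^ p = 1) (n : ℕ) (i : Fin r) :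
    Assembly.levelChar (V := V) hζ n (Assembly.levelGen p n (Sum.inr i)) =
      1 + Ideal.Quotient.mk (Assembly.levelIdeal O p n) (MvPowerSeries.X i) := by
  rw [Assembly.levelGen, Assembly.levelChar_apply_right, ZMod.val_one_eq_one_mod]
  exact (Assembly.pow_eq_of_mod_eq (Assembly.one_add_mk_pow n i) (Nat.mod_mod _ _)).trans
    (pow_one _)

end Char

variable {O : Type} [CommRing O] [IsDomain O] [IsDiscreteValuationRing O]
  [IsAdicComplete (maximalIdeal O) O] [Finite (ResidueField O)] [CharZero O]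
  {p : ℕ} [Fact p.Prime] [CharP (ResidueField O) p] [Algebra (ZMod p) (ResidueField O)]
  {W : WeierstrassCurve ℤ} {hΔ : W.Δ ≠ 0} {M : ℕ}

variable (O p W M hΔ) in
/-- Taylor–Wiles primes of level `n` outside the exceptional set. -/
structure IsAux (b : Module.Basis (Fin 2) (ResidueField O) (Core.rhoBar W p hΔ (ResidueField O)).V)
    {r : ℕ} (n : ℕ) (qv : Fin r → ℕ) : Prop where
  inj : Function.Injective qv
  prime : ∀ i, (qv i).Prime
  notMem : ∀ i, qv i ∉ excSet p W M
  dvd : ∀ i, p ^ (n + 1) ∣ qv i - 1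
  trace : ∀ i, ∀ A : ValuationSubring (AlgebraicClosure ℚ), A.LiesOverPrime (qv i) → ∀ φ : Gal,
    A.IsFrobeniusAt φ (qv i) →
      (Deform.matRes (Core.rhoBar W p hΔ (ResidueField O)) b φ).trace ^ 2 ≠ 4

namespace IsAux

variable {b : Module.Basis (Fin 2) (ResidueField O) (Core.rhoBar W p hΔ (ResidueField O)).V}
  {r n : ℕ} {qv : Fin r → ℕ} (ha : IsAux O p W hΔ M b n qv)

include ha

omit [IsAdicComplete (maximalIdeal O) O] [Finite (ResidueField O)] [CharZero O]
  [CharP (ResidueField O) p] in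
theorem ne_p (i : Fin r) : qv i ≠ p := fun h =>
  ha.notMem i (h ▸ Finset.mem_insert_self _ _)

omit [IsAdicComplete (maximalIdeal O) O] [Finite (ResidueField O)] [CharZero O]
  [CharP (ResidueField O) p] in
theorem dvd_pow (i : Fin r) : p ^ n ∣ qv i - 1 :=
  (_root_.pow_dvd_pow p n.le_succ).trans (ha.dvd i)

omit [IsAdicComplete (maximalIdeal O) O] [Finite (ResidueField O)] [CharZero O]
  [CharP (ResidueField O) p] in
theorem p_dvd (i : Fin r) : p ∣ qv i - 1 :=
  (dvd_pow_self p n.succ_ne_zero).trans (ha.dvd i)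

omit [IsAdicComplete (maximalIdeal O) O] [Finite (ResidueField O)] [CharZero O]
  [CharP (ResidueField O) p] in
theorem not_dvd (cd : Case O p W hΔ M) (i : Fin r) : ¬ qv i ∣ M := fun h =>
  ha.notMem i (cd.mem_excSet (ha.prime i) h)

omit [IsAdicComplete (maximalIdeal O) O] [Finite (ResidueField O)] [CharZero O]
  [CharP (ResidueField O) p] in
theorem prime_of_mem {q : ℕ} (hq : q ∈ auxSet qv) : q.Prime := by
  obtain ⟨i, -, rfl⟩ := Finset.mem_image.1 hq
  exact ha.prime i

omit [IsAdicComplete (maximalIdeal O) O] [Finite (ResidueField O)] [CharZero O] in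
/-- The conditions for the rank bound. -/
theorem rank_hyp (cd : Case O p W hΔ M) {q : ℕ} (hq : q ∈ auxSet qv) :
    q.Prime ∧ q ∈ auxExc p W M qv ∧ ¬ q ∣ M ∧ q ≠ p ∧ (q : ResidueField O) = 1 ∧
      ∃ (A : ValuationSubring (AlgebraicClosure ℚ)) (s : GaloisReps.AbsGal),
        A.LiesOverPrime q ∧ A.IsFrobeniusAt s q ∧
          (Deform.matRes (Core.rhoBar W p hΔ (ResidueField O)) b s).trace ^ 2 ≠ 4 := by
  obtain ⟨i, -, rfl⟩ := Finset.mem_image.1 hq
  refine ⟨ha.prime i, Finset.mem_union_right _ hq, ha.not_dvd cd i, ha.ne_p i, ?_, ?_⟩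
  · rw [← sub_eq_zero, ← Nat.cast_one (R := ResidueField O), ← Nat.cast_sub (ha.prime i).one_le,
      CharP.cast_eq_zero_iff (ResidueField O) p]
    exact ha.p_dvd i
  · obtain ⟨A, hA⟩ := exists_liesOverPrime (ha.prime i)
    obtain ⟨s, hs⟩ := exists_isFrobeniusAt hA (ha.prime i)
    exact ⟨A, s, hA, hs, ha.trace i A hA s hs⟩

omit [IsAdicComplete (maximalIdeal O) O] [Finite (ResidueField O)] [CharZero O]
  [CharP (ResidueField O) p] in
/-- A prime of the auxiliary level divides `M` or is auxiliary. -/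
theorem dvd_level_cases {v : ℕ} (hv : v.Prime) (h : v ∣ auxLevel M qv) :
    v ∣ M ∨ v ∈ auxSet qv := by
  exact (hv.dvd_mul.1 h).imp_right (mem_of_dvd_prod_primes (fun _ => ha.prime_of_mem) hv)

omit [IsAdicComplete (maximalIdeal O) O] [Finite (ResidueField O)] [CharZero O]
  [CharP (ResidueField O) p] in
theorem mem_exc_of_dvd (cd : Case O p W hΔ M) (v : ℕ) (hv : v.Prime) (h : v ∣ auxLevel M qv) :
    v ∈ auxExc p W M qv := by
  rcases ha.dvd_level_cases hv h with h | h
  · exact Finset.mem_union_left _ (cd.mem_excSet hv h)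
  · exact Finset.mem_union_right _ h

omit [IsAdicComplete (maximalIdeal O) O] [Finite (ResidueField O)] [CharZero O]
  [CharP (ResidueField O) p] in
theorem not_dvd_p (hpM : ¬ p ∣ M) : ¬ p ∣ auxLevel M qv := fun h => by
  rcases ha.dvd_level_cases Fact.out h with h | h
  · exact hpM h
  · obtain ⟨i, -, hi⟩ := Finset.mem_image.1 h
    exact ha.ne_p i hi

omit [IsAdicComplete (maximalIdeal O) O] [Finite (ResidueField O)] [CharZero O]
  [CharP (ResidueField O) p] in
theorem squarefree_modular (cd : Case O p W hΔ M) :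
    Squarefree (auxLevel M qv) ∧ W.IsResiduallyModularOfLevel p (auxLevel M qv) := by
  classical
  suffices key : ∀ Q : Finset ℕ, (∀ q ∈ Q, q.Prime ∧ ¬ q ∣ M) →
      Squarefree (M * ∏ q ∈ Q, q) ∧ W.IsResiduallyModularOfLevel p (M * ∏ q ∈ Q, q) from
    key _ fun q hq => by
      obtain ⟨i, -, rfl⟩ := Finset.mem_image.1 hq
      exact ⟨ha.prime i, ha.not_dvd cd i⟩
  intro Q
  induction Q using Finset.induction_on with
  | empty => intro _; rw [Finset.prod_empty, mul_one]; exact ⟨cd.squarefree, cd.modular⟩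
  | @insert q Q hqQ ih =>
    intro hQ
    obtain ⟨hq, hqM⟩ := hQ q (Finset.mem_insert_self q Q)
    obtain ⟨hsq, hmod⟩ := ih fun x hx => hQ x (Finset.mem_insert_of_mem hx)
    have hnd : ¬ q ∣ M * ∏ x ∈ Q, x := hq.not_dvd_mul hqM fun h =>
      hqQ (mem_of_dvd_prod_primes (fun x hx => (hQ x (Finset.mem_insert_of_mem hx)).1) hq h)
    rw [Finset.prod_insert hqQ, mul_left_comm, mul_comm q]
    exact ⟨(Nat.squarefree_mul ((hq.coprime_iff_not_dvd).2 hnd).symm).2 ⟨hsq, hq.squarefree⟩,
      residuallyModular_raise hΔ (ResidueField O) hsq.ne_zero hq hnd hmod⟩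

variable (cd : Case O p W hΔ M) (d : Data O p W hΔ (excSet p W M) b)

include cd d

omit [IsAdicComplete (maximalIdeal O) O] [Finite (ResidueField O)] [CharZero O]
  [CharP (ResidueField O) p] in
theorem congruent :
    IsCongruentLevel (auxExc p W M qv) (Core.abar W (ResidueField O)) (auxLevel M qv) :=
  (d.mono Finset.subset_union_left).congruentLevel (fun v hv h => ha.mem_exc_of_dvd cd v hv h)
    (ha.squarefree_modular cd).2

/-- **Descent from the auxiliary level.** -/
theorem modular_of_congruent_div {x : ℕ} (hx : x.Prime) (hxM : x ∣ M)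
    (h : IsCongruentLevel (auxExc p W M qv) (Core.abar W (ResidueField O))
      (auxLevel M qv / x)) : W.IsResiduallyModularOfLevel p (M / x) := by
  have hdM : M / x ∣ M := Nat.div_dvd_of_dvd hxM
  have : NeZero (M / x) :=
    ⟨(Nat.div_pos (Nat.le_of_dvd (Nat.pos_of_ne_zero cd.ne_zero) hxM) hx.pos).ne'⟩
  have hP : (∏ q ∈ auxSet qv, q) ≠ 0 :=
    Finset.prod_ne_zero_iff.2 fun q hq => (ha.prime_of_mem hq).ne_zero
  have : NeZero (M / x * ∏ q ∈ auxSet qv, q) := ⟨mul_ne_zero (NeZero.ne _) hP⟩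
  rw [auxLevel, ← Nat.div_mul_right_comm hxM] at h
  refine residuallyModular_of_congruentLevel hΔ (ResidueField O)
    ((d.mono Finset.subset_union_left).congruentLevel_descent
      (cd.squarefree.squarefree_of_dvd hdM)
      (fun v hv hd => Finset.mem_union_left _ (cd.mem_excSet hv (hd.trans hdM)))
      (auxSet qv) (fun q hq => ?_) h)
  obtain ⟨h1, h2, h3, h4, h5, h6⟩ := ha.rank_hyp cd hq
  exact ⟨h1, h2, fun hd => h3 (hd.trans hdM), h4, h5, h6⟩

/-- The rank at the auxiliary level. -/
theorem rank_le [NeZero M] [NeZero (auxLevel M qv)] {B : ℕ}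
    (hB : ∀ (S : Finset ℕ) (abar : ℕ → ResidueField O),
      Module.finrank O (locHom S abar (⊤ : Subgroup (ZMod M)ˣ)) ≤ B) :
    Module.finrank O (locHom (auxExc p W M qv) (Core.abar W (ResidueField O))
      (⊤ : Subgroup (ZMod (auxLevel M qv))ˣ)) ≤ 2 ^ r * B := by
  have : NeZero (M * ∏ q ∈ auxSet qv, q) := inferInstanceAs (NeZero (auxLevel M qv))
  refine ((d.mono Finset.subset_union_left).finrank_locHom_prod_le cd.squarefree
    (fun v hv hd => Finset.mem_union_left _ (cd.mem_excSet hv hd)) (auxSet qv)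
    fun q hq => ha.rank_hyp cd hq).trans (Nat.mul_le_mul ?_ (hB _ _))
  exact Nat.pow_le_pow_right two_pos
    (Finset.card_image_le.trans_eq (Finset.card_fin r))

end IsAux

end Fermat.Agent.RT.LowerB
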