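import Fermat.Agent.RT.Glue.Bridge
import Fermat.Agent.RT.Assembly.LevelChar

/-!
# Facts about the glued representation read at the points

Determinants, triviality outside `p L` and the traces of inertia at the primes of the level
(`trace_inertia_eq_two`, `trace_inertia_twisted`), checked at the points. They are used in
`RT/LowerB/Holds`, `RT/LowerB/Frob` and `RT/Lifting/LevelsGlue`.
-/

set_option autoImplicit false

noncomputable section

namespace Fermat.Agent.RT.LowerB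

open IsLocalRing Fermat.Agent.RT.Glue
open Fermat.Agent.Deform (Gal M2)
open GaloisReps (HeckeGaloisModel)

variable {O : Type} [CommRing O] [IsDomain O] [IsDiscreteValuationRing O]
  [IsAdicComplete (maximalIdeal O) O] [Finite (ResidueField O)] [CharZero O]
  {p : ℕ} [Fact p.Prime] {L : ℕ} [NeZero L] {Δ : Type} [CommGroup Δ] [Finite Δ]
  {ψ : (ZMod L)ˣ →* Δ} {T : Finset ℕ} {abar : ℕ → ResidueField O}
  {H : HeckeModule L ψ T abar} [IsLocalRing H.algebra]
  {hS : ∀ q : ℕ, q.Prime → q ∣ L → q ∈ T} {D : ∀ (M : ℕ) [NeZero M], HeckeGaloisModel M p}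
  {pt : ∀ θ : H.algebra →ₐ[O] KBar O, Point (p := p) H hS θ.toRingHom} (G : Glued D pt)

omit [IsAdicComplete (maximalIdeal O) O] [Finite (ResidueField O)] [CharZero O] [NeZero L] in
/-- The determinant at an element acting on all `p`-power roots of unity by `a`. -/
theorem det_eq_natCast {σ : Gal} {a : ℕ}
    (ha : ∀ (n : ℕ) (μ : AlgebraicClosure ℚ), μ ^ p ^ n = 1 → σ μ = μ ^ a) :
    (G.R σ).det = a :=
  sub_eq_zero.1 (eq_zero_of_forall_point fun θ => by
    rw [map_sub, sub_eq_zero, map_natCast, G.det_eq, (pt θ).det_rep D,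
      (D (pt θ).M).det_eigenAction_of_roots _ _ (pt θ).p_mem ha, map_natCast])

omit [IsAdicComplete (maximalIdeal O) O] [Finite (ResidueField O)] [CharZero O] [NeZero L] in
theorem det_inertia {v : ℕ} (hv : v.Prime) (hvp : v ≠ p)
    {A : ValuationSubring (AlgebraicClosure ℚ)} (hA : A.LiesOverPrime v) {σ : Gal}
    (hσ : σ ∈ A.inertiaSubgroupIn ℚ) : (G.R σ).det = 1 := by
  rw [det_eq_natCast G (a := 1) fun n μ hμ => ?_, Nat.cast_one]
  rw [pow_one]
  exact Arith.inertia_root hA hv hσ hμ fun h =>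
    hvp ((Nat.prime_dvd_prime_iff_eq hv Fact.out).1 (hv.dvd_of_dvd_pow h))

omit [IsAdicComplete (maximalIdeal O) O] [Finite (ResidueField O)] [CharZero O] [NeZero L] in
theorem det_frobenius {v : ℕ} (hv : v.Prime) (hvp : v ≠ p)
    {A : ValuationSubring (AlgebraicClosure ℚ)} (hA : A.LiesOverPrime v) {σ : Gal}
    (hσ : A.IsFrobeniusAt σ v) : (G.R σ).det = v :=
  det_eq_natCast G fun _ _ hμ => Arith.frobenius_root hA hv hσ hμ fun h =>
    hvp ((Nat.prime_dvd_prime_iff_eq hv Fact.out).1 (hv.dvd_of_dvd_pow h))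

omit [IsAdicComplete (maximalIdeal O) O] [Finite (ResidueField O)] [CharZero O] [NeZero L] in
/-- The glued representation is trivial on inertia outside `p L`. -/
theorem apply_eq_one {q : ℕ} (hq : q.Prime) (hqL : ¬ q ∣ L) (hqp : q ≠ p)
    {A : ValuationSubring (AlgebraicClosure ℚ)} (hA : A.LiesOverPrime q) {σ : Gal}
    (hσ : σ ∈ A.inertiaSubgroupIn ℚ) : G.R σ = 1 := by
  have h : Matrix.toLinAlgEquiv' (G.R σ) = Matrix.toLinAlgEquiv' (1 : M2 H.algebra) := by
    rw [map_one]; exact G.isUnramifiedAt hq hqL hqp A hA σ hσ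
  exact (Matrix.toLinAlgEquiv' : M2 H.algebra ≃ₐ[H.algebra] _).injective h

omit [IsAdicComplete (maximalIdeal O) O] [Finite (ResidueField O)] [CharZero O] [NeZero L] in
/-- At `v ≠ p` where `ψ` is trivial and the models are unipotent, inertia has trace `2`. -/
theorem trace_inertia_eq_two {v : ℕ} (hv : v.Prime) (hvL : v ∣ L) (hvp : v ≠ p)
    (hψ : ∀ u : (ZMod L)ˣ, ((u : ZMod L).cast : ZMod (L / v)) = 1 → ψ u = 1)
    (hU : ∀ (M : ℕ) [NeZero M], v ∣ M → ¬ v ^ 2 ∣ M → NewformLocal.UnipotentAt (D M) v)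
    {A : ValuationSubring (AlgebraicClosure ℚ)} (hA : A.LiesOverPrime v) {σ : Gal}
    (hσ : σ ∈ A.inertiaSubgroupIn ℚ) : (G.R σ).trace = 2 :=
  sub_eq_zero.1 (eq_zero_of_forall_point fun θ => by
    rw [map_sub, sub_eq_zero, map_ofNat, G.trace_eq]
    exact ((pt θ).unipotent D hv hvp (fun hd => hU _ hd
      ((pt θ).sq_not_dvd hv hvL fun u hu => by rw [hψ u hu, map_one, map_one])) hA hσ).1)

omit [IsAdicComplete (maximalIdeal O) O] [Finite (ResidueField O)] [CharZero O] [NeZero L] in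
/-- At a twisted prime inertia has trace `x + x⁻¹`, `x` the diamond of the square root of
`(ψ u)⁻¹`, for the `u` giving its action on the `v`-th roots of unity. -/
theorem trace_inertia_twisted {v : ℕ} (hE : TwistedInertia D pt v)
    {A : ValuationSubring (AlgebraicClosure ℚ)} (hA : A.LiesOverPrime v) {σ : Gal}
    (hσ : σ ∈ A.inertiaSubgroupIn ℚ) {a : ℕ}
    (ha : ∀ μ : AlgebraicClosure ℚ, μ ^ v = 1 → σ μ = μ ^ a) (u : (ZMod L)ˣ)
    (hu : ((u : ZMod L).cast : ZMod (L / v)) = 1) (hua : ((u : ZMod L).cast : ZMod v) = a) :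
    (G.R σ).trace =
      diaA H (ψ u ^ halfInvExp Δ) + diaA H (ψ u ^ halfInvExp Δ)⁻¹ :=
  sub_eq_zero.1 (eq_zero_of_forall_point fun θ => by
    rw [map_sub, sub_eq_zero, map_add, G.trace_eq]
    exact hE A hA σ hσ a ha u hu hua θ)

/-- Units with the same reductions modulo `v` and `L / v` are equal. -/
theorem units_eq_one_of_cast {L v : ℕ} [NeZero L] (hv : v ∣ L) (hcop : v.Coprime (L / v))
    {u : (ZMod L)ˣ} (h1 : ZMod.unitsMap hv u = 1)
    (h2 : ZMod.unitsMap (Nat.div_dvd_of_dvd hv) u = 1) : u = 1 := by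
  have key : ∀ (m : ℕ) (hm : m ∣ L), ZMod.unitsMap hm u = 1 →
      (m : ℤ) ∣ ((u : ZMod L).val : ℤ) - 1 := fun m hm h => by
    rw [← ZMod.intCast_zmod_eq_zero_iff_dvd, Int.cast_sub, Int.cast_one, Int.cast_natCast,
      sub_eq_zero, ← ZMod.cast_eq_val, ← ZMod.unitsMap_val hm u, h, Units.val_one]
  have h := Int.natCast_dvd.2 (hcop.mul_dvd_of_dvd_of_dvd (Int.natCast_dvd.1 (key v hv h1))
    (Int.natCast_dvd.1 (key (L / v) (Nat.div_dvd_of_dvd hv) h2)))
  rw [Nat.mul_div_cancel' hv, ← ZMod.intCast_zmod_eq_zero_iff_dvd, Int.cast_sub, Int.cast_one,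
    Int.cast_natCast, ZMod.natCast_zmod_val, sub_eq_zero] at h
  exact Units.ext h

omit [NeZero L] in
/-- A unit congruent to one modulo `L / v` goes into the group of the generator at `v`. -/
theorem psi_mem_zpowers {L v : ℕ} [NeZero L] [Fact v.Prime] {Δ : Type} [CommGroup Δ] [Finite Δ]
    (ψ : (ZMod L)ˣ →* Δ) (hodd : Odd (Nat.card Δ)) (hv : v ∣ L) (hcop : v.Coprime (L / v))
    {a : (ZMod v)ˣ} (ha : orderOf a = v - 1) {g : Δ}
    (hgen : ∀ u : (ZMod L)ˣ, ((u : ZMod L).cast : ZMod (L / v)) = 1 →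
      ZMod.unitsMap hv u = a → ψ u ^ halfInvExp Δ = g)
    {u : (ZMod L)ˣ} (hu : ((u : ZMod L).cast : ZMod (L / v)) = 1) :
    ψ u ∈ Subgroup.zpowers g := by
  obtain ⟨u₀, hu₀, hu₀a⟩ := Assembly.exists_unit_crt hv hcop a
  have htop : Subgroup.zpowers a = ⊤ := Subgroup.eq_top_of_card_eq _ (by
    rw [Nat.card_zpowers, ha, Nat.card_eq_fintype_card, ZMod.card_units])
  obtain ⟨e, he⟩ := Subgroup.mem_zpowers_iff.1
    (show ZMod.unitsMap hv u ∈ Subgroup.zpowers a by rw [htop]; trivial)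
  have hu' : ZMod.unitsMap (Nat.div_dvd_of_dvd hv) u = 1 :=
    Units.ext (by rw [ZMod.unitsMap_val]; exact hu)
  have hu₀' : ZMod.unitsMap (Nat.div_dvd_of_dvd hv) u₀ = 1 :=
    Units.ext (by rw [ZMod.unitsMap_val]; exact hu₀)
  have heq : u = u₀ ^ e := by
    rw [← mul_inv_eq_one]
    refine units_eq_one_of_cast hv hcop ?_ ?_
    · rw [map_mul, map_inv, map_zpow, hu₀a, he, mul_inv_cancel]
    · rw [map_mul, map_inv, map_zpow, hu₀', hu', one_zpow, inv_one, mul_one]
  have hinv : ψ u₀ = ((ψ u₀ ^ halfInvExp Δ) ^ 2)⁻¹ :=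
    eq_inv_of_mul_eq_one_right (pow_halfInvExp_sq_mul hodd (ψ u₀))
  rw [heq, map_zpow, hinv, hgen u₀ hu₀ hu₀a]
  exact zpow_mem (inv_mem (pow_mem (Subgroup.mem_zpowers g) 2)) e

end Fermat.Agent.RT.LowerB
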