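import Fermat.Agent.RT.LowerB.Levels
import Fermat.Agent.RT.Pattern.FlatStrict

/-!
# The data of the scalar case of level lowering

For an odd `p`, a squarefree level of residual modularity. Every prime of it other than `p` at
which the residual representation is unramified is `1` modulo `p` with scalar Frobenius; if `p` is
in the level, it divides the discriminant and cannot be removed from the level.
-/

set_option autoImplicit false

noncomputable section

namespace Fermat.Agent.RT.LowerB

open IsLocalRing Fermat.Agent.Arith Fermat.Agent.RT.GammaH Fermat.Agent.RT.Modules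
open Fermat.Agent.Deform (Gal M2)
open scoped Classical

variable {O : Type} [CommRing O] [IsDomain O] [IsDiscreteValuationRing O]
  [IsAdicComplete (maximalIdeal O) O] [Finite (ResidueField O)] [CharZero O]
  {p : ℕ} [Fact p.Prime] [CharP (ResidueField O) p] [Algebra (ZMod p) (ResidueField O)]
  (W : WeierstrassCurve ℤ) (hΔ : W.Δ ≠ 0) (M : ℕ)

variable (p) in
/-- The exceptional primes of the case. -/
def excSet : Finset ℕ := insert p (M.primeFactors ∪ W.Δ.natAbs.primeFactors)

variable (O p) in
/-- The primes of the level other than `p` at which the residual representation is unramified. -/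
def scalarSet : Finset ℕ :=
  M.primeFactors.filter fun x =>
    x ≠ p ∧ (Core.rhoBar W p hΔ (ResidueField O)).IsUnramifiedAt x

variable (O p) in
/-- The pattern of the case. -/
def casePat : Pattern.Pat where
  S := M.primeFactors.erase p
  cond x := if x ∈ scalarSet O p W hΔ M then .scalar else .unipotent
  atP := if p ∣ M then .strict else .flat

omit [IsAdicComplete (maximalIdeal O) O] [Finite (ResidueField O)] [CharZero O]
  [CharP (ResidueField O) p] in
theorem weight_casePat :
    (casePat O p W hΔ M).weight = 3 * (scalarSet O p W hΔ M).card := by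
  have hsub : scalarSet O p W hΔ M ⊆ M.primeFactors.erase p := fun x hx =>
    Finset.mem_erase.2 ⟨(Finset.mem_filter.1 hx).2.1, (Finset.mem_filter.1 hx).1⟩
  rw [Pattern.Pat.weight, show (casePat O p W hΔ M).atP.weight = 0 by
    unfold casePat; dsimp only; split_ifs <;> rfl, add_zero]
  show ∑ x ∈ M.primeFactors.erase p,
    (if x ∈ scalarSet O p W hΔ M then Pattern.Cond.scalar else .unipotent).weight = _
  rw [Finset.sum_congr rfl (fun x _ => show
    (if x ∈ scalarSet O p W hΔ M then Pattern.Cond.scalar else .unipotent).weight =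
      if x ∈ scalarSet O p W hΔ M then 3 else 0 by split_ifs <;> rfl)]
  rw [Finset.sum_ite_mem, Finset.inter_eq_right.2 hsub, Finset.sum_const, smul_eq_mul, mul_comm]

variable (O p) in
/-- The hypotheses of the case, for an odd `p` and a semistable model with irreducible mod `p`
representation: a squarefree level of residual modularity, containing `p` only if `p` divides the
discriminant, from which `p` cannot be removed, every other prime of it at which the representation
is unramified being `1` modulo `p` with scalar Frobenius. -/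
structure Case : Prop where
  semistable : W.IsSemistableModel
  ne_two : p ≠ 2
  irr : W.ModRepIsIrreducible p
  squarefree : Squarefree M
  modular : W.IsResiduallyModularOfLevel p M
  scalar : ∀ x ∈ scalarSet O p W hΔ M, p ∣ x - 1 ∧
    ∀ A : ValuationSubring (AlgebraicClosure ℚ), A.LiesOverPrime x → ∀ σ : Gal,
      A.IsFrobeniusAt σ x → ∃ c : ResidueField O,
        (Core.rhoBar W p hΔ (ResidueField O)).ρ σ = c • 1
  minimal_at_p : p ∣ M → ¬ W.IsResiduallyModularOfLevel p (M / p)
  bad_at_p : p ∣ M → (p : ℤ) ∣ W.Δ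

variable {W hΔ M}

omit [IsAdicComplete (maximalIdeal O) O] [Finite (ResidueField O)] [CharZero O]
  [CharP (ResidueField O) p] in
theorem rb_eq_one_iff {b : Module.Basis (Fin 2) (ResidueField O)
    (Core.rhoBar W p hΔ (ResidueField O)).V} (σ : Gal) :
    Deform.matRes (Core.rhoBar W p hΔ (ResidueField O)) b σ = 1 ↔
      (Core.rhoBar W p hΔ (ResidueField O)).ρ σ = 1 := by
  show LinearMap.toMatrixAlgEquiv b _ = 1 ↔ _
  rw [← map_one (LinearMap.toMatrixAlgEquiv b)]
  exact (LinearMap.toMatrixAlgEquiv b).injective.eq_iff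

omit [IsAdicComplete (maximalIdeal O) O] [Finite (ResidueField O)] [CharZero O]
  [CharP (ResidueField O) p] in
/-- Ramification at `x` is seen at the standard place. -/
theorem exists_padic_inertia_ne {b : Module.Basis (Fin 2) (ResidueField O)
    (Core.rhoBar W p hΔ (ResidueField O)).V} {x : ℕ} [Fact x.Prime]
    (h : ¬ (Core.rhoBar W p hΔ (ResidueField O)).IsUnramifiedAt x) :
    ∃ τ ∈ (padicPlace x).inertiaSubgroupIn ℚ,
      Deform.matRes (Core.rhoBar W p hΔ (ResidueField O)) b τ ≠ 1 := by
  by_contra! hall
  refine h fun A hA σ hσ => ?_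
  obtain ⟨g, rfl⟩ := exists_smul_eq (CFT.Local.padicPlace_liesOverPrime x) hA Fact.out
  have hmem : g⁻¹ * σ * g ∈ (padicPlace x).inertiaSubgroupIn ℚ := by
    rw [← mem_inertia_smul_iff (g := g)]
    simpa [mul_assoc] using hσ
  have h1 := (rb_eq_one_iff _).1 (hall _ hmem)
  have e : σ = g * (g⁻¹ * σ * g) * g⁻¹ := by group
  rw [e, map_mul, map_mul, h1, mul_one, ← map_mul, mul_inv_cancel, map_one]

omit [IsAdicComplete (maximalIdeal O) O] [Finite (ResidueField O)] [CharZero O]
  [CharP (ResidueField O) p] in
/-- Outside the exceptional primes the residual representation is unramified. -/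
theorem isUnramifiedAt_of_notMem_excSet {x : ℕ} (hx : x.Prime) (hxS : x ∉ excSet p W M) :
    (Core.rhoBar W p hΔ (ResidueField O)).IsUnramifiedAt x := by
  simp only [excSet, Finset.mem_insert, Finset.mem_union, not_or] at hxS
  exact Core.isUnramifiedAt_rhoBar_of_good hx (fun h => hxS.2.2
    (Nat.mem_primeFactors.2 ⟨hx, Int.natCast_dvd.1 h, Int.natAbs_ne_zero.2 hΔ⟩)) hxS.1

omit [IsAdicComplete (maximalIdeal O) O] [Finite (ResidueField O)] [CharZero O]
  [CharP (ResidueField O) p] in
/-- The scalar places are primes of the level other than `p`. -/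
theorem prime_of_mem_scalarSet {x : ℕ} (hx : x ∈ scalarSet O p W hΔ M) :
    x.Prime ∧ x ∣ M ∧ x ≠ p :=
  ⟨Nat.prime_of_mem_primeFactors (Finset.mem_filter.1 hx).1,
    Nat.dvd_of_mem_primeFactors (Finset.mem_filter.1 hx).1, (Finset.mem_filter.1 hx).2.1⟩

omit [IsAdicComplete (maximalIdeal O) O] [Finite (ResidueField O)] [CharZero O]
  [CharP (ResidueField O) p] in
/-- The residual matrices are trivial on inertia at the scalar primes. -/
theorem rb_inertia_eq_one {b : Module.Basis (Fin 2) (ResidueField O)
    (Core.rhoBar W p hΔ (ResidueField O)).V} {x : ℕ} (hx : x ∈ scalarSet O p W hΔ M)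
    {A : ValuationSubring (AlgebraicClosure ℚ)} (hA : A.LiesOverPrime x) {τ : Gal}
    (hτ : τ ∈ A.inertiaSubgroupIn ℚ) :
    Deform.matRes (Core.rhoBar W p hΔ (ResidueField O)) b τ = 1 :=
  (rb_eq_one_iff τ).2 ((Finset.mem_filter.1 hx).2.2 A hA τ hτ)

namespace Case

variable (cd : Case O p W hΔ M) {b : Module.Basis (Fin 2) (ResidueField O)
  (Core.rhoBar W p hΔ (ResidueField O)).V}

include cd

omit [IsAdicComplete (maximalIdeal O) O] [Finite (ResidueField O)] [CharZero O]
  [CharP (ResidueField O) p] in
/-- The level of a case is nonzero, being squarefree. -/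
theorem ne_zero : M ≠ 0 := cd.squarefree.ne_zero

omit [CharP (ResidueField O) p] in
omit [IsAdicComplete (maximalIdeal O) O] [Finite (ResidueField O)] [CharZero O] in
theorem data (hp : (p : O) ∈ maximalIdeal O)
    (hk : ∀ f : Polynomial (ZMod p), f.natDegree = 2 →
      ∃ x : ResidueField O, (f.map (algebraMap (ZMod p) (ResidueField O))).IsRoot x) :
    Data O p W hΔ (excSet p W M) b where
  semistable := cd.semistable
  ne_two := cd.ne_two
  irr := cd.irr
  twHyp := Core.twHyp_rhoBar cd.semistable cd.ne_two cd.irr hk b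
  p_mem := Finset.mem_insert_self _ _
  bad_mem _ hℓ hd := Finset.mem_insert_of_mem (Finset.mem_union_right _
    (Nat.mem_primeFactors.2 ⟨hℓ, Int.natCast_dvd.1 hd, Int.natAbs_ne_zero.2 hΔ⟩))
  p_small := hp

omit [IsAdicComplete (maximalIdeal O) O] [Finite (ResidueField O)] [CharZero O]
  [CharP (ResidueField O) p] in
/-- The primes of the level are exceptional. -/
theorem mem_excSet {x : ℕ} (hx : x.Prime) (hxM : x ∣ M) : x ∈ excSet p W M :=
  Finset.mem_insert_of_mem (Finset.mem_union_left _
    (Nat.mem_primeFactors.2 ⟨hx, hxM, cd.ne_zero⟩))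

omit [IsAdicComplete (maximalIdeal O) O] [Finite (ResidueField O)] [CharZero O]
  [CharP (ResidueField O) p] in
/-- The residual matrices of Frobenius elements at the scalar primes are scalar. -/
theorem rb_frobenius {x : ℕ} (hx : x ∈ scalarSet O p W hΔ M)
    {A : ValuationSubring (AlgebraicClosure ℚ)} (hA : A.LiesOverPrime x) {σ : Gal}
    (hσ : A.IsFrobeniusAt σ x) :
    ∃ c : ResidueField O, Deform.matRes (Core.rhoBar W p hΔ (ResidueField O)) b σ = c • 1 := by
  obtain ⟨c, hc⟩ := (cd.scalar x hx).2 A hA σ hσ
  refine ⟨c, ?_⟩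
  show LinearMap.toMatrixAlgEquiv b _ = _
  rw [hc, map_smul, map_one]

omit [IsAdicComplete (maximalIdeal O) O] [Finite (ResidueField O)] [CharZero O]
  [CharP (ResidueField O) p] in
/-- The pattern is possible once the residual matrices are unramified outside the level. -/
theorem compat (hout : ∀ (x : ℕ) [Fact x.Prime], ¬ x ∣ M → x ≠ p →
      ∀ τ ∈ (padicPlace x).inertiaSubgroupIn ℚ,
        Deform.matRes (Core.rhoBar W p hΔ (ResidueField O)) b τ = 1) :
    (casePat O p W hΔ M).Compat p (Deform.matRes (Core.rhoBar W p hΔ (ResidueField O)) b) where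
  prime x hx :=
    ⟨Nat.prime_of_mem_primeFactors (Finset.mem_of_mem_erase hx), Finset.ne_of_mem_erase hx⟩
  cond x _ hx := by
    show (if x ∈ scalarSet O p W hΔ M then Pattern.Cond.scalar else .unipotent).Compat _ x
    split_ifs with hs
    · have hA := CFT.Local.padicPlace_liesOverPrime x
      obtain ⟨F, hF⟩ := Arith.exists_isFrobeniusAt hA Fact.out
      exact ⟨fun τ hτ => rb_inertia_eq_one hs hA hτ, F, hF, cd.rb_frobenius hs hA hF⟩
    · exact exists_padic_inertia_ne fun h => hs (Finset.mem_filter.2
        ⟨Finset.mem_of_mem_erase hx, Finset.ne_of_mem_erase hx, h⟩)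
  outside x _ hxP hxp := hout x (fun hd => hxP (Finset.mem_erase.2 ⟨hxp,
    Nat.mem_primeFactors.2 ⟨Fact.out, hd, cd.ne_zero⟩⟩)) hxp

end Case

omit [Finite (ResidueField O)] [CharZero O] in
/-- The number of coordinates of `Hom(Γ₀(M), O)`, bounding every localisation at level `M`. -/
theorem exists_rank_bound (M : ℕ) [NeZero M] :
    ∃ B : ℕ, ∀ (S : Finset ℕ) (abar : ℕ → ResidueField O),
      Module.finrank O (locHom S abar (⊤ : Subgroup (ZMod M)ˣ)) ≤ B := by
  obtain ⟨n, γ, hγ⟩ := exists_coords (M := M) (K := (⊤ : Subgroup (ZMod M)ˣ))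
  refine ⟨n, fun S abar => ?_⟩
  let ev : HomMod O S (⊤ : Subgroup (ZMod M)ˣ) O →ₗ[O] (Fin n → O) :=
    { toFun := fun φ i => (φ : Additive (gammaH M (⊤ : Subgroup (ZMod M)ˣ)) →+ O) (γ i)
      map_add' := fun _ _ => rfl
      map_smul' := fun _ _ => rfl }
  have hev : Function.Injective ev := fun φ ψ h =>
    hγ O φ ψ (congrFun h)
  have hinj : Function.Injective (ev.comp (locHom S abar (⊤ : Subgroup (ZMod M)ˣ)).subtype) :=
    hev.comp Subtype.val_injective
  exact (LinearMap.finrank_le_finrank_of_injective hinj).trans_eq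
    (Module.finrank_fin_fun O)

end Fermat.Agent.RT.LowerB
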