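import Fermat.Agent.RT.InertiaTW.Inertia
import Fermat.Agent.Deform.Matrix

/-!
# Conjugation of inertia by a Frobenius in a lift residually trivial on inertia
-/

set_option autoImplicit false

noncomputable section

namespace Fermat.Agent.RT.LowerB

open IsLocalRing Fermat.Agent.Arith Fermat.Agent.Deform Fermat.Agent.RT.Assembly
  Fermat.Agent.RT.InertiaTW

/-- Powers of a matrix congruent to zero. -/
theorem pow_entry_mem {A : Type} [CommRing A] {I : Ideal A} {X : M2 A} (h : ∀ i j, X i j ∈ I)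
    (n : ℕ) : ∀ i j, (X ^ n) i j ∈ I ^ n := by
  induction n with
  | zero => simp
  | succ n ih =>
    intro i j
    rw [pow_succ X, pow_succ I, Matrix.mul_apply]
    exact Ideal.sum_mem _ fun l _ => Ideal.mul_mem_mul (ih i l) (h l j)

/-- Where inertia is residually trivial, conjugation by a Frobenius raises it to the `q`-th
power. -/
theorem map_conj_frobenius {A : Type} [CommRing A] [IsLocalRing A] [IsNoetherianRing A] {p q : ℕ}
    (hp : p.Prime) (hpA : (p : A) ∈ maximalIdeal A) (hq : q.Prime) (hqp : q ≠ p) {ru : Gal →* M2 A}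
    (hc : IsCont ru) {P : ValuationSubring QBar} (hP : P.LiesOverPrime q)
    (hres : ∀ τ ∈ P.inertiaSubgroupIn ℚ, ∀ i j, (ru τ - 1) i j ∈ maximalIdeal A) {φ σ : Gal}
    (hφ : P.IsFrobeniusAt φ q) (hσ : σ ∈ P.inertiaSubgroupIn ℚ) :
    ru φ * ru σ = ru σ ^ q * ru φ := by
  obtain ⟨h1, h2⟩ := tameTrivial_frobenius_conj hφ hσ
  set ν := φ * σ * φ⁻¹ * (σ ^ q)⁻¹ with hν
  have key : ru ν = 1 := by
    refine Matrix.ext fun i j => sub_eq_zero.1 ?_
    rw [← Ideal.mem_bot, ← Ideal.iInf_pow_eq_bot_of_isLocalRing (maximalIdeal A)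
      (maximalIdeal.isMaximal A).ne_top, Ideal.mem_iInf]
    intro n
    set g := (Ideal.Quotient.mk (maximalIdeal A ^ n)).mapMatrix (m := Fin 2)
    obtain ⟨k, hk⟩ := exists_pow_prime_pow_eq_one (Y := g (ru ν)) (p := p) (n := n) (m := n)
      (by
        rw [← map_natCast (Matrix.scalar (Fin 2) : A ⧸ maximalIdeal A ^ n →+* _),
          ← map_natCast (Ideal.Quotient.mk (maximalIdeal A ^ n)), ← map_pow, ← map_pow,
          Ideal.Quotient.eq_zero_iff_mem.mpr (Ideal.pow_mem_pow hpA n), map_zero])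
      (by
        rw [← map_one g, ← map_sub, ← map_pow, RingHom.mapMatrix_apply]
        ext a b
        rw [Matrix.map_apply, Matrix.zero_apply, Ideal.Quotient.eq_zero_iff_mem]
        exact pow_entry_mem (hres ν h1) n a b)
    obtain ⟨L, hL, hL'⟩ := hc n
    have h := Assembly.eq_one_of_tameTrivial (g.toMonoidHom.comp ru)
      ⟨L, hL, fun s hs => (mapMatrix_mk_eq_one_iff _ _).mpr fun a b => by
        rw [Matrix.sub_apply]; exact hL' s hs a b⟩ hP hq h1 h2 (n := p ^ k)
      (fun h => hqp ((Nat.prime_dvd_prime_iff_eq hq hp).mp (hq.dvd_of_dvd_pow h))) hk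
    simpa [Matrix.sub_apply] using (mapMatrix_mk_eq_one_iff _ _).mp h i j
  rw [← map_pow, ← map_mul, ← map_mul, show φ * σ = ν * (σ ^ q * φ) by rw [hν]; group, map_mul,
    key, one_mul]

end Fermat.Agent.RT.LowerB
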