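import Fermat.Agent.RT.LowerB.Points
import Fermat.Agent.RT.Glue.Main

/-!
# A quadratic relation for Frobenius at a place with no congruence below

At a place `v` without a congruence at the level with `v` removed, `tr² - (v + 1)²` of a Frobenius
is killed by the norm of the group of the place.
-/

set_option autoImplicit false

noncomputable section

namespace Fermat.Agent.RT.LowerB

open IsLocalRing Fermat.Agent.RT.Glue
open Fermat.Agent.Deform (Gal M2)
open GaloisReps (HeckeGaloisModel)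

variable {O : Type} [CommRing O] [IsDomain O] [IsDiscreteValuationRing O]
  [IsAdicComplete (maximalIdeal O) O] [Finite (ResidueField O)] [CharZero O]
  {p : ℕ} [Fact p.Prime] {L : ℕ} [NeZero L] {Δ : Type} [CommGroup Δ] [Finite Δ]
  {ψ : (ZMod L)ˣ →* Δ} {T : Finset ℕ} {abar : ℕ → ResidueField O}
  {H : HeckeModule L ψ T abar} [IsLocalRing H.algebra]
  {hS : ∀ q : ℕ, q.Prime → q ∣ L → q ∈ T} {D : ∀ (M : ℕ) [NeZero M], HeckeGaloisModel M p}
  {pt : ∀ θ : H.algebra →ₐ[O] KBar O, Point (p := p) H hS θ.toRingHom}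

/-- At a place with no congruence below, `tr² - (v + 1)²` is killed by the norm of the group of
the place. -/
theorem norm_mul_trace_sq (G : Glued D pt) (hp : (p : O) ∈ maximalIdeal O)
    (hodd : Odd (Nat.card Δ)) {v : ℕ} [Fact v.Prime] (hvL : v ∣ L) (hvp : v ≠ p)
    (hcop : v.Coprime (L / v)) (hncl : ¬ IsCongruentLevel T abar (L / v))
    (hM : ∀ (M : ℕ) [NeZero M], M ∣ L ^ 2 → v ∣ M → ¬ v ^ 2 ∣ M →
      NewformLocal.UnipotentAt (D M) v ∧ NewformLocal.ToricSquareAt (D M) v)
    {a : (ZMod v)ˣ} (ha : orderOf a = v - 1) {g : Δ}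
    (hgen : ∀ u : (ZMod L)ˣ, ((u : ZMod L).cast : ZMod (L / v)) = 1 →
      ZMod.unitsMap hvL u = a → ψ u ^ halfInvExp Δ = g)
    {A : ValuationSubring (AlgebraicClosure ℚ)} (hA : A.LiesOverPrime v) {σ : Gal}
    (hσ : A.IsFrobeniusAt σ v) [Fintype (Subgroup.zpowers g)] :
    (∑ k : Subgroup.zpowers g, H.dia (k : Δ)) *
      (((G.R σ).trace ^ 2 - ((v : H.algebra) + 1) ^ 2 : H.algebra) : Module.End O H.M) = 0 := by
  set x : H.algebra := (G.R σ).trace ^ 2 - ((v : H.algebra) + 1) ^ 2 with hx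
  have key : (∑ k : Subgroup.zpowers g, diaA H (k : Δ)) * x = 0 := by
    refine eq_zero_of_forall_complex hp fun θ => ?_
    rw [map_mul]
    by_cases h1 : θ (diaA H g) = 1
    · have hK : ∀ k ∈ Subgroup.zpowers g, θ (diaA H k) = 1 := fun k hk =>
        (Subgroup.zpowers_le (H := ((θ : H.algebra →* ℂ).comp (diaA H)).ker)).2 h1 hk
      have h2 := G.trace_sq_frobenius Fact.out hvL hvp hncl hM hA hσ θ fun u hu =>
        hK _ (psi_mem_zpowers ψ hodd hvL hcop ha hgen hu)
      rw [G.trace_rep] at h2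
      rw [hx, map_sub, map_pow, map_pow, map_add, map_natCast, map_one, h2, sub_self, mul_zero]
    · suffices h0 : θ (∑ k : Subgroup.zpowers g, diaA H (k : Δ)) = 0 by rw [h0, zero_mul]
      set s := θ (∑ k : Subgroup.zpowers g, diaA H (k : Δ)) with hs
      have h2 : θ (diaA H g) * s = s := by
        rw [hs, map_sum, Finset.mul_sum]
        refine Fintype.sum_equiv (Equiv.mulLeft ⟨g, Subgroup.mem_zpowers g⟩) _ _ fun k => ?_
        rw [← map_mul θ, ← map_mul (diaA H)]
        rfl
      exact (mul_left_eq_self₀.1 h2).resolve_left h1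
  have h := congrArg Subtype.val key
  rw [Subalgebra.coe_mul, AddSubmonoidClass.coe_finsetSum, ZeroMemClass.coe_zero] at h
  exact h

end Fermat.Agent.RT.LowerB
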