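import Fermat.Agent.RT.LowerB.AuxLevel
import Fermat.Agent.RT.LowerB.Points
import Fermat.Agent.RT.LowerB.Strict
import Fermat.Agent.RT.LowerB.Ordinary
import Fermat.Agent.RT.Glue.Flat

/-!
# The glued representation has the pattern of the scalar case

`holds_casePat`: at an auxiliary level of a `Case`, with strictness of the newforms at `p`, the
representation glued from the points of the Hecke module satisfies the conditions of the case at
every place: unipotent inertia at the primes of the level outside the scalar set, strict or flat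
at `p`, unramified outside the level, `p` and the auxiliary primes. It is used in
`RT/LowerB/PatchLevels`.
-/

set_option autoImplicit false

noncomputable section

namespace Fermat.Agent.RT.LowerB

open IsLocalRing Fermat.Agent.Deform Fermat.Agent.RT.Glue
open GaloisReps (HeckeGaloisModel)

/-- The equations of strictness descend to a subalgebra. -/
theorem isStrictOrdinaryAt_of_subalgebra {O A : Type} [CommRing O] [IsDomain O]
    [IsDiscreteValuationRing O] [CommRing A] [IsLocalRing A] [Algebra O A] [Module.Finite O A]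
    {p : ℕ} [Fact p.Prime] {S : Subalgebra O A} [IsLocalRing S] (h2 : IsUnit (2 : A))
    {rS : Gal →* M2 S} (hcS : IsCont rS) (hdetS : (toRep rS hcS).DetIsCyclotomic p)
    {ru : Gal →* M2 A} (hmap : mapM (S.val : S →+* A) rS = ru) {τ₀ : Gal}
    (hτ₀ : τ₀ ∈ (padicPlace p).inertiaSubgroupIn ℚ) (hu : IsUnit ((ru τ₀).det - 1))
    {ε : Gal → A} (hε : ∀ σ ∈ (padicPlace p).decompositionSubgroup ℚ, ε σ * ε σ = 1)
    (hεI : ∀ τ ∈ (padicPlace p).inertiaSubgroupIn ℚ, ε τ = 1)
    (heq : Lifting.StrictEq ru τ₀ ε p) : (toRep rS hcS).IsStrictOrdinaryAt p := by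
  classical
  have := Assembly.isLocalHom_subalgebra_val S
  subst hmap
  let εS : Gal → S := fun σ => if ε σ = 1 then 1 else -1
  -- `ε` takes the values `±1`, as `2` is a unit
  have hval : ∀ σ ∈ (padicPlace p).decompositionSubgroup ℚ, (εS σ : A) = ε σ := by
    intro σ hσ
    simp only [εS]
    split_ifs with h
    · simp [h]
    · have h0 : (ε σ + 1) * (1 - ε σ) = 0 := by linear_combination -(hε σ hσ)
      have h1 : IsUnit (1 - ε σ) := by
        rcases IsLocalRing.isUnit_or_isUnit_of_isUnit_add (a := ε σ + 1) (b := 1 - ε σ)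
          (by rwa [show ε σ + 1 + (1 - ε σ) = 2 by ring]) with h1 | h1
        · exact absurd (sub_eq_zero.1 ((h1.mul_right_eq_zero).1 h0)).symm h
        · exact h1
      rw [eq_neg_of_add_eq_zero_left ((h1.mul_left_eq_zero).1 h0)]
      simp
  have hdet : ∀ σ, (((rS σ).det : S) : A) = (mapM (S.val : S →+* A) rS σ).det := fun σ =>
    RingHom.map_det (S.val : S →+* A) (rS σ)
  refine Lifting.isStrictOrdinaryAt_of_strictEq hcS hdetS hτ₀ (ε := εS) ?_ (fun σ _ => ?_)
    (fun τ hτ => if_pos (hεI τ hτ)) fun σ hσ => ?_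
  · refine (isUnit_map_iff (S.val : S →+* A) _).1 ?_
    rw [map_sub, map_one, show (S.val : S →+* A) (rS τ₀).det = _ from hdet τ₀]
    exact hu
  · simp only [εS]
    split_ifs <;> simp
  -- the equations can be checked in `A`
  · refine Matrix.map_injective (f := (S.val : S →+* A)) Subtype.val_injective ?_
    show (S.val : S →+* A).mapMatrix _ = (S.val : S →+* A).mapMatrix 0
    rw [map_zero, map_mul, map_sub, map_sub]
    have e : ∀ x : S, (S.val : S →+* A).mapMatrix (x • (1 : M2 S)) = (x : A) • (1 : M2 A) :=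
      fun x => by
        ext i j
        rw [RingHom.mapMatrix_apply, Matrix.map_apply, Matrix.smul_apply, Matrix.smul_apply,
          smul_eq_mul, smul_eq_mul, map_mul, Matrix.one_apply, Matrix.one_apply]
        split_ifs <;> simp
    rw [e, e, hdet τ₀, hval σ hσ]
    exact heq σ hσ

variable {O : Type} [CommRing O] [IsDomain O] [IsDiscreteValuationRing O]
  [IsAdicComplete (maximalIdeal O) O] [Finite (ResidueField O)] [CharZero O]
  {p : ℕ} [Fact p.Prime] [CharP (ResidueField O) p] [Algebra (ZMod p) (ResidueField O)]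
  {W : WeierstrassCurve ℤ} {hΔ : W.Δ ≠ 0} {M : ℕ}
  {b : Module.Basis (Fin 2) (ResidueField O) (Core.rhoBar W p hΔ (ResidueField O)).V}
  {r n : ℕ} {qv : Fin r → ℕ} {Δ : Type} [CommGroup Δ] [Finite Δ]
  [NeZero (auxLevel M qv)] {ψ : (ZMod (auxLevel M qv))ˣ →* Δ}
  {H : HeckeModule (auxLevel M qv) ψ (auxExc p W M qv) (Core.abar W (ResidueField O))}
  [IsLocalRing H.algebra] [IsLocalHom (algebraMap O H.algebra)]
  {hS : ∀ q : ℕ, q.Prime → q ∣ auxLevel M qv → q ∈ auxExc p W M qv}
  {pt : ∀ θ : H.algebra →ₐ[O] KBar O, Point (p := p) H hS θ.toRingHom}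

/-- **The pattern holds**: the glued representation at the auxiliary level satisfies the local
conditions of `casePat` at every place. -/
theorem holds_casePat (cd : Case O p W hΔ M) (d : Data O p W hΔ (excSet p W M) b)
    (ha : IsAux O p W hΔ M b n qv) (hΔp : IsPGroup p Δ) (hstrict : Lifting.StrictAtNew p O)
    (hψ : ∀ x : ℕ, x.Prime → x ∣ M → x ∉ scalarSet O p W hΔ M →
      ∀ u : (ZMod (auxLevel M qv))ˣ,
        ((u : ZMod (auxLevel M qv)).cast : ZMod (auxLevel M qv / x)) = 1 → ψ u = 1)
    (G : Glued (models p) pt)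
    (hG : G.rep.residual.IsEquiv ((Core.rhoBar W p hΔ (ResidueField O)).baseChangeAlong
      (ResidueField.map (algebraMap O H.algebra))))
    {ru : Gal →* M2 H.algebra} {hc : IsCont ru}
    (he : G.rep.IsEquiv (toRep ru hc))
    (hru : ∀ σ, (ru σ).trace = (G.R σ).trace ∧ (ru σ).det = (G.R σ).det ∧
      (G.R σ = 1 → ru σ = 1))
    (hspan : Submodule.span H.algebra (Set.range ru) = ⊤)
    (S : Subalgebra O H.algebra) [IsLocalRing S] {rS : Gal →* M2 S} (hcS : IsCont rS)
    (hmap : mapM (S.val : S →+* H.algebra) rS = ru) :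
    (casePat O p W hΔ M).Holds p (Set.range qv) rS hcS := by
  classical
  have : Module.Finite O H.algebra := inferInstance
  have hp := d.p_small
  have hA := isResAlg_algebra (H := H) hp hΔp
  have hinj : Function.Injective (S.val : S →+* H.algebra) := Subtype.val_injective
  have hdet_ru : (toRep ru hc).DetIsCyclotomic p := by
    refine ⟨natCast_mem hp, fun m σ a ha => ?_⟩
    rw [det_toRep, (hru σ).2.1, Nat.cast_pow]
    exact G.det_congr m σ a ha
  have hdetS := detIsCyclotomic_of_subalgebra hp hA hcS hc hmap hdet_ru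
  refine ⟨hdetS, fun x _ hx => ?_, ?_, fun x _ hxP hxp hxQ τ hτ => ?_⟩
  -- At the other primes of `M`, outside the scalar set, inertia has trace `2`.
  · show (if x ∈ scalarSet O p W hΔ M then Pattern.Cond.scalar else .unipotent).Holds rS x
    split_ifs with hs
    · exact trivial
    · intro τ hτ
      have hxp := Finset.ne_of_mem_erase hx
      have hxM := Nat.dvd_of_mem_primeFactors (Finset.mem_of_mem_erase hx)
      refine hinj ?_
      rw [map_ofNat, show (S.val : S →+* H.algebra) (rS τ).trace = (ru τ).trace by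
        rw [← hmap]; exact AddMonoidHom.map_trace (S.val : S →+* H.algebra).toAddMonoidHom _,
        (hru τ).1]
      exact trace_inertia_eq_two G Fact.out (dvd_mul_of_dvd_left hxM _) hxp
        (hψ x Fact.out hxM hs) (fun N _ h1 h2 => (stdModel_local p Fact.out hxp h1 h2).1)
        (CFT.Local.padicPlace_liesOverPrime x) hτ
  -- At `p`: strictly ordinary if `p ∣ M`, every point being new at `p`; flat otherwise.
  · show Pattern.CondAtP.Holds (toRep rS hcS) p (if p ∣ M then .strict else .flat)
    split_ifs with hpM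
    · have hp2 := cd.ne_two
      have hpS : p ∉ scalarSet O p W hΔ M := fun h => (prime_of_mem_scalarSet h).2.2 rfl
      have hnew : ∀ θ, p ∣ (pt θ).M ∧ ¬ p ^ 2 ∣ (pt θ).M := fun θ => by
        refine ⟨by_contra fun h => cd.minimal_at_p hpM ?_, (pt θ).sq_not_dvd Fact.out
          (dvd_mul_of_dvd_left hpM _) fun u hu => ?_⟩
        · exact ha.modular_of_congruent_div cd d Fact.out hpM
            ((pt θ).congruent p Fact.out (dvd_mul_of_dvd_left hpM _) h)
        · rw [hψ p Fact.out hpM hpS u hu, map_one, map_one]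
      obtain ⟨τ₀, hτ₀, hu⟩ := exists_inertia_det_sub_one hp hp2 G
      have hdvd := cd.bad_at_p hpM
      obtain ⟨ε, hε, hεI, heq⟩ := exists_strictEq hp hp2 hstrict G hnew
        (isOrdinaryAt_residual_point hΔ hp hp2 hdvd
          (cd.semistable p Fact.out hdvd) G hG) hτ₀ hu ru
        (fun σ => (hru σ).1) (fun σ => (hru σ).2.1) hspan
      exact isStrictOrdinaryAt_of_subalgebra (isUnit_two hp hp2) hcS hdetS hmap hτ₀
        (by rwa [(hru τ₀).2.1]) hε hεI heq
    · refine isFlatAt_of_subalgebra hcS hc hmap (isFlatAt_congr he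
        (G.isFlatAt hp hΔp fun N _ m hN => stdModel_galOrder p (fun h => ?_) m))
      exact ha.not_dvd_p hpM ((Fact.out : p.Prime).dvd_of_dvd_pow (h.trans hN))
  -- Elsewhere unramified.
  · have hxL : ¬ x ∣ auxLevel M qv := fun h => by
      rcases ha.dvd_level_cases Fact.out h with h | h
      · exact hxP (Finset.mem_erase.2
          ⟨hxp, Nat.mem_primeFactors.2 ⟨Fact.out, h, cd.ne_zero⟩⟩)
      · obtain ⟨i, -, hi⟩ := Finset.mem_image.1 h
        exact hxQ ⟨i, hi⟩
    have h1 := (hru τ).2.2 (apply_eq_one G Fact.out hxL hxp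
      (CFT.Local.padicPlace_liesOverPrime x) hτ)
    rw [← hmap] at h1
    exact Matrix.map_injective hinj
      (h1.trans (map_one (S.val : S →+* H.algebra).mapMatrix).symm)

end Fermat.Agent.RT.LowerB
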