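import Fermat.Agent.RT.LowerB.Rank
import Fermat.Agent.RT.Core.Forms

/-!
# Changing the set of exceptional primes and the level

Residual modularity of a level does not depend on the exceptional set, passes from `M` to `M x`
for a new prime `x`, and descends from `M ∏ Q` to a squarefree `M` for primes `Q` that are `1` in
the residue field and have a Frobenius with squared residual trace not `4`.
-/

set_option autoImplicit false

noncomputable section

namespace Fermat.Agent.RT.LowerB

open IsLocalRing Fermat.Agent.RT.Modules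

variable {W : WeierstrassCurve ℤ} {p : ℕ} [Fact p.Prime] (hΔ : W.Δ ≠ 0)
  (k : Type) [Field k] [Algebra (ZMod p) k]

include hΔ in
/-- A level congruent to the residual system of the curve makes it residually modular. -/
theorem residuallyModular_of_congruentLevel {S : Finset ℕ} {M : ℕ}
    (h : IsCongruentLevel S (Core.abar W k) M) : W.IsResiduallyModularOfLevel p M :=
  let ⟨_, hg⟩ := h
  Core.isResiduallyModularOfLevel_of_congruent hΔ GaloisReps.models hg

include hΔ k in
/-- Residual modularity passes to a prime multiple of the level. -/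
theorem residuallyModular_raise {M x : ℕ} (hM : M ≠ 0) (hx : x.Prime) (hxM : ¬ x ∣ M)
    (h : W.IsResiduallyModularOfLevel p M) : W.IsResiduallyModularOfLevel p (M * x) := by
  classical
  have : NeZero M := ⟨hM⟩
  let S₀ : Finset ℕ := insert p (M.primeFactors ∪ W.Δ.natAbs.primeFactors)
  obtain ⟨g, hg, φ, hφ⟩ := Core.isCongruentLevel_of_residuallyModular (k := k) (S := S₀)
    (fun ℓ hℓ hc => by
      simp only [S₀, Finset.mem_insert, Finset.mem_union, Nat.mem_primeFactors]
      rcases hc with h | h | h
      · exact Or.inl h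
      · exact Or.inr (Or.inl ⟨hℓ, h, hM⟩)
      · exact Or.inr (Or.inr ⟨hℓ, Int.natCast_dvd.mp h, Int.natAbs_ne_zero.mpr hΔ⟩)) h
  obtain ⟨f, hf, hfg⟩ := ConductorLevel.exists_raise_prime hx hxM hg
  refine residuallyModular_of_congruentLevel hΔ k (S := insert x S₀) ⟨f, hf, φ,
    fun ℓ hℓ hℓS a ha => ?_⟩
  rw [Finset.mem_insert, not_or] at hℓS
  exact hφ ℓ hℓ hℓS.2 a (ha.trans (hfg ℓ hℓ hℓS.1))

section Descent

variable {O : Type} [CommRing O] [IsDomain O] [IsDiscreteValuationRing O]
  [IsAdicComplete (maximalIdeal O) O] [Finite (ResidueField O)] [CharZero O]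
  [CharP (ResidueField O) p] [Algebra (ZMod p) (ResidueField O)] {hΔ} {S : Finset ℕ}
  {b : Module.Basis (Fin 2) (ResidueField O) (Core.rhoBar W p hΔ (ResidueField O)).V}

omit [IsAdicComplete (maximalIdeal O) O] [Finite (ResidueField O)] [CharZero O]
  [CharP (ResidueField O) p] in
/-- Residual modularity at a level gives a congruence to the residual system. -/
theorem Data.congruentLevel (d : Data O p W hΔ S b) {M : ℕ}
    (hS : ∀ v : ℕ, v.Prime → v ∣ M → v ∈ S) (h : W.IsResiduallyModularOfLevel p M) :
    IsCongruentLevel S (Core.abar W (ResidueField O)) M :=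
  Core.isCongruentLevel_of_residuallyModular (fun ℓ hℓ hc => by
    rcases hc with h | h | h
    · exact h ▸ d.p_mem
    · exact hS ℓ hℓ h
    · exact d.bad_mem ℓ hℓ h) h

/-- **No new forms at the auxiliary primes**: a congruence at level `M ∏ Q` descends to level
`M`. -/
theorem Data.congruentLevel_descent (d : Data O p W hΔ S b) {M : ℕ} [NeZero M] (hM : Squarefree M)
    (hS : ∀ v : ℕ, v.Prime → v ∣ M → v ∈ S) (Q : Finset ℕ) [NeZero (M * ∏ q ∈ Q, q)]
    (hQ : ∀ q ∈ Q, q.Prime ∧ q ∈ S ∧ ¬ q ∣ M ∧ q ≠ p ∧ (q : ResidueField O) = 1 ∧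
      ∃ (A : ValuationSubring (AlgebraicClosure ℚ)) (s : GaloisReps.AbsGal),
        A.LiesOverPrime q ∧ A.IsFrobeniusAt s q ∧
          (Deform.matRes (Core.rhoBar W p hΔ (ResidueField O)) b s).trace ^ 2 ≠ 4)
    (h : IsCongruentLevel S (Core.abar W (ResidueField O)) (M * ∏ q ∈ Q, q)) :
    IsCongruentLevel S (Core.abar W (ResidueField O)) M := by
  have h1 := d.finrank_locHom_prod_le hM hS Q hQ
  have h2 : 0 < Module.finrank O (locHom S (Core.abar W (ResidueField O))
      (⊤ : Subgroup (ZMod (M * ∏ q ∈ Q, q))ˣ)) := finrank_locHom_top_pos h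
  refine isCongruentLevel_of_ne_bot hM hS (exists_nonEis b d.twHyp S) fun hbot => ?_
  rw [hbot, finrank_bot, mul_zero] at h1
  omega

end Descent

end Fermat.Agent.RT.LowerB
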