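import Fermat.Agent.RT.LowerB.PatchLevels
import Fermat.Agent.RT.Assembly.Coeff
import Fermat.Agent.RT.LowerA.CaseA

/-!
# Level lowering at every prime other than `p`

`lower`: for an odd `p` and a semistable model with irreducible mod `p` representation, strictness
at `p` of the newforms (`StrictAtNew`) gives `Lifting.Lower`. It is used in `RT/Frey/Lowered`. The
proof is by induction on the level:

1. By induction one may assume that no prime can be removed. Then, by Mazur's principle
   (`RT/LowerA/CaseA`), every prime `q ≠ p` of the level at which the representation is unramified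
   is `1` modulo `p` with scalar Frobenius (`Case`).
2. For such a `q`, patching at Taylor-Wiles primes makes the relation `Assembly.frobRel` (the
   eigenvalues of Frobenius at `q` differ by `q - 1`) divisible by the uniformiser at every
   patching level (`exists_patchLevels`).
3. The supports of the patched modules then force its coefficients into the maximal ideal, but
   the coefficient of the square of a variable is one, so `q` can be removed after all
   (`Case.residuallyModular_div`).

## References

* K. Ribet, *On modular representations of Gal(Q̄/Q) arising from modular forms*, Invent. Math.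
  (1990).
* R. Taylor, A. Wiles, *Ring-theoretic properties of certain Hecke algebras*, Ann. of Math. (1995).

Ribet treats this case with an auxiliary prime and Shimura curves. Here it follows from patching
at Taylor-Wiles primes; no Shimura curve is used.
-/

set_option autoImplicit false

noncomputable section

namespace Fermat.Agent.RT.LowerB

open IsLocalRing MvPowerSeries Fermat.Agent.RT.Germ
open Fermat.Agent.Deform (Gal M2)

/-! ## The scalar case -/

section Scalar

variable {O : Type} [CommRing O] [IsDomain O] [IsDiscreteValuationRing O]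
  [IsAdicComplete (maximalIdeal O) O] [Finite (ResidueField O)] [CharZero O]
  {p : ℕ} [Fact p.Prime] [CharP (ResidueField O) p] [Algebra (ZMod p) (ResidueField O)]
  {W : WeierstrassCurve ℤ} {hΔ : W.Δ ≠ 0} {M : ℕ}

/-- **The scalar case**: in a level satisfying `Case`, any `q ≠ p` at which the representation is
unramified can be removed. -/
theorem Case.residuallyModular_div (cd : Case O p W hΔ M) (hp : (p : O) ∈ maximalIdeal O)
    (hk : ∀ f : Polynomial (ZMod p), f.natDegree = 2 →
      ∃ x : ResidueField O, (f.map (algebraMap (ZMod p) (ResidueField O))).IsRoot x)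
    (hstrict : Lifting.StrictAtNew p O) (hζ : ∃ ζ : O, IsPrimitiveRoot ζ p)
    (φ : O →+* ball1 ℂ_[p]) (hφinj : Function.Injective φ)
    (hφ : ∀ c ∈ maximalIdeal O, ‖(φ c : ℂ_[p])‖ < 1) {q : ℕ}
    (hq : q ∈ scalarSet O p W hΔ M) : W.IsResiduallyModularOfLevel p (M / q) := by
  classical
  by_contra hq0
  have hpr : p.Prime := Fact.out
  obtain ⟨ζ, hζ⟩ := hζ
  -- the residual data, and patching levels if `q` could not be removed
  let b := Module.finBasisOfFinrankEq (ResidueField O)
    (Core.rhoBar W p hΔ (ResidueField O)).V (Core.rhoBar W p hΔ (ResidueField O)).finrank_eq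
  have d := cd.data (b := b) hp hk
  obtain ⟨Wd, hW⟩ := Deform.exists_rigid _ d.absIrr b
  have hPB : Pattern.HasPatternBound Wd p := Pattern.hasPatternBound cd.ne_two
    (hW ▸ d.twHyp) (hW ▸ CFT.TWPrimes.finiteLevel_matRes _ b) fun σ a ha => by
      rw [hW]
      exact (LinearMap.det_toMatrix b _).trans (Core.det_rhoBar ha)
  have h2u : IsUnit (2 : O) := GammaH.isUnit_two (p := p) cd.ne_two
  obtain ⟨c, hc⟩ := isUnit_iff_exists_inv.1 h2u
  obtain ⟨π, hπ⟩ := IsDiscreteValuationRing.exists_irreducible O
  obtain ⟨g, B, hP⟩ := exists_patchLevels cd d hstrict hW hPB hζ hc hπ ⟨q, hq⟩ hq0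
  -- the element `(ζ - ζ⁻¹) / 2` is small and nonzero
  have hδ : c * (ζ - ζ ^ (p - 1)) ∈ maximalIdeal O := by
    refine Ideal.mul_mem_left _ _ ((residue_eq_zero_iff _).1 ?_)
    rw [map_sub, map_pow, residue_eq_one_of_pow (p := p) hζ.pow_eq_one, one_pow, sub_self]
  have hδ0 : c * (ζ - ζ ^ (p - 1)) ≠ 0 :=
    mul_ne_zero (fun h => by simp [h] at hc) (sub_ne_zero.2 (ne_pow_pred cd.ne_two hζ))
  -- the coefficient of the square, which is one, would be small
  have key := Assembly.coeff_mem_maximalIdeal_of_patchLevels (K := ℂ_[p]) φ hφinj hφ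
    (norm_two_eq_one φ h2u)
    (δ := fun _ : Places O p W hΔ M => c * (ζ - ζ ^ (p - 1))) (fun _ => hδ0) (fun _ => hδ) hpr hp
    rfl hπ hP
    (d := Finsupp.single (Sum.inl (⟨q, hq⟩, 1, 0) : Coord (Places O p W hΔ M) (Fin g)) 2)
    fun v l => Finsupp.single_eq_of_ne fun h => by simp at h
  rw [coeff_frobRel] at key
  exact (maximalIdeal.isMaximal O).ne_top ((Ideal.eq_top_iff_one _).2 key)

end Scalar

/-! ## The induction on the level -/

section Main

variable {W : WeierstrassCurve ℤ} {p : ℕ} [Fact p.Prime] (hΔ : W.Δ ≠ 0)

/-- **Level lowering**, from the strictness of the newforms at `p`. -/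
theorem lower (hp2 : p ≠ 2) (hW : W.IsSemistableModel) (hirr : W.ModRepIsIrreducible p)
    (hstrict : ∀ (O : Type) [CommRing O] [IsDomain O] [IsDiscreteValuationRing O]
      [IsAdicComplete (maximalIdeal O) O] [Finite (ResidueField O)] [CharZero O],
      Lifting.StrictAtNew p O) : Lifting.Lower W p hΔ := by
  classical
  obtain ⟨O, _, _, _, _, _, _, _, hp, hζ, hk, φ, hφinj, hφ⟩ := Assembly.exists_coeff p
  let : Algebra (ZMod p) (ResidueField O) := ZMod.algebra _ p
  have hk' : ∀ f : Polynomial (ZMod p), f.natDegree = 2 →
      ∃ x : ResidueField O, (f.map (algebraMap (ZMod p) (ResidueField O))).IsRoot x :=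
    fun f hf => Subsingleton.elim (ZMod.castHom dvd_rfl _)
      (algebraMap (ZMod p) (ResidueField O)) ▸ hk f hf
  -- it suffices to argue with the representation over the residue field of `O`
  suffices key : ∀ M : ℕ, Squarefree M → (p ∣ M → (p : ℤ) ∣ W.Δ) →
      W.IsResiduallyModularOfLevel p M →
      ∀ q : ℕ, q.Prime → q ∣ M → q ≠ p →
        (Core.rhoBar W p hΔ (ResidueField O)).IsUnramifiedAt q →
          W.IsResiduallyModularOfLevel p (M / q) from
    fun M q hM hbad hq hqM hqp hunr hmod => key M hM hbad hmod q hq hqM hqp fun A hA σ hσ => by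
      show LinearMap.baseChange _ _ = 1
      rw [show (EC.Rep.residualRep W p hΔ).ρ σ = 1 from hunr A hA σ hσ, LinearMap.baseChange_one]
      rfl
  intro M
  induction M using Nat.strong_induction_on with
  | _ M ih =>
    intro hM hbad hmod q hq hqM hqp hunr
    by_contra hq0
    -- no prime `x` can be removed: by induction one would remove `q` and restore `x`
    have step : ∀ x : ℕ, x.Prime → x ∣ M → W.IsResiduallyModularOfLevel p (M / x) → False := by
      intro x hx hxM hxmod
      rcases eq_or_ne x q with rfl | hxq
      · exact hq0 hxmod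
      obtain ⟨N, rfl⟩ := hxM
      rw [Nat.mul_div_cancel_left N hx.pos] at hxmod
      obtain ⟨hcop, -, hN⟩ := Nat.squarefree_mul_iff.1 hM
      have hqN : q ∣ N := (hq.dvd_mul.1 hqM).resolve_left fun h =>
        hxq ((Nat.prime_dvd_prime_iff_eq hq hx).1 h).symm
      have hlt : N < x * N := (lt_mul_iff_one_lt_left (Nat.pos_of_ne_zero hN.ne_zero)).2 hx.one_lt
      have h1 := ih N hlt hN (fun h => hbad (h.trans (dvd_mul_left N x))) hxmod q hq hqN hqp hunr
      have hdN : N / q ∣ N := Nat.div_dvd_of_dvd hqN
      have h2 := residuallyModular_raise hΔ (ResidueField O) (M := N / q) (x := x)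
        (fun h => hN.ne_zero (Nat.eq_zero_of_zero_dvd (h ▸ hdN))) hx
        (fun h => (hx.coprime_iff_not_dvd.1 hcop) (h.trans hdN)) h1
      refine hq0 ?_
      rwa [Nat.mul_div_assoc x hqN, mul_comm]
    -- so the level satisfies `Case`
    have cd : Case O p W hΔ M :=
      { semistable := hW
        ne_two := hp2
        irr := hirr
        squarefree := hM
        modular := hmod
        minimal_at_p := fun hpM h => step p Fact.out hpM h
        bad_at_p := hbad
        scalar := fun x hx => by
          obtain ⟨hxM, hxp, hxu⟩ := Finset.mem_filter.1 hx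
          have hxpr := Nat.prime_of_mem_primeFactors hxM
          have hA := fun hns => step x hxpr (Nat.dvd_of_mem_primeFactors hxM)
            (LowerA.caseA_rhoBar hΔ (k := ResidueField O) hp2 hW hirr hM.ne_zero hxpr hxp
              (Nat.dvd_of_mem_primeFactors hxM)
              (fun h => hxpr.not_isUnit (hM x (by rwa [← pow_two]))) hxu hns hmod)
          refine ⟨?_, fun A hAx σ hσ => by_contra fun h => ?_⟩
          · rw [← CharP.cast_eq_zero_iff (ResidueField O) p, Nat.cast_sub hxpr.one_le, Nat.cast_one,
              sub_eq_zero]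
            exact by_contra fun h => hA (Or.inr h)
          · exact hA (Or.inl ⟨A, σ, hAx, hσ, fun c hc => h ⟨c, hc⟩⟩) }
    exact hq0 (cd.residuallyModular_div hp hk' (hstrict O) hζ φ hφinj hφ (Finset.mem_filter.2
      ⟨Nat.mem_primeFactors.2 ⟨hq, hqM, hM.ne_zero⟩, hqp, hunr⟩))

end Main

end Fermat.Agent.RT.LowerB
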