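import Fermat.Agent.RT.LowerB.Holds
import Fermat.Agent.RT.LowerB.Frob
import Fermat.Agent.RT.LowerB.Conj
import Fermat.Agent.RT.Pattern.Scalar
import Fermat.Agent.RT.Assembly.Tame
import Fermat.Agent.RT.Assembly.Diamond
import Fermat.Agent.RT.InertiaTW.Main

/-!
# The patching levels of the scalar case

At a set of Taylor–Wiles primes the Hecke module with diamonds at the scalar and auxiliary primes
gives a patching level, in which the relation at a scalar place without congruence below is
divisible by a uniformiser.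
-/

set_option autoImplicit false

noncomputable section

namespace Fermat.Agent.RT.LowerB

open IsLocalRing Fermat.Agent.Arith Fermat.Agent.Deform Fermat.Agent.RT.Glue
open Fermat.Agent.RT.Modules
open GaloisReps (HeckeGaloisModel)

variable {O : Type} [CommRing O] [IsDomain O] [IsDiscreteValuationRing O]
  [IsAdicComplete (maximalIdeal O) O] [Finite (ResidueField O)] [CharZero O]
  {p : ℕ} [Fact p.Prime] [CharP (ResidueField O) p] [Algebra (ZMod p) (ResidueField O)]
  {W : WeierstrassCurve ℤ} {hΔ : W.Δ ≠ 0} {M : ℕ}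
  {b : Module.Basis (Fin 2) (ResidueField O) (Core.rhoBar W p hΔ (ResidueField O)).V}

/-! ## The tangent space -/

/-- The index type of the scalar places. -/
abbrev Places (O : Type) [CommRing O] [IsDomain O] [IsDiscreteValuationRing O] (p : ℕ)
    [Fact p.Prime]
    [Algebra (ZMod p) (ResidueField O)] (W : WeierstrassCurve ℤ) (hΔ : W.Δ ≠ 0) (M : ℕ) : Type :=
  {x : ℕ // x ∈ scalarSet O p W hΔ M}

omit [Finite (ResidueField O)] [Algebra (ZMod p) (ResidueField O)] in
omit [IsAdicComplete (maximalIdeal O) O] [CharZero O] in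
theorem residue_eq_one_of_pow {ζ : O} (h : ζ ^ p = 1) : residue O ζ = 1 := by
  refine sub_eq_zero.1 (pow_eq_zero_iff (Fact.out : p.Prime).ne_zero |>.1 ?_)
  rw [sub_pow_expChar, one_pow, ← map_pow, h, map_one, sub_self]

omit [IsAdicComplete (maximalIdeal O) O] [CharZero O] in
/-- The killed tangent space of a lift with the pattern is small. -/
theorem finrank_killedDer_le (cd : Case O p W hΔ M) {Wd : Rigid O}
    (hW : Wd.rb = matRes (Core.rhoBar W p hΔ (ResidueField O)) b)
    {c : O} (hc : 2 * c = 1) {g r : ℕ} (hr : r = 3 * Nat.card (Places O p W hΔ M) + g)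
    {qv : Fin r → ℕ}
    (hbound : ∀ (P : Pattern.Pat), P.S ⊆ excSet p W M → P.Compat p Wd.rb →
        ∀ (R : Type) [CommRing R] [IsLocalRing R] [IsNoetherianRing R] [Algebra O R]
          (h : IsResAlg O R) (ru : Gal →* M2 R) (hc : IsCont ru), Lifts Wd h ru → IsNormal Wd ru →
          Algebra.adjoin O (entries ru) = ⊤ → P.Holds p (Set.range qv) ru hc →
          ∀ (C : Type) (x : C → R), P.KillsScalar Wd h ru x →
            Module.finrank (ResidueField O) (Assembly.killedDer h x) + P.weight ≤ r)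
    (hcompat : (casePat O p W hΔ M).Compat p Wd.rb)
    {A : Type} [CommRing A] [IsLocalRing A] [Algebra O A] [Module.Finite O A]
    (hA : IsResAlg O A) {ru : Gal →* M2 A} (hru_c : IsCont ru) (hl : Lifts Wd hA ru)
    (hn : IsNormal Wd ru) [IsLocalRing (Algebra.adjoin O (entries ru))]
    (hH : (casePat O p W hΔ M).Holds p (Set.range qv)
      (corestrict (Algebra.adjoin O (entries ru)) ru
        fun σ i j => Algebra.subset_adjoin ⟨(σ, i, j), rfl⟩)
      (Assembly.isCont_corestrict hA _ hru_c _))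
    (σT φT : Places O p W hΔ M → Gal)
    (hσT : ∀ (v : Places O p W hΔ M) [Fact v.1.Prime],
      σT v ∈ (padicPlace v.1).inertiaSubgroupIn ℚ ∧
      ∃ (π : QBar) (m : ℤ), π ≠ 0 ∧
        Mazur.Eisenstein.ordAt (padicPlace v.1) v.1 π = m / p ∧
        EC.Reduction.res (padicPlace v.1) (σT v π / π) ≠ 1 ∧
        EC.Reduction.res (padicPlace v.1) (σT v π / π) ^ p = 1)
    (hφT : ∀ (v : Places O p W hΔ M) [Fact v.1.Prime],
      (padicPlace v.1).IsFrobeniusAt (φT v) v.1) :
    Module.finrank (ResidueField O)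
      (Assembly.killedDer (Assembly.isResAlg_subalgebra hA (Algebra.adjoin O (entries ru)))
        (Assembly.placeCoord (algebraMap O _ c)
          (fun v => corestrict (Algebra.adjoin O (entries ru)) ru
            (fun σ i j => Algebra.subset_adjoin ⟨(σ, i, j), rfl⟩) (σT v))
          (fun v => corestrict (Algebra.adjoin O (entries ru)) ru
            (fun σ i j => Algebra.subset_adjoin ⟨(σ, i, j), rfl⟩) (φT v)))) ≤ g := by
  classical
  set A' := Algebra.adjoin O (entries ru)
  have := Assembly.finite_subalgebra A'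
  have : IsNoetherianRing A' := IsNoetherianRing.of_finite O A'
  have hres := Assembly.isResAlg_subalgebra hA A'
  -- the corestriction to the algebra of entries is still a lift
  have hlS := Assembly.lifts_corestrict A' hl (fun σ i j => Algebra.subset_adjoin ⟨(σ, i, j), rfl⟩)
  have hfin : GaloisFactorsThroughFiniteLevel Wd.rb :=
    hW ▸ CFT.TWPrimes.finiteLevel_matRes _ b
  have h2 : (2 : ResidueField O) ≠ 0 := by
    rw [← map_ofNat (algebraMap (ZMod p) (ResidueField O)) 2]
    exact (_root_.map_ne_zero _).2 (EC.Rep.two_ne_zero_zmod cd.ne_two)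
  -- the scalar places of the pattern are the places
  have hcover : ∀ q ∈ (casePat O p W hΔ M).S, (casePat O p W hΔ M).cond q = .scalar →
      ∃ v : Places O p W hΔ M, v.1 = q := fun q _ hq => ⟨⟨q, by
    by_contra hs
    rw [show (casePat O p W hΔ M).cond q = _ from if_neg hs] at hq
    cases hq⟩, rfl⟩
  -- so their coordinates kill the scalar conditions
  have hkills := Pattern.killsScalar_placeCoord (h := hres) p h2 hfin hcompat hlS _ hH
    (Subtype.val : Places O p W hΔ M → ℕ) hcover σT φT hσT hφT (c2 := algebraMap O A' c)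
    (by rw [← map_ofNat (algebraMap O A') 2, ← map_mul, hc, map_one])
  -- each such place has weight three in the bound
  have hb := hbound (casePat O p W hΔ M)
    (fun x hx => cd.mem_excSet (Nat.prime_of_mem_primeFactors (Finset.mem_of_mem_erase hx))
      (Nat.dvd_of_mem_primeFactors (Finset.mem_of_mem_erase hx)))
    hcompat A' hres _ _ hlS (Assembly.isNormal_corestrict A' hn _)
    (adjoin_entries_corestrict ru) hH _ _ hkills
  have hcard : Nat.card (Places O p W hΔ M) = (scalarSet O p W hΔ M).card :=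
    Nat.card_eq_fintype_card.trans (Fintype.card_coe _)
  rw [weight_casePat] at hb
  exact Nat.le_of_add_le_add_right (hb.trans (le_of_eq (show r =
    g + 3 * (scalarSet O p W hΔ M).card by omega)))

/-! ## Scalar places -/

omit [IsAdicComplete (maximalIdeal O) O] [Finite (ResidueField O)] [CharZero O]
  [CharP (ResidueField O) p] in
/-- The residual matrices are trivial on inertia outside the level, once they are so outside the
auxiliary level. -/
private theorem matRes_inertia_eq_one {r n : ℕ} {qv : Fin r → ℕ}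
    (ha : IsAux O p W hΔ M b n qv)
    (hout : ∀ (x : ℕ) [Fact x.Prime], ¬ x ∣ auxLevel M qv → x ≠ p →
      ∀ τ ∈ (padicPlace x).inertiaSubgroupIn ℚ,
        matRes (Core.rhoBar W p hΔ (ResidueField O)) b τ = 1)
    (x : ℕ) [Fact x.Prime] (hxM : ¬ x ∣ M) (hxp : x ≠ p) :
    ∀ τ ∈ (padicPlace x).inertiaSubgroupIn ℚ,
      matRes (Core.rhoBar W p hΔ (ResidueField O)) b τ = 1 := by
  intro τ hτ
  by_cases hxQ : x ∈ auxSet qv
  · obtain ⟨i, -, rfl⟩ := Finset.mem_image.1 hxQ
    exact (rb_eq_one_iff τ).2 (isUnramifiedAt_of_notMem_excSet Fact.out (ha.notMem i) _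
      (CFT.Local.padicPlace_liesOverPrime _) τ hτ)
  · exact hout x (fun h => (ha.dvd_level_cases Fact.out h).elim hxM hxQ) hxp τ hτ

omit [IsAdicComplete (maximalIdeal O) O] [CharZero O] [Algebra (ZMod p) (ResidueField O)]
  [Finite (ResidueField O)] in
/-- The level character is constant modulo a uniformiser along the generator at a scalar place. -/
private theorem levelChar_mul_sub_mem {V : Type} [Fintype V] {r : ℕ} {ζ : O}
    (hζ : IsPrimitiveRoot ζ p) {π : O} (hπ : Irreducible π) (n : ℕ) (v₀ : V)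
    (δ k : Assembly.LevelGroup V p r n)
    (hk : k ∈ Subgroup.zpowers (Assembly.levelGen (r := r) p n (Sum.inl v₀))) :
    Assembly.levelChar hζ.pow_eq_one n (δ * k) - Assembly.levelChar hζ.pow_eq_one n δ ∈
      Ideal.span {algebraMap O (MvPowerSeries (Fin r) O ⧸ Assembly.levelIdeal O p n) π} := by
  let χ := Assembly.levelChar (V := V) (r := r) hζ.pow_eq_one n
  have hI : Subgroup.zpowers (Assembly.levelGen (r := r) p n (Sum.inl v₀)) ≤
      ((Ideal.Quotient.mk (Ideal.span {algebraMap O
        (MvPowerSeries (Fin r) O ⧸ Assembly.levelIdeal O p n) π})).toMonoidHom.comp χ).ker := by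
    rw [Subgroup.zpowers_le, MonoidHom.mem_ker]
    show Ideal.Quotient.mk _ (χ (Assembly.levelGen p n (Sum.inl v₀))) = 1
    rw [show χ (Assembly.levelGen p n (Sum.inl v₀)) = _ from
      levelChar_levelGen_inl hζ.pow_eq_one n v₀, ← map_one (Ideal.Quotient.mk _),
      Ideal.Quotient.eq, ← map_one (algebraMap O _), ← map_sub]
    obtain ⟨t, ht⟩ := Ideal.mem_span_singleton'.1 (hπ.maximalIdeal_eq ▸
      (residue_eq_zero_iff (ζ - 1)).1 (by
        rw [map_sub, residue_eq_one_of_pow (p := p) hζ.pow_eq_one, map_one, sub_self]))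
    exact Ideal.mem_span_singleton'.2 ⟨algebraMap O _ t, by rw [← map_mul, ht]⟩
  rw [map_mul, ← mul_sub_one]
  exact Ideal.mul_mem_left _ _
    (Ideal.Quotient.eq.1 ((hI hk).trans (map_one (Ideal.Quotient.mk _)).symm))

omit [IsDomain O] [IsDiscreteValuationRing O] [IsAdicComplete (maximalIdeal O) O]
  [Finite (ResidueField O)] [CharZero O] in
/-- An algebra map taking a group through a character to scalar matrices takes `f δ + f δ⁻¹` to the
scalar `χ δ + χ δ⁻¹`. -/
private theorem rep_add_inv {A B Δ ι : Type} [CommRing A] [Algebra O A] [CommRing B] [Algebra O B]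
    [Group Δ] [Fintype ι] [DecidableEq ι] (rep : A →ₐ[O] Matrix ι ι B) (χ : Δ →* B) {f : Δ → A}
    (hrep : ∀ δ, rep (f δ) = χ δ • 1) (δ : Δ) :
    (∀ ζ ζi : O, ζ * ζi = 1 → χ δ = algebraMap O B ζ →
      rep (f δ + f δ⁻¹) = rep (algebraMap O A (ζ + ζi))) ∧
    ∀ x : B, χ δ = x →
      Matrix.scalar ι (x ^ 2 + 1) = Matrix.scalar ι x * rep (f δ + f δ⁻¹) := by
  have hinv : χ δ * χ δ⁻¹ = 1 := by rw [← map_mul, mul_inv_cancel, map_one]
  refine ⟨fun ζ ζi hζi h => ?_, fun x h => ?_⟩
  · have h' : χ δ⁻¹ = algebraMap O B ζi :=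
      left_inv_eq_right_inv (by rw [mul_comm]; exact hinv) (by rw [h, ← map_mul, hζi, map_one])
    rw [map_add rep, hrep, hrep, h, h', AlgHom.commutes, Algebra.algebraMap_eq_smul_one (R := O)
      (A := Matrix ι ι B), algebraMap_smul, algebraMap_smul, add_smul]
  · subst h
    rw [map_add rep, hrep, hrep, Matrix.scalar_apply, Matrix.scalar_apply,
      Matrix.smul_one_eq_diagonal, Matrix.smul_one_eq_diagonal, Matrix.diagonal_add,
      Matrix.diagonal_mul_diagonal]
    congr 1
    funext j
    linear_combination -hinv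

omit [IsAdicComplete (maximalIdeal O) O] [Finite (ResidueField O)] [CharZero O] in
/-- A lift of a residually scalar matrix reduces to that scalar matrix. -/
private theorem augment_eq_of_scalar {A : Type} [CommRing A] [IsLocalRing A] [Algebra O A]
    {hA : IsResAlg O A} {Wd : Rigid O} {ru : Gal →* M2 A} (hl : Lifts Wd hA ru) {σ : Gal}
    {e : ResidueField O} (h : Wd.rb σ = e • 1) (i j : Fin 2) :
    augment hA (ru σ i j) = if i = j then e else 0 := by
  rw [hl, h, Matrix.smul_apply, Matrix.one_apply, smul_eq_mul, mul_ite, mul_one, mul_zero]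

omit [IsAdicComplete (maximalIdeal O) O] [Finite (ResidueField O)] [CharZero O] in
/-- Where a lift is trivial, so is the residual representation. -/
private theorem rb_eq_one_of_lift {A : Type} [CommRing A] [IsLocalRing A] [Algebra O A]
    {hA : IsResAlg O A} {Wd : Rigid O} {ru : Gal →* M2 A} (hl : Lifts Wd hA ru) {σ : Gal}
    (h : ru σ = 1) : Wd.rb σ = 1 := by
  ext i j
  rw [← hl, h, Matrix.one_apply, Matrix.one_apply]
  split_ifs <;> simp

omit [IsDomain O] [IsDiscreteValuationRing O] [IsAdicComplete (maximalIdeal O) O] [CharZero O]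
  [Finite (ResidueField O)] [CharP (ResidueField O) p] [Algebra (ZMod p) (ResidueField O)] in
/-- A primitive `p`-th root of unity, `p` odd, is not its inverse `ζ ^ (p - 1)`. -/
theorem ne_pow_pred (hp2 : p ≠ 2) {ζ : O} (hζ : IsPrimitiveRoot ζ p) :
    ζ ≠ ζ ^ (p - 1) := fun h => hp2 <| by
  have hi : ζ * ζ ^ (p - 1) = 1 := by
    rw [← pow_succ', Nat.sub_add_cancel (Fact.out : p.Prime).one_le, hζ.pow_eq_one]
  have h2 : ζ ^ 2 = 1 := by rw [pow_two]; nth_rewrite 2 [h]; exact hi
  exact (Nat.prime_dvd_prime_iff_eq Fact.out Nat.prime_two).1 (hζ.dvd_of_pow_eq_one 2 h2)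

omit [IsAdicComplete (maximalIdeal O) O] [Finite (ResidueField O)] [CharZero O]
  [CharP (ResidueField O) p] in
/-- At a scalar place Frobenius conjugates the inertia elements of a lift to their powers by the
place. -/
private theorem conj_frobenius_scalar {A : Type} [CommRing A]
    [IsLocalRing A] [Algebra O A] [Module.Finite O A] {hA : IsResAlg O A} {Wd : Rigid O}
    (hW : Wd.rb = matRes (Core.rhoBar W p hΔ (ResidueField O)) b) {ru : Gal →* M2 A}
    (hl : Lifts Wd hA ru) (hru_c : IsCont ru) (hp : (p : A) ∈ maximalIdeal A)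
    (v : Places O p W hΔ M) [Fact v.1.Prime] {φ σ : Gal}
    (hφ : (padicPlace v.1).IsFrobeniusAt φ v.1)
    (hσ : σ ∈ (padicPlace v.1).inertiaSubgroupIn ℚ) :
    ru φ * ru σ = ru σ ^ v.1 * ru φ := by
  have : IsNoetherianRing A := IsNoetherianRing.of_finite O A
  refine map_conj_frobenius Fact.out hp Fact.out (prime_of_mem_scalarSet v.2).2.2 hru_c
    (CFT.Local.padicPlace_liesOverPrime _) (fun τ hτ i j => ?_) hφ hσ
  rw [← augment_eq_zero_iff hA, Matrix.sub_apply, map_sub, augment_eq_of_scalar hl (e := 1) (by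
    rw [hW, one_smul, rb_inertia_eq_one v.2 (CFT.Local.padicPlace_liesOverPrime _) hτ]) i j,
    Matrix.one_apply]
  split_ifs <;> simp

omit [IsAdicComplete (maximalIdeal O) O] [Finite (ResidueField O)] [CharZero O]
  [CharP (ResidueField O) p] in
/-- The character of the auxiliary level is trivial at the primes of the level outside the scalar
set. -/
private theorem psi_eq_one_of_not_scalar (cd : Case O p W hΔ M) {r n : ℕ} {qv : Fin r → ℕ}
    (ha : IsAux O p W hΔ M b n qv) {Δ : Type} [CommGroup Δ]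
    {ψ : (ZMod (auxLevel M qv))ˣ →* Δ}
    (hrest : ∀ w : ℕ, (∀ x : Places O p W hΔ M ⊕ Fin r, Sum.elim Subtype.val qv x ≠ w) →
      w.Prime → w ∣ auxLevel M qv → ∀ u : (ZMod (auxLevel M qv))ˣ,
        ((u : ZMod (auxLevel M qv)).cast : ZMod (auxLevel M qv / w)) = 1 → ψ u = 1)
    (x : ℕ) (hx : x.Prime) (hxM : x ∣ M) (hxs : x ∉ scalarSet O p W hΔ M)
    (u : (ZMod (auxLevel M qv))ˣ)
    (hu : ((u : ZMod (auxLevel M qv)).cast : ZMod (auxLevel M qv / x)) = 1) : ψ u = 1 := by
  refine hrest x ?_ hx (dvd_mul_of_dvd_left hxM _) u hu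
  rintro (v | i) he
  · exact hxs ((show v.1 = x from he) ▸ v.2)
  · exact ha.not_dvd cd i ((show qv i = x from he) ▸ hxM)

omit [IsAdicComplete (maximalIdeal O) O] [Finite (ResidueField O)] [CharZero O]
  [CharP (ResidueField O) p] in
/-- The pattern of the case is compatible with a residual representation having a lift unramified
outside the auxiliary level and `p`. -/
private theorem compat_casePat_of_lift (cd : Case O p W hΔ M) {r n : ℕ} {qv : Fin r → ℕ}
    (ha : IsAux O p W hΔ M b n qv) {A : Type} [CommRing A] [IsLocalRing A] [Algebra O A]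
    {hA : IsResAlg O A} {Wd : Rigid O}
    (hW : Wd.rb = matRes (Core.rhoBar W p hΔ (ResidueField O)) b) {ru : Gal →* M2 A}
    (hl : Lifts Wd hA ru) (hout : ∀ (x : ℕ) [Fact x.Prime], ¬ x ∣ auxLevel M qv → x ≠ p →
      ∀ τ ∈ (padicPlace x).inertiaSubgroupIn ℚ, ru τ = 1) :
    (casePat O p W hΔ M).Compat p Wd.rb := by
  rw [hW]
  exact cd.compat (matRes_inertia_eq_one ha fun x _ hxL hxp τ hτ =>
    hW ▸ rb_eq_one_of_lift hl (hout x hxL hxp τ hτ))

omit [CharP (ResidueField O) p] in
/-- An inertia element acting on the roots of unity of a place through the chosen unit has trace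
`δ + δ⁻¹`, for the generator `δ` of the level group at that place. -/
private theorem trace_inertia_levelGen (cd : Case O p W hΔ M)
    (d : Data O p W hΔ (excSet p W M) b) {r n : ℕ} {qv : Fin r → ℕ}
    (ha : IsAux O p W hΔ M b n qv) [NeZero (auxLevel M qv)]
    {ψ : (ZMod (auxLevel M qv))ˣ →* Assembly.LevelGroup (Places O p W hΔ M) p r n}
    {H : HeckeModule (auxLevel M qv) ψ (auxExc p W M qv) (Core.abar W (ResidueField O))}
    [IsLocalRing H.algebra] [IsLocalHom (algebraMap O H.algebra)]
    {hS : ∀ q : ℕ, q.Prime → q ∣ auxLevel M qv → q ∈ auxExc p W M qv}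
    {pt : ∀ θ : H.algebra →ₐ[O] KBar O, Point (p := p) H hS θ.toRingHom}
    (G : Glued (models p) pt)
    (hG : G.rep.residual.IsEquiv ((Core.rhoBar W p hΔ (ResidueField O)).baseChangeAlong
      (ResidueField.map (algebraMap O H.algebra))))
    {x : Places O p W hΔ M ⊕ Fin r} [Fact (Sum.elim Subtype.val qv x).Prime]
    (hdvd : Sum.elim Subtype.val qv x ∣ auxLevel M qv)
    {σ : Gal} (hσ : σ ∈ (padicPlace (Sum.elim Subtype.val qv x)).inertiaSubgroupIn ℚ)
    {a : (ZMod (Sum.elim Subtype.val qv x))ˣ}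
    (hμ : ∀ μ : AlgebraicClosure ℚ, μ ^ Sum.elim Subtype.val qv x = 1 →
      σ μ = μ ^ (a : ZMod (Sum.elim Subtype.val qv x)).val)
    (hgen : ∀ u : (ZMod (auxLevel M qv))ˣ,
      ((u : ZMod (auxLevel M qv)).cast : ZMod (auxLevel M qv / Sum.elim Subtype.val qv x)) = 1 →
        ZMod.unitsMap hdvd u = a →
          ψ u ^ halfInvExp (Assembly.LevelGroup (Places O p W hΔ M) p r n) =
            Assembly.levelGen p n x) :
    (G.R σ).trace = diaA H (Assembly.levelGen p n x) + diaA H (Assembly.levelGen p n x)⁻¹ := by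
  have hx : (Sum.elim Subtype.val qv x).Prime := Fact.out
  have hxp : Sum.elim Subtype.val qv x ≠ p := by
    rcases x with v | i
    exacts [(prime_of_mem_scalarSet v.2).2.2, ha.ne_p i]
  obtain ⟨hLsq, -⟩ := ha.squarefree_modular cd
  obtain ⟨u, hu, hua⟩ := Assembly.exists_unit_crt hdvd
    (hx.coprime_iff_not_dvd.2 (GammaH.coprime_div_of_squarefree hLsq hx hdvd)) a
  have hE : TwistedInertia (models p) pt (Sum.elim Subtype.val qv x) :=
    G.twistedInertia d.p_small (Assembly.isPGroup_levelGroup p n) d.ne_two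
      (d.mono (Finset.subset_union_left (s₂ := auxSet qv))).p_mem hLsq hdvd hxp
      (fun R N _ _ gf => InertiaTW.traceInertia p _ R N gf)
      (fun N _ _ h1 h2 => (stdModel_local p hx hxp h1 h2).1) hG
      fun A hA σ hσ => Core.trace_rhoBar_inertia cd.semistable hx hxp hA hσ
  rw [trace_inertia_twisted G hE (CFT.Local.padicPlace_liesOverPrime _) hσ hμ u hu
    (by rw [← ZMod.unitsMap_val hdvd u, hua, ZMod.natCast_zmod_val]), hgen u hu hua]

omit [IsAdicComplete (maximalIdeal O) O] [Finite (ResidueField O)] [CharZero O]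
  [CharP (ResidueField O) p] in
/-- A scalar place is `1` modulo `p`; a lift is trivial on its inertia and scalar at Frobenius
modulo the maximal ideal, with the cyclotomic determinants, and Frobenius conjugates inertia to its
power by the place. -/
private theorem scalarPlace_spec (cd : Case O p W hΔ M) {L : ℕ} [NeZero L] {Δ : Type}
    [CommGroup Δ] [Finite Δ] {ψ : (ZMod L)ˣ →* Δ} {T : Finset ℕ}
    {H : HeckeModule L ψ T (Core.abar W (ResidueField O))}
    [IsLocalRing H.algebra] [IsLocalHom (algebraMap O H.algebra)]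
    {hS : ∀ q : ℕ, q.Prime → q ∣ L → q ∈ T}
    {pt : ∀ θ : H.algebra →ₐ[O] KBar O, Point (p := p) H hS θ.toRingHom}
    (G : Glued (models p) pt) {Wd : Rigid O}
    (hW : Wd.rb = matRes (Core.rhoBar W p hΔ (ResidueField O)) b) {ru : Gal →* M2 H.algebra}
    {hA : IsResAlg O H.algebra} (hl : Lifts Wd hA ru) (hru_c : IsCont ru)
    (hp : (p : H.algebra) ∈ maximalIdeal H.algebra) (hdet : ∀ σ, (ru σ).det = (G.R σ).det)
    (v : Places O p W hΔ M) [Fact v.1.Prime] {σ φ : Gal}
    (hσ : σ ∈ (padicPlace v.1).inertiaSubgroupIn ℚ)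
    (hφ : (padicPlace v.1).IsFrobeniusAt φ v.1) :
    v.1 % p = 1 ∧ (∀ i j, augment hA (ru σ i j) = if i = j then 1 else 0) ∧
      (∃ e, ∀ i j, augment hA (ru φ i j) = if i = j then e else 0) ∧
      (ru σ).det = 1 ∧ (ru φ).det = (v.1 : H.algebra) ∧ ru φ * ru σ = ru σ ^ v.1 * ru φ := by
  obtain ⟨hv, -, hvp⟩ := prime_of_mem_scalarSet v.2
  have hA' := CFT.Local.padicPlace_liesOverPrime v.1
  obtain ⟨t, ht⟩ := (cd.scalar v.1 v.2).1
  obtain ⟨e, he⟩ := cd.rb_frobenius (b := b) v.2 hA' hφ
  refine ⟨?_, augment_eq_of_scalar hl (by rw [hW, one_smul, rb_inertia_eq_one v.2 hA' hσ]),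
    ⟨e, augment_eq_of_scalar hl (by rw [hW]; exact he)⟩, ?_, ?_,
    conj_frobenius_scalar hW hl hru_c hp v hφ hσ⟩
  · have : v.1 = 1 + p * t := by have := hv.two_le; omega
    rw [this, Nat.add_mul_mod_self_left, Nat.one_mod_eq_one.2 (Fact.out : p.Prime).one_lt.ne']
  · rw [hdet]; exact det_inertia G hv hvp hA' hσ
  · rw [hdet]; exact det_frobenius G hv hvp hA' hφ

/-! ## The patching levels -/

/-- **A patching level from a Hecke module at the auxiliary level.** -/
theorem exists_patchLevel_of_hecke (cd : Case O p W hΔ M) (d : Data O p W hΔ (excSet p W M) b)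
    (hstrict : Lifting.StrictAtNew p O) {Wd : Rigid O}
    (hW : Wd.rb = matRes (Core.rhoBar W p hΔ (ResidueField O)) b)
    {ζ : O} (hζ : IsPrimitiveRoot ζ p) {c : O} (hc : 2 * c = 1) {π : O} (hπ : Irreducible π)
    {g r n B : ℕ} (hr : r = 3 * Nat.card (Places O p W hΔ M) + g) {qv : Fin r → ℕ}
    (ha : IsAux O p W hΔ M b n qv)
    (hbound : ∀ (P : Pattern.Pat), P.S ⊆ excSet p W M → P.Compat p Wd.rb →
        ∀ (R : Type) [CommRing R] [IsLocalRing R] [IsNoetherianRing R] [Algebra O R]
          (h : IsResAlg O R) (ru : Gal →* M2 R) (hc : IsCont ru), Lifts Wd h ru → IsNormal Wd ru →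
          Algebra.adjoin O (entries ru) = ⊤ → P.Holds p (Set.range qv) ru hc →
          ∀ (C : Type) (x : C → R), P.KillsScalar Wd h ru x →
            Module.finrank (ResidueField O) (Assembly.killedDer h x) + P.weight ≤ r)
    (v₀ : Places O p W hΔ M) (hv₀ : ¬ W.IsResiduallyModularOfLevel p (M / v₀.1))
    [NeZero (auxLevel M qv)] (aX : Places O p W hΔ M ⊕ Fin r → Gal)
    (aU : ∀ x : Places O p W hΔ M ⊕ Fin r, (ZMod (Sum.elim Subtype.val qv x))ˣ)
    (haU : ∀ x, orderOf (aU x) = Sum.elim Subtype.val qv x - 1)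
    (haX : ∀ (x : Places O p W hΔ M ⊕ Fin r) [Fact (Sum.elim Subtype.val qv x).Prime],
      aX x ∈ (padicPlace (Sum.elim Subtype.val qv x)).inertiaSubgroupIn ℚ ∧
        (∀ μ : AlgebraicClosure ℚ, μ ^ Sum.elim Subtype.val qv x = 1 → aX x μ =
          μ ^ (aU x : ZMod (Sum.elim Subtype.val qv x)).val) ∧
        ∃ (π : QBar) (m : ℤ), π ≠ 0 ∧
          Mazur.Eisenstein.ordAt (padicPlace (Sum.elim Subtype.val qv x))
            (Sum.elim Subtype.val qv x) π = m / p ∧
          EC.Reduction.res (padicPlace (Sum.elim Subtype.val qv x)) (aX x π / π) ≠ 1 ∧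
          EC.Reduction.res (padicPlace (Sum.elim Subtype.val qv x)) (aX x π / π) ^ p = 1)
    (hdvd : ∀ x : Places O p W hΔ M ⊕ Fin r, Sum.elim Subtype.val qv x ∣ auxLevel M qv)
    {ψ : (ZMod (auxLevel M qv))ˣ →* Assembly.LevelGroup (Places O p W hΔ M) p r n}
    (hgen : ∀ x, ∀ u : (ZMod (auxLevel M qv))ˣ,
      ((u : ZMod (auxLevel M qv)).cast : ZMod (auxLevel M qv / Sum.elim Subtype.val qv x)) = 1 →
        ZMod.unitsMap (hdvd x) u = aU x →
          ψ u ^ halfInvExp (Assembly.LevelGroup (Places O p W hΔ M) p r n) =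
            Assembly.levelGen p n x)
    (hrest : ∀ w : ℕ, (∀ x : Places O p W hΔ M ⊕ Fin r, Sum.elim Subtype.val qv x ≠ w) →
      w.Prime → w ∣ auxLevel M qv → ∀ u : (ZMod (auxLevel M qv))ˣ,
        ((u : ZMod (auxLevel M qv)).cast : ZMod (auxLevel M qv / w)) = 1 → ψ u = 1)
    (H : HeckeModule (auxLevel M qv) ψ (auxExc p W M qv) (Core.abar W (ResidueField O)))
    (hd : 0 < H.d) (hdB : H.d ≤ B) :
    Nonempty (Assembly.PatchLevel (fun _ : Places O p W hΔ M => c * (ζ - ζ ^ (p - 1)))
      (Assembly.frobRel (g := g) c v₀ v₀.1) π p r B n) := by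
  classical
  have hpr : p.Prime := Fact.out
  have hp := d.p_small
  have hp2 := d.ne_two
  have dn := d.mono (Finset.subset_union_left (s₂ := auxSet qv))
  have hΔp := Assembly.isPGroup_levelGroup (V := Places O p W hΔ M) (r := r) p n
  have hS := fun q hq h => ha.mem_exc_of_dvd cd q hq h
  obtain ⟨hLsq, -⟩ := ha.squarefree_modular cd
  have : IsLocalRing H.algebra := isLocalRing_algebra H hp hΔp hd
  have : IsLocalHom (algebraMap O H.algebra) := isLocalHom_algebraMap H
  have hA := isResAlg_algebra (H := H) hp hΔp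
  obtain ⟨pt, G, hG, -, -, -⟩ := exists_rep hp (H := H) hΔp hp2 dn.p_mem hS dn.absIrr
    dn.hasCharpolys (models p)
  obtain ⟨ru, hru_c, hl, hn, hru, hspan, he⟩ := exists_normalRep hp hΔp G hG hW
  -- the places
  have hvF : ∀ v : Places O p W hΔ M, Fact v.1.Prime := fun v => ⟨(prime_of_mem_scalarSet v.2).1⟩
  have hwF : ∀ x, Fact (Sum.elim (Subtype.val : Places O p W hΔ M → ℕ) qv x).Prime := by
    rintro (v | i)
    exacts [hvF v, ⟨ha.prime i⟩]
  -- inertia at the places
  have htw : ∀ x, (G.R (aX x)).trace =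
      diaA H (Assembly.levelGen p n x) + diaA H (Assembly.levelGen p n x)⁻¹ := fun x =>
    trace_inertia_levelGen cd d ha G hG (hdvd x) (haX x).1 (haX x).2.1 (hgen x)
  let φT : Places O p W hΔ M → Gal := fun v =>
    (exists_isFrobeniusAt (CFT.Local.padicPlace_liesOverPrime v.1) (hvF v).out).choose
  have hφT : ∀ v, (padicPlace v.1).IsFrobeniusAt (φT v) v.1 := fun v =>
    (exists_isFrobeniusAt (CFT.Local.padicPlace_liesOverPrime v.1) (hvF v).out).choose_spec
  have hσmem : ∀ v : Places O p W hΔ M,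
      aX (Sum.inl v) ∈ (padicPlace v.1).inertiaSubgroupIn ℚ := fun v => (haX (Sum.inl v)).1
  have hspec := fun v : Places O p W hΔ M =>
    scalarPlace_spec cd G hW hl hru_c (natCast_mem hp) (fun σ => (hru σ).2.1) v (hσmem v) (hφT v)
  have hcompat : (casePat O p W hΔ M).Compat p Wd.rb :=
    compat_casePat_of_lift cd ha hW hl fun x _ hxL hxp τ hτ => (hru τ).2.2 (apply_eq_one G Fact.out
      hxL hxp (CFT.Local.padicPlace_liesOverPrime x) hτ)
  -- matrices over the level
  let χ := Assembly.levelChar (V := Places O p W hΔ M) (r := r) hζ.pow_eq_one n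
  let Bd : Assembly.DiaBasis H.dia H.d := ⟨H.basis, H.basis_bijective⟩
  have hcomm : ∀ a ∈ H.algebra, ∀ δ, a * H.dia δ = H.dia δ * a := fun a ha δ =>
    congrArg Subtype.val (mul_comm (⟨a, ha⟩ : H.algebra) (diaA H δ))
  let rep := Bd.rep χ hcomm
  have hrep : ∀ δ, rep (diaA H δ) = χ δ • 1 := fun δ => Bd.mat_dia χ δ
  have hζi : ζ * ζ ^ (p - 1) = 1 := by
    rw [← pow_succ', Nat.sub_add_cancel hpr.one_le, hζ.pow_eq_one]
  have hloc : IsLocalRing (Algebra.adjoin O (entries ru)) := Assembly.isLocalRing_subalgebra _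
  let rS := corestrict (Algebra.adjoin O (entries ru)) ru
    (fun σ i j => Algebra.subset_adjoin ⟨(σ, i, j), rfl⟩)
  have hcS : IsCont rS := Assembly.isCont_corestrict hA _ hru_c _
  have hH := holds_casePat cd d ha hΔp hstrict (psi_eq_one_of_not_scalar cd ha hrest) G hG he hru
    hspan _ hcS (mapM_corestrict _ ru _)
  refine Assembly.exists_patchLevel hA hd hdB rep c hc ru (fun v => aX (Sum.inl v)) φT
    (fun i => aX (Sum.inr i)) ζ (ζ ^ (p - 1)) hζi hζ.pow_eq_one
    (ne_pow_pred hp2 hζ) Subtype.val (fun v => (hspec v).1) (fun v => (hspec v).2.1)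
    (fun v => (hspec v).2.2.1) (fun v => (hspec v).2.2.2.1) (fun v => (hspec v).2.2.2.2.1)
    (fun v => (hspec v).2.2.2.2.2) (fun v => ?_) (fun i => ?_) v₀ ?_ ?_
  · -- the traces of inertia at the places and at the auxiliary primes, through the level group
    rw [(hru _).1, htw]
    exact (rep_add_inv rep χ hrep _).1 ζ _ hζi (levelChar_levelGen_inl hζ.pow_eq_one n v)
  · rw [(hru _).1, htw]
    exact (rep_add_inv rep χ hrep _).2 _ (levelChar_levelGen_inr hζ.pow_eq_one n i)
  · -- the relation at `v₀`, from the norm of the squared trace as the level cannot be lowered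
    intro i j
    rw [(hru _).1]
    refine Bd.mat_mem_of_mul_norm χ _ (norm_mul_trace_sq G hp
      (by
        rw [Assembly.card_levelGroup]
        exact (hpr.odd_of_ne_two hp2).pow)
      (hdvd (Sum.inl v₀)) (prime_of_mem_scalarSet v₀.2).2.2
      ((hvF v₀).out.coprime_iff_not_dvd.2
        (GammaH.coprime_div_of_squarefree hLsq (hvF v₀).out (hdvd (Sum.inl v₀))))
      (fun h => hv₀ (ha.modular_of_congruent_div cd d (hvF v₀).out
        (prime_of_mem_scalarSet v₀.2).2.1 h))
      (fun N _ _ h1 h2 => stdModel_local p (hvF v₀).out (prime_of_mem_scalarSet v₀.2).2.2 h1 h2)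
      (haU (Sum.inl v₀)) (hgen (Sum.inl v₀)) (CFT.Local.padicPlace_liesOverPrime _) (hφT v₀))
      _ (fun δ k hk => ?_) i j
    exact levelChar_mul_sub_mem hζ hπ n v₀ δ k hk
  · -- the bound on the derivations
    exact finrank_killedDer_le cd hW hc hr hbound hcompat hA hru_c hl hn hH
      (fun v => aX (Sum.inl v)) φT (fun v _ => ⟨hσmem v, (haX (Sum.inl v)).2.2⟩)
      (fun v _ => hφT v)

/-- **Patching levels of every depth.** -/
theorem exists_patchLevels (cd : Case O p W hΔ M) (d : Data O p W hΔ (excSet p W M) b)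
    (hstrict : Lifting.StrictAtNew p O) {Wd : Rigid O}
    (hW : Wd.rb = matRes (Core.rhoBar W p hΔ (ResidueField O)) b)
    (hPB : Pattern.HasPatternBound Wd p)
    {ζ : O} (hζ : IsPrimitiveRoot ζ p) {c : O} (hc : 2 * c = 1) {π : O} (hπ : Irreducible π)
    (v₀ : Places O p W hΔ M) (hv₀ : ¬ W.IsResiduallyModularOfLevel p (M / v₀.1)) :
    ∃ g B : ℕ, ∀ n, Nonempty (Assembly.PatchLevel
      (fun _ : Places O p W hΔ M => c * (ζ - ζ ^ (p - 1)))
      (Assembly.frobRel (g := g) c v₀ v₀.1) π p (3 * Nat.card (Places O p W hΔ M) + g) B n) := by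
  classical
  have : NeZero M := ⟨cd.ne_zero⟩
  have hpS : p ∈ excSet p W M := Finset.mem_insert_self _ _
  have hS₀ : ∀ q ∈ excSet p W M, q.Prime := fun q hq => by
    simp only [excSet, Finset.mem_insert, Finset.mem_union] at hq
    rcases hq with rfl | h | h
    · exact Fact.out
    · exact Nat.prime_of_mem_primeFactors h
    · exact Nat.prime_of_mem_primeFactors h
  -- the pattern bound gives the number `g` of further variables
  obtain ⟨g, hg⟩ := hPB (excSet p W M) hS₀ hpS fun q _ hq τ hτ => by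
    rw [hW]
    exact (rb_eq_one_iff τ).2 (isUnramifiedAt_of_notMem_excSet Fact.out hq _
      (CFT.Local.padicPlace_liesOverPrime _) τ hτ)
  obtain ⟨B, hB⟩ := exists_rank_bound (O := O) M
  set r := 3 * Nat.card (Places O p W hΔ M) + g with hr
  refine ⟨g, 2 ^ r * B, fun n => ?_⟩
  -- auxiliary primes of depth `n`
  obtain ⟨qv, hinj, hqv, hfrob, hbound⟩ := hg r (Nat.le_add_left _ _) n
  have ha : IsAux O p W hΔ M b n qv := ⟨hinj, fun i => (hqv i).1, fun i => (hqv i).2.1,
    fun i => (hqv i).2.2, fun i A hA φ hφ => by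
      have := (hfrob i A hA φ hφ).2.1
      rwa [hW] at this⟩
  obtain ⟨hLsq, -⟩ := ha.squarefree_modular cd
  have : NeZero (auxLevel M qv) := ⟨hLsq.ne_zero⟩
  have : Nonempty (Places O p W hΔ M) := ⟨v₀⟩
  have hwpr : ∀ x, (Sum.elim (Subtype.val : Places O p W hΔ M → ℕ) qv x).Prime := by
    rintro (v | i)
    · exact (prime_of_mem_scalarSet v.2).1
    · exact ha.prime i
  have hwF : ∀ x, Fact (Sum.elim (Subtype.val : Places O p W hΔ M → ℕ) qv x).Prime :=
    fun x => ⟨hwpr x⟩
  have hdvd : ∀ x, Sum.elim (Subtype.val : Places O p W hΔ M → ℕ) qv x ∣ auxLevel M qv := by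
    rintro (v | i)
    · exact dvd_mul_of_dvd_left (prime_of_mem_scalarSet v.2).2.1 _
    · exact dvd_mul_of_dvd_right (Finset.dvd_prod_of_mem (fun q => q)
        (Finset.mem_image_of_mem qv (Finset.mem_univ i))) _
  have hinj' : Function.Injective (Sum.elim (Subtype.val : Places O p W hΔ M → ℕ) qv) :=
    Subtype.val_injective.sumElim hinj fun v i he =>
      ha.not_dvd cd i (he ▸ (prime_of_mem_scalarSet v.2).2.1)
  have hpdvd : ∀ x, p ∣ Sum.elim (Subtype.val : Places O p W hΔ M → ℕ) qv x - 1 := by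
    rintro (v | i)
    · exact (cd.scalar v.1 v.2).1
    · exact ha.p_dvd i
  -- an inertia element and a root of a uniformiser at every place and auxiliary prime
  choose aX aU pX mX h1 h2 h3 h4 h5 h6 h7 using fun x => Assembly.exists_inertia_uniformiser
    (p := p) Fact.out (CFT.Local.padicPlace_liesOverPrime
      (Sum.elim (Subtype.val : Places O p W hΔ M → ℕ) qv x)) (hwpr x) (hpdvd x)
  -- the diamond quotient of the level
  obtain ⟨ψ, hψs, hgen, hrest⟩ := Assembly.exists_levelPsi cd.ne_two n hLsq Subtype.val qv hwpr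
    hdvd hinj' (fun v => (cd.scalar v.1 v.2).1) (fun i => ha.dvd_pow i) aU h3
  have h := (d.mono (Finset.subset_union_left (s₂ := auxSet qv))).hyp
    (Assembly.isPGroup_levelGroup p n) hψs hLsq (fun v hv hd => ha.mem_exc_of_dvd cd v hv hd)
  exact exists_patchLevel_of_hecke cd d hstrict hW hζ hc hπ hr ha hbound v₀ hv₀ aX aU h3
    (fun x _ => ⟨h1 x, h2 x, pX x, mX x, h4 x, h5 x, h6 x, h7 x⟩) hdvd hgen hrest
    (heckeModule h) (heckeModule_d_pos h (ha.congruent cd d)) (ha.rank_le cd d hB)

/-! ## The relation -/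

section Relation

open MvPowerSeries Fermat.Agent.RT.Germ

/-- The square of the first coordinate at `v₀` has coefficient one in the relation at `v₀`. -/
theorem coeff_frobRel {O : Type} [CommRing O] {V : Type} {g : ℕ} (c : O) (v₀ : V) (v : ℕ) :
    coeff (Finsupp.single (Sum.inl (v₀, 1, 0) : Coord V (Fin g)) 2)
      (Assembly.frobRel (g := g) c v₀ v) = 1 := by
  classical
  rw [Assembly.frobRel, map_sub, map_add, coeff_C,
    if_neg (Finsupp.single_ne_zero.2 two_ne_zero), sub_zero, pow_two, X_def, X_def, X_def,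
    monomial_mul_monomial, monomial_mul_monomial, coeff_monomial, coeff_monomial,
    if_pos (by rw [← Finsupp.single_add]), if_neg, add_zero, mul_one]
  intro h
  have := DFunLike.congr_fun h (Sum.inl (v₀, 1, 0))
  simp at this

/-- Where two is a unit, its image has norm one. -/
theorem norm_two_eq_one {O : Type} [CommRing O] {p : ℕ} [Fact p.Prime] (φ : O →+* ball1 ℂ_[p])
    (h2u : IsUnit (2 : O)) : ‖(2 : ℂ_[p])‖ = 1 := by
  obtain ⟨c', hc'⟩ := isUnit_iff_exists_inv.1 h2u
  have h1 := congrArg (ball1 ℂ_[p]).subtype (congrArg φ hc')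
  rw [map_mul, map_mul, map_ofNat, map_ofNat, map_one, map_one] at h1
  have h4 : ‖(2 : ℂ_[p])‖ ≤ 1 := by
    have h5 : ‖(ball1 ℂ_[p]).subtype (φ 2)‖ ≤ 1 := (φ 2).2
    rwa [map_ofNat, map_ofNat] at h5
  refine le_antisymm h4 ?_
  rw [← norm_one (α := ℂ_[p]), ← h1, norm_mul]
  exact mul_le_of_le_one_right (norm_nonneg _) (φ c').2

end Relation

end Fermat.Agent.RT.LowerB
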