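import Fermat.Agent.RT.LowerB.Setup
import Fermat.Agent.RT.Modules.GaloisSide
import Fermat.Agent.RT.Glue.Main

/-!
# The rank of the localised module at level `Γ₀(M ∏ Q)`

At a prime `q ≡ 1 mod p` where the squared residual trace is not `4` there are no congruent forms
new at `q`, so `degStar` is injective and the rank at most doubles.
-/

set_option autoImplicit false

noncomputable section

namespace Fermat.Agent.RT.LowerB

open IsLocalRing Fermat.Agent.RT.Glue Fermat.Agent.RT.Modules
open Fermat.Agent.LevelRaising (RaiseData)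

variable {O : Type} [CommRing O] [IsDomain O] [IsDiscreteValuationRing O]
  [IsAdicComplete (maximalIdeal O) O] [Finite (ResidueField O)] [CharZero O]
  {p : ℕ} [Fact p.Prime] [CharP (ResidueField O) p] [Algebra (ZMod p) (ResidueField O)]
  {W : WeierstrassCurve ℤ} {hΔ : W.Δ ≠ 0} {S : Finset ℕ}
  {b : Module.Basis (Fin 2) (ResidueField O) (Core.rhoBar W p hΔ (ResidueField O)).V}

/-- A prime dividing a product of primes is one of them. -/
theorem mem_of_dvd_prod_primes {Q : Finset ℕ} (hQ : ∀ x ∈ Q, x.Prime) {q : ℕ} (hq : q.Prime)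
    (h : q ∣ ∏ x ∈ Q, x) : q ∈ Q :=
  let ⟨_, hx, hqx⟩ := (hq.prime.dvd_finsetProd_iff _).1 h
  (Nat.prime_dvd_prime_iff_eq hq (hQ _ hx)).1 hqx ▸ hx

theorem ker_one (L : ℕ) : (1 : (ZMod L)ˣ →* Unit).ker = ⊤ :=
  eq_top_iff.2 fun _ _ => rfl

omit [Finite (ResidueField O)] [CharZero O] in
theorem finrank_locHom_congr {L : ℕ} [NeZero L] (abar : ℕ → ResidueField O) (S : Finset ℕ)
    {K K' : Subgroup (ZMod L)ˣ} (h : K = K') :
    Module.finrank O (locHom S abar K) = Module.finrank O (locHom S abar K') := by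
  subst h; rfl

private theorem isUnit_sq_sub {R k : Type*} [CommRing R] [IsLocalRing R] [Field k]
    (φ : k →+* ResidueField R) {x : R} {t : k} {q : ℕ} (hx : residue R x = φ t) (hq : (q : k) = 1)
    (ht : t ^ 2 ≠ 4) : IsUnit (x ^ 2 - ((q : R) + 1) ^ 2) := by
  refine residue_ne_zero_iff_isUnit _ |>.1 fun h0 => ht ?_
  rw [map_sub, map_pow, map_pow, map_add, map_natCast, map_one, hx, ← map_natCast φ, hq, map_one,
    sub_eq_zero, one_add_one_eq_two,
    show (2 : ResidueField R) ^ 2 = φ 4 by rw [map_ofNat]; norm_num, ← map_pow] at h0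
  exact φ.injective h0

/-- The rank at most doubles at such a prime. -/
theorem Data.finrank_locHom_le (d : Data O p W hΔ S b) {M q : ℕ} [NeZero M] [NeZero (M * q)]
    (hq : RaiseData q M) (hqS : q ∈ S) (hqp : q ≠ p) (hM : Squarefree M)
    (hS : ∀ v : ℕ, v.Prime → v ∣ M → v ∈ S) (hq1 : (q : ResidueField O) = 1)
    {A : ValuationSubring (AlgebraicClosure ℚ)} (hA : A.LiesOverPrime q) {s : GaloisReps.AbsGal}
    (hs : A.IsFrobeniusAt s q)
    (htr : (Deform.matRes (Core.rhoBar W p hΔ (ResidueField O)) b s).trace ^ 2 ≠ 4) :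
    Module.finrank O (locHom S (Core.abar W (ResidueField O)) (⊤ : Subgroup (ZMod (M * q))ˣ)) ≤
      2 * Module.finrank O
        (locHom S (Core.abar W (ResidueField O)) (⊤ : Subgroup (ZMod M)ˣ)) := by
  classical
  have hΔp : IsPGroup p Unit := fun _ => ⟨0, rfl⟩
  set abar := Core.abar W (ResidueField O)
  have h := d.hyp (ψ := (1 : (ZMod M)ˣ →* Unit)) hΔp (fun _ => ⟨1, rfl⟩) hM hS
  set h' := h.raise hq hqS with hh'
  rw [← finrank_locHom_congr abar S (ker_one M),
    ← finrank_locHom_congr abar S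
      (show (upPsi (1 : (ZMod M)ˣ →* Unit) q).ker = ⊤ from eq_top_iff.2 fun _ _ => rfl), two_mul,
    ← Module.finrank_prod]
  -- nothing to do if the raised module is zero
  by_cases hd : 0 < (heckeModule h').d
  swap
  · have h0 : Module.finrank O (locHom S abar (⊤ : Subgroup (ZMod (M * q))ˣ)) = 0 := by
      simpa [heckeModule] using hd
    rw [finrank_locHom_congr abar S
      (show (upPsi (1 : (ZMod M)ˣ →* Unit) q).ker = ⊤ from eq_top_iff.2 fun _ _ => rfl), h0]
    exact Nat.zero_le _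
  have : IsLocalRing (heckeModule h').algebra := isLocalRing_algebra _ d.p_small hΔp hd
  obtain ⟨pt, G, hG, -, -, -⟩ := exists_rep d.p_small (H := heckeModule h') hΔp d.ne_two d.p_mem
    h'.mem_of_dvd d.absIrr d.hasCharpolys (models p)
  -- `(tr Frob)² - (q + 1)²` is a unit in the Hecke algebra
  set a : (heckeModule h').algebra :=
    (G.R s).trace ^ 2 - ((q : (heckeModule h').algebra) + 1) ^ 2 with ha
  have hua : IsUnit a := isUnit_sq_sub (k := ResidueField O)
    (ResidueField.map (algebraMap O (heckeModule h').algebra)) (residue_trace G hG s) hq1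
    (by rwa [LinearMap.trace_eq_matrix_trace (ResidueField O) b])
  obtain ⟨u, hu⟩ := hua
  -- and kills the kernel of the degeneracy map, which is therefore injective
  have hinj : Function.Injective (degStar (1 : (ZMod M)ˣ →* Unit) S abar hq hqS) :=
    (injective_iff_map_eq_zero _).2 fun x hx => by
      have hax := h.trace_sq_sub_apply G d.p_small d.p_mem hqp
        (fun N _ h1 h2 => stdModel_local p hq.prime hqp h1 h2) hA hs hx
      rw [← ha, ← hu] at hax
      have h2 := congrArg ((↑u⁻¹ : (heckeModule h').algebra) :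
        Module.End O (heckeModule h').M) hax
      rw [map_zero, ← Module.End.mul_apply, ← Subalgebra.coe_mul, Units.inv_mul,
        Subalgebra.coe_one, Module.End.one_apply] at h2
      exact h2
  exact LinearMap.finrank_le_finrank_of_injective hinj

/-- **The rank bound.** -/
theorem Data.finrank_locHom_prod_le (d : Data O p W hΔ S b) {M : ℕ} [NeZero M] (hM : Squarefree M)
    (hS : ∀ v : ℕ, v.Prime → v ∣ M → v ∈ S) (Q : Finset ℕ) [NeZero (M * ∏ q ∈ Q, q)]
    (hQ : ∀ q ∈ Q, q.Prime ∧ q ∈ S ∧ ¬ q ∣ M ∧ q ≠ p ∧ (q : ResidueField O) = 1 ∧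
      ∃ (A : ValuationSubring (AlgebraicClosure ℚ)) (s : GaloisReps.AbsGal),
        A.LiesOverPrime q ∧ A.IsFrobeniusAt s q ∧
          (Deform.matRes (Core.rhoBar W p hΔ (ResidueField O)) b s).trace ^ 2 ≠ 4) :
    Module.finrank O (locHom S (Core.abar W (ResidueField O))
        (⊤ : Subgroup (ZMod (M * ∏ q ∈ Q, q))ˣ)) ≤
      2 ^ Q.card * Module.finrank O
        (locHom S (Core.abar W (ResidueField O)) (⊤ : Subgroup (ZMod M)ˣ)) := by
  classical
  -- induction on `Q`, carrying square-freeness of the level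
  suffices key : ∀ (Q : Finset ℕ), (∀ q ∈ Q, q.Prime ∧ q ∈ S ∧ ¬ q ∣ M ∧ q ≠ p ∧
      (q : ResidueField O) = 1 ∧
      ∃ (A : ValuationSubring (AlgebraicClosure ℚ)) (s : GaloisReps.AbsGal),
        A.LiesOverPrime q ∧ A.IsFrobeniusAt s q ∧
          (Deform.matRes (Core.rhoBar W p hΔ (ResidueField O)) b s).trace ^ 2 ≠ 4) →
      ∀ (L : ℕ) [NeZero L], L = M * ∏ q ∈ Q, q →
      Squarefree L ∧ (∀ v : ℕ, v.Prime → v ∣ L → v ∈ S) ∧
      Module.finrank O (locHom S (Core.abar W (ResidueField O)) (⊤ : Subgroup (ZMod L)ˣ)) ≤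
        2 ^ Q.card * Module.finrank O
          (locHom S (Core.abar W (ResidueField O)) (⊤ : Subgroup (ZMod M)ˣ)) from
    (key Q hQ _ rfl).2.2
  intro Q
  induction Q using Finset.induction_on with
  | empty =>
    intro _ L _ hL
    rw [Finset.prod_empty, mul_one] at hL
    subst hL
    exact ⟨hM, hS, by rw [Finset.card_empty, pow_zero, one_mul]⟩
  | @insert q Q hqQ ih =>
    intro hQ L _ hL
    obtain ⟨hqprime, hqS, hqM, hqp, hq1, A, s, hA, hs, htr⟩ := hQ q (Finset.mem_insert_self q Q)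
    rw [Finset.prod_insert hqQ, mul_left_comm, mul_comm q] at hL
    subst hL
    have : NeZero (M * ∏ x ∈ Q, x) :=
      ⟨fun h0 => NeZero.ne ((M * ∏ x ∈ Q, x) * q) (by rw [h0, zero_mul])⟩
    obtain ⟨hsq, hmem, hle⟩ := ih (fun x hx => hQ x (Finset.mem_insert_of_mem hx)) _ rfl
    have hq : RaiseData q (M * ∏ x ∈ Q, x) := ⟨hqprime, hqprime.not_dvd_mul hqM fun h =>
      hqQ (mem_of_dvd_prod_primes (fun x hx => (hQ x (Finset.mem_insert_of_mem hx)).1) hqprime h)⟩
    refine ⟨?_, fun v hv hd => ?_, ?_⟩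
    · exact (Nat.squarefree_mul ((hqprime.coprime_iff_not_dvd).2 hq.not_dvd).symm).2
        ⟨hsq, hqprime.squarefree⟩
    · rcases hv.dvd_mul.1 hd with h | h
      · exact hmem v hv h
      · rwa [(Nat.prime_dvd_prime_iff_eq hv hqprime).1 h]
    -- one more prime at most doubles the rank
    · refine (d.finrank_locHom_le hq hqS hqp hsq hmem hq1 hA hs htr).trans ?_
      rw [Finset.card_insert_of_notMem hqQ, pow_succ']
      calc _ ≤ 2 * _ := Nat.mul_le_mul_left 2 hle
        _ = _ := (mul_assoc _ _ _).symm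

end Fermat.Agent.RT.LowerB
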