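import Fermat.Agent.RT.Core.Residual
import Fermat.Agent.CFT.Tangent.FlatShape
import Fermat.Agent.Arith.Chebotarev.Main
import Fermat.Agent.RT.GammaH.Local
import Fermat.Agent.Mazur.Eisenstein.CycInertia

/-!
# Auxiliary primes for the Hecke modules: non-Eisenstein, and elliptic points of order three

An irreducible representation has an element whose trace is not `1 + det`, and, if it stays
irreducible on subgroups of index two and its determinant takes only the values `±1`, `-1` among
them, an element of determinant `-1` with nonzero trace. Chebotarev turns these into primes outside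
any finite set.
-/

set_option autoImplicit false

noncomputable section

namespace Fermat.Agent.RT.LowerB

open IsLocalRing Fermat.Agent.Arith
open Fermat.Agent.CFT.TWPrimes (TWHyp)
open Fermat.Agent.Deform (Gal M2)
open scoped Matrix

section Group

variable {G : Type*} [Group G] {k : Type} [Field k] {r : G →* M2 k}

/-- Some element has trace different from `1 + det`. -/
theorem exists_trace_ne (hr : TWHyp r) : ∃ g, (r g).trace ≠ 1 + (r g).det := by
  by_contra! hall
  by_cases htriv : ∀ g, (r g).det = 1 → r g = 1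
  · refine hr.not_commutative (Or.inl rfl) fun a _ b _ => ?_
    have h : r ((b * a)⁻¹ * (a * b)) = 1 := htriv _ (by
      have hab : (r (a * b)).det = (r (b * a)).det := by
        rw [map_mul, map_mul, Matrix.det_mul, Matrix.det_mul, mul_comm]
      rw [map_mul, Matrix.det_mul, hab, ← Matrix.det_mul, CFT.TWPrimes.rinv_mul, Matrix.det_one])
    rw [← map_mul, ← map_mul]
    calc r (a * b) = r (b * a) * r ((b * a)⁻¹ * (a * b)) := by
          rw [← map_mul, mul_inv_cancel_left]
      _ = r (b * a) := by rw [h, mul_one]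
  push Not at htriv
  obtain ⟨u, hu, hu1⟩ := htriv
  have hsq : ∀ g, (r g).det = 1 → (r g - 1) * (r g - 1) = 0 ∧ (r g - 1).trace = 0 := fun g hg => by
    have ht : (r g).trace = 2 := by rw [hall, hg]; norm_num
    refine ⟨?_, by rw [Matrix.trace_sub, ht, Matrix.trace_one, Fintype.card_fin]; norm_num⟩
    rw [sub_mul, mul_sub, CFT.TWPrimes.mul_self_eq, ht, hg, mul_one, one_mul]
    module
  set N := r u - 1 with hN
  have hN0 : N ≠ 0 := sub_ne_zero.mpr hu1
  obtain ⟨hNN, htN⟩ := hsq u hu
  obtain ⟨v, hv, hNv⟩ : ∃ v, v ≠ 0 ∧ N *ᵥ v = 0 := by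
    refine Matrix.exists_mulVec_eq_zero_iff.mpr ?_
    have h := congrArg Matrix.det hNN
    rw [Matrix.det_mul, Matrix.det_zero] at h
    exact mul_self_eq_zero.mp h
  refine hr.irred ⟨v, hv, fun g _ => ?_⟩
  -- the conjugate of `u` by `g⁻¹` kills `v`
  set u' := g⁻¹ * u * g
  have hu' : (r u').det = 1 := by
    rw [map_mul, map_mul, Matrix.det_mul, Matrix.det_mul, hu, mul_one, ← Matrix.det_mul,
      CFT.TWPrimes.rinv_mul, Matrix.det_one]
  obtain ⟨hMM, htM⟩ := hsq u' hu'
  have hNM : (N * (r u' - 1)).trace = 0 := by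
    obtain ⟨-, h⟩ := hsq (u * u') (by rw [map_mul, Matrix.det_mul, hu, hu', mul_one])
    rw [map_mul, show r u * r u' - 1 = N * (r u' - 1) + N + (r u' - 1) by
      rw [hN, sub_mul, mul_sub, mul_sub, one_mul, one_mul, mul_one]; abel,
      Matrix.trace_add, Matrix.trace_add, htM, add_zero, htN, add_zero] at h
    exact h
  have hM : (r u' - 1) *ᵥ v = 0 :=
    CFT.Tangent.sq_zero_mulVec hN0 hMM htN hNM hv hNv
  have e : r u' - 1 = r g⁻¹ * N * r g := by
    rw [hN, mul_sub, sub_mul, mul_one, CFT.TWPrimes.rinv_mul, map_mul, map_mul]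
  have hNg : N *ᵥ (r g *ᵥ v) = 0 := by
    have h := congrArg (r g *ᵥ ·) hM
    simp only [Matrix.mulVec_zero, Matrix.mulVec_mulVec] at h
    rwa [e, ← mul_assoc, ← mul_assoc, CFT.TWPrimes.mul_rinv, one_mul, ← Matrix.mulVec_mulVec] at h
  exact CFT.TWPrimes.exists_smul_of_mulVec_eq_zero hN0 hv hNg hNv

/-- Some element of determinant `-1` has nonzero trace. -/
theorem exists_det_neg_trace_ne (hr : TWHyp r) (hdet : ∀ g, (r g).det = 1 ∨ (r g).det = -1)
    {c : G} (hc : (r c).det = -1) : ∃ g, (r g).det = -1 ∧ (r g).trace ≠ 0 := by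
  by_contra! hall
  let H : Subgroup G :=
    { carrier := {g | (r g).det = 1}
      mul_mem' := fun {a b} ha hb => by
        show (r (a * b)).det = 1
        rw [map_mul, Matrix.det_mul, show (r a).det = 1 from ha,
          show (r b).det = 1 from hb, mul_one]
      one_mem' := by show (r 1).det = 1; rw [map_one, Matrix.det_one]
      inv_mem' := fun {a} ha => by
        show (r a⁻¹).det = 1
        have h := congrArg Matrix.det (CFT.TWPrimes.rinv_mul (r := r) a)
        rwa [Matrix.det_mul, show (r a).det = 1 from ha, mul_one, Matrix.det_one] at h }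
  have hmem : ∀ g, g ∈ H ↔ (r g).det = 1 := fun g => Iff.rfl
  have hne : (-1 : k) ≠ 1 := fun h => hr.two (by linear_combination -h)
  -- determinant one is a subgroup of index two
  have hindex : H.index = 2 := by
    refine Subgroup.index_eq_two_iff.mpr ⟨c, fun g => ?_⟩
    rcases hdet g with h | h
    · refine Or.inr ⟨h, fun hmul => ?_⟩
      rw [hmem, map_mul, Matrix.det_mul, h, hc, one_mul] at hmul
      exact hne hmul
    · refine Or.inl ⟨?_, fun hg => hne (h.symm.trans hg)⟩
      rw [hmem, map_mul, Matrix.det_mul, h, hc, neg_mul_neg, one_mul]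
  refine hr.not_commutative (Or.inr hindex) fun a ha b hb => ?_
  -- by Cayley-Hamilton `c x` has order two for `x` there
  have hinv : ∀ x ∈ H, r c * r x * r c * r x = 1 := fun x hx => by
    have hd : (r c * r x).det = -1 := by rw [Matrix.det_mul, hc, (hmem x).mp hx, mul_one]
    have ht : (r c * r x).trace = 0 := by
      rw [← map_mul]; exact hall _ (by rw [map_mul]; exact hd)
    rw [mul_assoc (r c * r x), CFT.TWPrimes.mul_self_eq, ht, hd, zero_smul, zero_sub, neg_smul,
      one_smul, neg_neg]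
  have hcc : r c * r c = 1 := by
    have h := hinv 1 (one_mem H)
    rwa [map_one, mul_one, mul_one] at h
  -- so `c` inverts that subgroup, which is then abelian
  have hconj : ∀ x ∈ H, r c * r x * r c = r x⁻¹ := fun x hx => by
    rw [← mul_one (r c * r x * r c), ← CFT.TWPrimes.mul_rinv (r := r) x, ← mul_assoc, hinv x hx,
      one_mul]
  have h : r (a * b)⁻¹ = r a⁻¹ * r b⁻¹ := by
    rw [← hconj _ (mul_mem ha hb), ← hconj a ha, ← hconj b hb, map_mul]
    calc r c * (r a * r b) * r c = r c * r a * (r c * r c) * r b * r c := by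
          rw [hcc]; simp only [mul_assoc, one_mul]
      _ = _ := by simp only [mul_assoc]
  have h' : r (a * b)⁻¹ = r (b * a)⁻¹ := by rw [h, ← map_mul, ← mul_inv_rev]
  calc r a * r b = r (a * b) * (r (b * a)⁻¹ * r (b * a)) := by
        rw [CFT.TWPrimes.rinv_mul, mul_one, map_mul]
    _ = r b * r a := by
        rw [← h', ← mul_assoc, CFT.TWPrimes.mul_rinv, one_mul, map_mul]

end Group

variable {W : WeierstrassCurve ℤ} {p : ℕ} [Fact p.Prime] {hΔ : W.Δ ≠ 0}
  {k : Type} [Field k] [Algebra (ZMod p) k]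

/-- An element of the image has the trace and determinant of a Frobenius at some prime outside any
finite set. -/
theorem exists_frobenius_matRes (b : Module.Basis (Fin 2) k (Core.rhoBar W p hΔ k).V) (g : Gal)
    (S : Finset ℕ) :
    ∃ ℓ : ℕ, ℓ.Prime ∧ ℓ ∉ S ∧ (Deform.matRes (Core.rhoBar W p hΔ k) b g).trace = Core.abar W k ℓ ∧
      (Deform.matRes (Core.rhoBar W p hΔ k) b g).det = (ℓ : k) := by
  classical
  obtain ⟨L, hL, hL'⟩ := CFT.TWPrimes.finiteLevel_matRes (Core.rhoBar W p hΔ k) b
  obtain ⟨ℓ, hℓ, hℓS, A, hA, σ, hσ, heq⟩ := Chebotarev.exists_frobenius_eq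
    (Deform.matRes (Core.rhoBar W p hΔ k) b) L hL' g (S ∪ insert p W.Δ.natAbs.primeFactors)
  simp only [Finset.mem_union, Finset.mem_insert, not_or] at hℓS
  have hgood : W.IsGoodPrimeFor ℓ := fun h => hℓS.2.2
    (Nat.mem_primeFactors.mpr ⟨hℓ, Int.natCast_dvd.mp h, Int.natAbs_ne_zero.mpr hΔ⟩)
  have hch := Core.charpoly_rhoBar_frobenius (p := p) (hΔ := hΔ) (k := k) hℓ hgood hℓS.2.1 hA hσ
  rw [← LinearMap.charpoly_toMatrix _ b, Matrix.charpoly_fin_two] at hch
  have e1 := congrArg (fun f => Polynomial.coeff f 1) hch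
  have e0 := congrArg (fun f => Polynomial.coeff f 0) hch
  simp [Polynomial.coeff_X_pow] at e1 e0
  refine ⟨ℓ, hℓ, hℓS.1, ?_, ?_⟩ <;> rw [← heq]
  · exact e1
  · exact (LinearMap.det_toMatrix b _).trans e0

variable {O : Type} [CommRing O] [IsDomain O] [IsDiscreteValuationRing O]
  [CharP (ResidueField O) p] [Algebra (ZMod p) (ResidueField O)]

/-- A prime outside `S` showing that the system of `W` is not Eisenstein. -/
theorem exists_nonEis (b : Module.Basis (Fin 2) k (Core.rhoBar W p hΔ k).V)
    (hr : TWHyp (Deform.matRes (Core.rhoBar W p hΔ k) b)) (S : Finset ℕ) :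
    ∃ ℓ : ℕ, ℓ.Prime ∧ ℓ ∉ S ∧ Core.abar W k ℓ ≠ 1 + (ℓ : k) := by
  obtain ⟨g, hg⟩ := exists_trace_ne hr
  obtain ⟨ℓ, hℓ, hℓS, ht, hd⟩ := exists_frobenius_matRes b g S
  exact ⟨ℓ, hℓ, hℓS, by rwa [ht, hd] at hg⟩

/-- The hypothesis at the elliptic elements of order three. -/
theorem ellOK (b : Module.Basis (Fin 2) (ResidueField O) (Core.rhoBar W p hΔ (ResidueField O)).V)
    (hr : TWHyp (Deform.matRes (Core.rhoBar W p hΔ (ResidueField O)) b)) (hp2 : p ≠ 2)
    (S : Finset ℕ) : GammaH.EllOK S (Core.abar W (ResidueField O)) := by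
  have hp : p.Prime := Fact.out
  by_cases h3 : p = 3
  swap
  -- for `p ≠ 3` three is invertible
  · have h := GammaH.isUnit_natCast (O := O) (p := p) (n := 3)
      (fun h => h3 ((Nat.prime_dvd_prime_iff_eq hp Nat.prime_three).mp h))
    exact Or.inl (by exact_mod_cast h)
  subst h3
  set r := Deform.matRes (Core.rhoBar W 3 hΔ (ResidueField O)) b
  have hcyc := CFT.TWPrimes.det_matRes_of_detIsCyclotomic (Core.rhoBar W 3 hΔ (ResidueField O)) b 3
    Core.detIsCyclotomic_rhoBar
  -- for `p = 3` determinants are signs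
  have hdet : ∀ g, (r g).det = 1 ∨ (r g).det = -1 := fun g => by
    obtain ⟨n, hn⟩ := CFT.Tangent.exists_pow_eq_on_roots 3 g
    have h : (r g).det = (n : ResidueField O) := hcyc g n hn
    have h0 : (r g).det ≠ 0 := CFT.TWPrimes.det_ne_zero g
    rw [h] at h0 ⊢
    have h3 : (3 : ResidueField O) = 0 := by exact_mod_cast CharP.cast_eq_zero (ResidueField O) 3
    rw [← Nat.mod_add_div n 3, Nat.cast_add, Nat.cast_mul, Nat.cast_ofNat, h3, zero_mul,
      add_zero] at h0 ⊢
    have hlt := Nat.mod_lt n (show 3 > 0 by norm_num)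
    interval_cases n % 3
    · simp at h0
    · exact Or.inl Nat.cast_one
    · exact Or.inr (by rw [Nat.cast_ofNat]; linear_combination h3)
  -- inertia inverting the cube roots of unity has determinant `-1`
  obtain ⟨c, -, hc⟩ := Mazur.Eisenstein.exists_inertia_inv
    (CFT.Local.padicPlace_liesOverPrime 3) hp 1
  have hcdet : (r c).det = -1 := by
    have h : (r c).det = ((2 : ℕ) : ResidueField O) := hcyc c 2 fun μ hμ => by
      rw [hc μ (by rwa [pow_one])]; exact inv_eq_of_mul_eq_one_right (by rw [← pow_succ', hμ])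
    rw [h, Nat.cast_ofNat]
    have h3 : (3 : ResidueField O) = 0 := by exact_mod_cast CharP.cast_eq_zero (ResidueField O) 3
    linear_combination h3
  obtain ⟨g, hgd, hgt⟩ := exists_det_neg_trace_ne hr hdet hcdet
  -- a Frobenius of nonzero trace and determinant `-1`, so `ℓ ≡ 2` modulo `3`
  obtain ⟨ℓ, hℓ, hℓS, ht, hd⟩ := exists_frobenius_matRes b g (S ∪ {3})
  simp only [Finset.mem_union, Finset.mem_singleton, not_or] at hℓS
  refine Or.inr ⟨ℓ, hℓ, hℓS.1, ?_, fun h => hgt (ht.trans h)⟩
  rcases (show ℓ % 3 = 0 ∨ ℓ % 3 = 1 ∨ ℓ % 3 = 2 by omega) with h | h | h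
  · exact absurd ((Nat.prime_dvd_prime_iff_eq hp hℓ).mp (Nat.dvd_of_mod_eq_zero h)).symm hℓS.2
  · exfalso
    have h1 : (ℓ : ResidueField O) = 1 := by
      rw [← Nat.mod_add_div ℓ 3, h, Nat.cast_add, Nat.cast_mul,
        show ((3 : ℕ) : ResidueField O) = 0 from CharP.cast_eq_zero (ResidueField O) 3, zero_mul,
        add_zero, Nat.cast_one]
    refine hr.two ?_
    linear_combination (hd.symm.trans hgd).symm.trans h1 * (-1)
  · exact h

end Fermat.Agent.RT.LowerB
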