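import Fermat.Agent.RT.LowerB.Residual
import Fermat.Agent.RT.Modules.Hecke
import Fermat.Agent.RT.Glue.StdModel
import Fermat.Agent.RT.Glue.Basic

/-!
# The residual system of a semistable curve at a level

`Data` collects the standing hypotheses: a semistable model, an odd `p` with irreducible mod `p`
representation satisfying the Taylor–Wiles hypothesis, and a finite set of primes containing `p`
and the bad primes. It gives absolute irreducibility, the residual traces and the hypotheses of
the Hecke module (`Data.hyp`), for the other files of `RT/LowerB` and for `RT/Lifting`.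
-/

set_option autoImplicit false

noncomputable section

namespace Fermat.Agent.RT.LowerB

open IsLocalRing Fermat.Agent.RT.Glue
open Fermat.Agent.Deform (Gal M2)
open GaloisReps (HeckeGaloisModel)

variable {O : Type} [CommRing O] [IsDomain O] [IsDiscreteValuationRing O]
  [IsAdicComplete (maximalIdeal O) O] [Finite (ResidueField O)] [CharZero O]
  {p : ℕ} [Fact p.Prime] [CharP (ResidueField O) p] [Algebra (ZMod p) (ResidueField O)]

variable (O p) in
/-- The standing hypotheses: a semistable model, an odd `p` with irreducible mod `p` representation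
satisfying the Taylor–Wiles hypothesis, and a finite set of primes containing `p` and the bad
ones. -/
structure Data (W : WeierstrassCurve ℤ) (hΔ : W.Δ ≠ 0) (S : Finset ℕ)
    (b : Module.Basis (Fin 2) (ResidueField O) (Core.rhoBar W p hΔ (ResidueField O)).V) : Prop where
  semistable : W.IsSemistableModel
  ne_two : p ≠ 2
  irr : W.ModRepIsIrreducible p
  twHyp : CFT.TWPrimes.TWHyp (Deform.matRes (Core.rhoBar W p hΔ (ResidueField O)) b)
  p_mem : p ∈ S
  bad_mem : ∀ ℓ : ℕ, ℓ.Prime → (ℓ : ℤ) ∣ W.Δ → ℓ ∈ S
  p_small : (p : O) ∈ maximalIdeal O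

variable {W : WeierstrassCurve ℤ} {hΔ : W.Δ ≠ 0} {S : Finset ℕ}
  {b : Module.Basis (Fin 2) (ResidueField O) (Core.rhoBar W p hΔ (ResidueField O)).V}

namespace Data

variable (d : Data O p W hΔ S b)

include d

omit [IsAdicComplete (maximalIdeal O) O] [Finite (ResidueField O)] [CharZero O]
  [CharP (ResidueField O) p] in
/-- The residual representation is absolutely irreducible. -/
theorem absIrr : (Core.rhoBar W p hΔ (ResidueField O)).IsAbsolutelyIrreducible :=
  Core.isAbsolutelyIrreducible_rhoBar d.ne_two d.irr

omit [IsAdicComplete (maximalIdeal O) O] [Finite (ResidueField O)] [CharZero O]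
  [CharP (ResidueField O) p] in
/-- The residual representation has the characteristic polynomials of the residual system. -/
theorem hasCharpolys : HasCharpolys S (Core.abar W (ResidueField O))
    (Core.rhoBar W p hΔ (ResidueField O)) := fun ℓ hℓ hℓS _A hA _s hs =>
  Core.charpoly_rhoBar_frobenius hℓ (fun h => hℓS (d.bad_mem ℓ hℓ h)) (fun h => hℓS (h ▸ d.p_mem))
    hA hs

omit [IsAdicComplete (maximalIdeal O) O] [Finite (ResidueField O)] [CharZero O]
  [CharP (ResidueField O) p] in
/-- The standing hypotheses persist for a larger finite set of primes. -/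
theorem mono {T : Finset ℕ} (h : S ⊆ T) : Data O p W hΔ T b :=
  { d with p_mem := h d.p_mem, bad_mem := fun ℓ hℓ hd => h (d.bad_mem ℓ hℓ hd) }

omit [IsAdicComplete (maximalIdeal O) O] [Finite (ResidueField O)] [CharZero O] in
/-- The hypotheses of the Hecke module of a level. -/
theorem hyp {L : ℕ} {Δ : Type} [CommGroup Δ] {ψ : (ZMod L)ˣ →* Δ} (hΔp : IsPGroup p Δ)
    (hψ : Function.Surjective ψ) (hL : Squarefree L)
    (hS : ∀ v : ℕ, v.Prime → v ∣ L → v ∈ S) :
    Modules.Hyp p ψ S (Core.abar W (ResidueField O)) where
  ne_two := d.ne_two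
  isPGroup := hΔp
  surjective := hψ
  squarefree := hL
  mem_of_dvd := hS
  nonEis := exists_nonEis b d.twHyp S
  ell := ellOK b d.twHyp d.ne_two S

end Data

/-- The models used for gluing. -/
abbrev models (p : ℕ) [Fact p.Prime] : ∀ (M : ℕ) [NeZero M], HeckeGaloisModel M p :=
  fun M _ => stdModel p M

omit [IsAdicComplete (maximalIdeal O) O] [Finite (ResidueField O)] [CharZero O] in
omit [CharP (ResidueField O) p] [Algebra (ZMod p) (ResidueField O)] in
/-- The trace of the glued representation lifts the residual trace. -/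
theorem residue_trace {L : ℕ} {Δ : Type} [CommGroup Δ]
    {ψ : (ZMod L)ˣ →* Δ} {abar : ℕ → ResidueField O} {H : HeckeModule L ψ S abar}
    [IsLocalRing H.algebra] [IsLocalHom (algebraMap O H.algebra)]
    {hS : ∀ q : ℕ, q.Prime → q ∣ L → q ∈ S} {D : ∀ (M : ℕ) [NeZero M], HeckeGaloisModel M p}
    {pt : ∀ θ : H.algebra →ₐ[O] KBar O, Point (p := p) H hS θ.toRingHom} (G : Glued D pt)
    {ρbar : ResidualGaloisRep (ResidueField O)}
    (hG : G.rep.residual.IsEquiv
      (ρbar.baseChangeAlong (ResidueField.map (algebraMap O H.algebra))))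
    (σ : GaloisReps.AbsGal) : residue H.algebra (G.R σ).trace =
      ResidueField.map (algebraMap O H.algebra)
        (LinearMap.trace (ResidueField O) ρbar.V (ρbar.ρ σ)) := by
  obtain ⟨e⟩ := hG
  have h1 : LinearMap.trace (ResidueField H.algebra) _ (G.rep.residual.ρ σ) =
      residue H.algebra (LinearMap.trace H.algebra G.rep.V (G.rep.ρ σ)) := by
    show LinearMap.trace _ _ ((G.rep.ρ σ).baseChange _) = _
    rw [LinearMap.trace_baseChange, ResidueField.algebraMap_eq]
  rw [← G.trace_rep, ← h1]
  set φ := ResidueField.map (algebraMap O H.algebra)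
  have h2 : e.toLinearEquiv.conj (G.rep.residual.ρ σ) = (ρbar.baseChangeAlong φ).ρ σ :=
    LinearMap.ext fun x => by
      rw [LinearEquiv.conj_apply_apply, e.map_apply, LinearEquiv.apply_symm_apply]
  rw [← LinearMap.trace_conj' (G.rep.residual.ρ σ) e.toLinearEquiv, h2]
  let : Algebra (ResidueField O) (ResidueField H.algebra) := φ.toAlgebra
  show LinearMap.trace _ _ ((ρbar.ρ σ).baseChange _) = _
  rw [LinearMap.trace_baseChange]
  rfl

end Fermat.Agent.RT.LowerB
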